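import Fermat.Agent.ThmC.Unif
import Fermat.Agent.CarE.Desc
import Fermat.Agent.SemiSt.Galois
import Fermat.Agent.Flat.Fib

/-!
# Lifting functions regular outside the cusps to the fixed field of inertia
-/

set_option autoImplicit false
set_option linter.style.haveILetI false
set_option linter.unusedSectionVars false

noncomputable section

namespace Fermat.Agent.ThmC

open ModularCurve Polynomial IntermediateField Fermat.Agent.ModPoly Fermat.Agent.Red AlgebraicCurve
open Fermat.Agent.RR Fermat.Agent.Cusp Fermat.Agent.RedMod Fermat.Agent.Spec Fermat.Agent.Curve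

attribute [local instance] algFF

/-! ### stability of the spaces of functions regular outside the cusps -/

section Stable

variable {K₀ K : Type*} [Field K₀] [Field K] [IsAlgClosed K] [Algebra K₀ K] {N : ℕ} [NeZero N]

theorem exists_place_gal (σ : K ≃ₐ[K₀] K) (v : Place K (FF K N)) :
    ∃ (v' : Place K (FF K N)) (c : ℤ), 0 < c ∧ ∀ f : FF K N, f ≠ 0 →
      v.ord (CarE.gal N σ f) = c * v'.ord f := by
  have hne : ∀ f : FF K N, f ≠ 0 → CarE.gal N σ f ≠ 0 := fun f hf => by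
    rwa [ne_eq, map_eq_zero]
  apply exists_place_of_valuation (K := K) (fun f : FF K N => v.ord (CarE.gal N σ f))
  · intro f g hf hg
    simp only [map_mul]
    exact v.ord_mul (hne f hf) (hne g hg)
  · intro f g hf hg hfg
    simp only [map_add]
    exact le_ord_add v (by rw [← map_add]; exact hne _ hfg) (min_le_left _ _)
      (min_le_right _ _) (hne f hf) (hne g hg)
  · intro a ha
    simp only [CarE.gal_algebraMap]
    exact ord_algebraMap v _
  · obtain ⟨f, hf, h1⟩ := exists_ord_eq v 1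
    refine ⟨CarE.gal N σ.symm f, by rwa [ne_eq, map_eq_zero], ?_⟩
    have h2 : CarE.gal N σ (CarE.gal N σ.symm f) = f := by
      apply Subtype.ext
      ext m
      rw [CarE.gal_coeff, CarE.gal_coeff, AlgEquiv.apply_symm_apply]
    simp only [h2, h1]
    exact one_ne_zero

theorem gal_jF (σ : K ≃ₐ[K₀] K) : CarE.gal N σ (jF' K N) = jF' K N := SemiSt.act_jF _

theorem gal_mem_LL (σ : K ≃ₐ[K₀] K) [FunField K (FF K N)] {a : ℕ} {x : FF K N}
    (hx : x ∈ LL (poleDiv K (jF' K N)) (zeroDiv K (jF' K N)) 0 a 0) :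
    CarE.gal N σ x ∈ LL (poleDiv K (jF' K N)) (zeroDiv K (jF' K N)) 0 a 0 := by
  rw [mem_LL] at hx ⊢
  intro v
  by_cases hx0 : x = 0
  · left; rw [hx0, map_zero]
  right
  obtain ⟨v', c, hc, h⟩ := exists_place_gal σ v
  have h1 := (hx v').resolve_left hx0
  have h2 := h _ hx0
  have h3 := h (jF' K N) jF_ne_zero
  rw [gal_jF] at h3
  simp only [Nat.cast_zero, zero_mul, add_zero, Finsupp.coe_zero, Pi.zero_apply] at h1 ⊢
  rw [poleDiv_apply] at h1 ⊢
  rw [h2, h3]
  have h4 : max (-(c * v'.ord (jF' K N))) 0 = c * max (-v'.ord (jF' K N)) 0 := by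
    rw [mul_max_of_nonneg _ _ hc.le, mul_zero, mul_neg]
  rw [h4]
  have := mul_le_mul_of_nonneg_left h1 hc.le
  linarith [mul_left_comm (a : ℤ) c (max (-v'.ord (jF' K N)) 0)]

end Stable

/-! ### the lifting theorem -/

section Lift

variable {A₀ K₀ A K k : Type*} [CommRing A₀] [IsDomain A₀] [ValuationRing A₀] [Field K₀]
  [Algebra A₀ K₀] [IsFractionRing A₀ K₀] [CommRing A] [IsDomain A] [ValuationRing A]
  [Field K] [IsAlgClosed K] [Algebra A K] [IsFractionRing A K] [Field k] [IsAlgClosed k]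
  [Algebra A k] [Algebra A₀ k] [Algebra K₀ K] [Algebra.IsAlgebraic K₀ K] {N : ℕ} [NeZero N]

/-- reduction over the two rings is compatible -/
theorem emb_mem_WL (j : A₀ →+* A) (hj1 : ∀ a, algebraMap K₀ K (algebraMap A₀ K₀ a) = algebraMap A K (j a))
    (hj2 : ∀ a, algebraMap A₀ k a = algebraMap A k (j a)) {x : FF K₀ N}
    (hx : (x : LaurentSeries K₀) ∈ WL A₀ K₀ k) :
    ∃ h : (CarE.emb K₀ K N x : LaurentSeries K) ∈ WL A K k,
      πL A K k ⟨CarE.emb K₀ K N x, h⟩ = πL A₀ K₀ k ⟨x, hx⟩ := by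
  obtain ⟨h1, h2⟩ := SemiSt.coeffMap_mem_WL (A := A₀) (A' := A) (K := K₀) (K' := K) (k := k) (k' := k)
    j (algebraMap K₀ K) (RingHom.id k) hj1 hj2 hx
  refine ⟨h1, ?_⟩
  rw [coeffMap_id] at h2
  exact h2

theorem exists_lift_gen [CharZero K] [Algebra ℚ K] (ι : K →+* ℂ)
    (hfix : ∀ x : K, (∀ σ : K ≃ₐ[K₀] K, σ x = x) → x ∈ Set.range (algebraMap K₀ K))
    (j : A₀ →+* A) (hj1 : ∀ a, algebraMap K₀ K (algebraMap A₀ K₀ a) = algebraMap A K (j a))
    (hj2 : ∀ a, algebraMap A₀ k a = algebraMap A k (j a))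
    (hk₀ : Function.Surjective (algebraMap A₀ k)) (hN : (N : k) ≠ 0)
    (z : FF k N) (hz : ∀ Q : Place k (FF k N), 0 ≤ Q.ord (jF' k N) → 0 ≤ Q.ord z) :
    ∃ (y : FF K₀ N) (hy : (y : LaurentSeries K₀) ∈ WL A₀ K₀ k), πL A₀ K₀ k ⟨y, hy⟩ = z ∧
      ∀ v : Place K (FF K N), 0 ≤ v.ord (jF' K N) → 0 ≤ v.ord (CarE.emb K₀ K N y) := by
  have hk : Function.Surjective (algebraMap A k) := by
    intro c
    obtain ⟨a, ha⟩ := hk₀ c
    exact ⟨j a, by rw [← hj2, ha]⟩
  have hNK := natCast_K (A := A) (K := K) hN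
  haveI := funField_FF (k := K) (M := N) hNK
  haveI := funField_FF (k := k) (M := N) hN
  have H := fibreHyp (K := K) (N := N) hk hN
  rw [rrGenus_eq_level ι hk hN] at H
  obtain ⟨n0, hn0⟩ := rd_eq_LL H
  obtain ⟨a0, ha0⟩ := exists_pole_bound (jF' k N) hz
  let a := max a0 n0
  have hza : z ∈ LL (poleDiv k (jF' k N)) (zeroDiv k (jF' k N)) 0 a 0 :=
    LL_mono (poleZero_jF hN) 0 (le_max_left _ _) le_rfl ha0
  rw [← hn0 a 0 (by have := le_max_right a0 n0; omega)] at hza
  let V : Submodule K (FF K N) := LL (poleDiv K (jF' K N)) (zeroDiv K (jF' K N)) 0 a 0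
  haveI hVfin : FiniteDimensional K V := H.finiteDimensional_LL 0 a 0
  let D := CarE.desc N hfix
  have hst : D.Stable V := by
    rintro _ ⟨σ, rfl⟩ x hx
    exact gal_mem_LL σ hx
  haveI := Car.Desc.finite_low hst
  have hdim := Car.Desc.finrank_low hst
  -- the model over the small ring
  let M₀ : RedModel A₀ K₀ (FF K₀ N) k (FF k N) :=
    (gaussFF K₀ hk₀ hN).toRedModel hk₀ (gaussFF_span hk₀ hN)
  have hd1 := M₀.finrank_rd hk₀ (D.low V)
  have hd2 := H.M.finrank_rd H.hk V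
  have hle : M₀.rd hk₀ (D.low V) ≤ H.M.rd H.hk V := by
    rintro _ ⟨x, ⟨hxW, hxV⟩, rfl⟩
    obtain ⟨h1, h2⟩ := emb_mem_WL (A := A) (k := k) j hj1 hj2 (x := x) hxW
    refine ⟨CarE.emb K₀ K N x, ⟨h1, hxV⟩, ?_⟩
    exact Subtype.ext h2
  haveI := H.M.finiteDimensional_rd H.hk V
  have heq := Submodule.eq_of_le_of_finrank_eq hle (by rw [hd1, hd2, hdim])
  have hz2 : z ∈ M₀.rd hk₀ (D.low V) := by rw [heq]; exact hza
  obtain ⟨y, ⟨hyW, hyV⟩, hyz⟩ := hz2
  refine ⟨y, hyW, congrArg Subtype.val hyz, fun v hv => ?_⟩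
  have h1 := (mem_LL.1 hyV) v
  rw [poleDiv_apply, max_eq_right (by omega)] at h1
  simp only [Nat.cast_zero, zero_mul, add_zero, mul_zero, Finsupp.coe_zero, Pi.zero_apply,
    neg_zero] at h1
  rcases h1 with h1 | h1
  · have h2 : CarE.emb K₀ K N y = 0 := h1
    rw [h2, v.ord_zero]
  · exact h1

end Lift

/-! ### over the fixed field of inertia -/

section Inertia

open Fermat.Agent.Flat

variable {A : ValuationSubring (AlgebraicClosure ℚ)} {q M : ℕ} [Fact q.Prime] [NeZero M]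

variable (A) in
/-- the inclusion of `R0 A` in its fraction field -/
def inclRK : R0 A →+* K0 A where
  toFun z := ⟨z, z.2.2⟩
  map_one' := rfl
  map_mul' _ _ := rfl
  map_zero' := rfl
  map_add' _ _ := rfl

variable (A) in
/-- `K0 A` as an algebra over `R0 A` -/
@[reducible] def algRK : Algebra (R0 A) (K0 A) := (inclRK A).toAlgebra

attribute [local instance] algRK

theorem isFractionRing_RK : IsFractionRing (R0 A) (K0 A) := by
  have hinj : Function.Injective (algebraMap (R0 A) (K0 A)) := by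
    intro x y h
    apply Subtype.ext
    exact congrArg (fun z : K0 A => (z : AlgebraicClosure ℚ)) h
  refine ⟨?_, ?_, ?_⟩
  · intro y
    refine IsUnit.mk0 _ ?_
    rw [ne_eq, map_eq_zero_iff _ hinj]
    exact nonZeroDivisors.ne_zero y.2
  · intro z
    rcases A.mem_or_inv_mem (z : AlgebraicClosure ℚ) with h | h
    · refine ⟨(⟨(z : AlgebraicClosure ℚ), h, z.2⟩, 1), ?_⟩
      rw [Submonoid.coe_one, map_one, mul_one]
      rfl
    · by_cases hz : z = 0
      · refine ⟨(0, 1), ?_⟩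
        rw [hz, zero_mul, map_zero]
      · have hz' : (z : AlgebraicClosure ℚ) ≠ 0 := fun h0 => hz (Subtype.ext h0)
        have h1 : (⟨(z : AlgebraicClosure ℚ)⁻¹, h, (K0 A).inv_mem z.2⟩ : R0 A) ≠ 0 := by
          intro h0
          have := congrArg (fun z : R0 A => (z : AlgebraicClosure ℚ)) h0
          exact inv_ne_zero hz' this
        refine ⟨(1, ⟨_, mem_nonZeroDivisors_of_ne_zero h1⟩), ?_⟩
        apply Subtype.ext
        exact mul_inv_cancel₀ hz'
  · intro x y h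
    exact ⟨1, by rw [hinj h]⟩

/-- **lifting over the fixed field of inertia** (surjectivity at level `M`) -/
theorem exists_lift_K0 (hA : A.LiesOverPrime q) (hM : ¬ q ∣ M)
    (z : FF (IsLocalRing.ResidueField A) M)
    (hz : ∀ Q : Place (IsLocalRing.ResidueField A) (FF (IsLocalRing.ResidueField A) M),
      0 ≤ Q.ord (jF' (IsLocalRing.ResidueField A) M) → 0 ≤ Q.ord z) :
    haveI := isFractionRing_RK (A := A)
    ∃ (y : FF (K0 A) M) (hy : (y : LaurentSeries (K0 A)) ∈
        WL (R0 A) (K0 A) (IsLocalRing.ResidueField A)),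
      πL (R0 A) (K0 A) (IsLocalRing.ResidueField A) ⟨y, hy⟩ = z ∧
      (∃ h : (CarE.emb (K0 A) (AlgebraicClosure ℚ) M y : LaurentSeries (AlgebraicClosure ℚ)) ∈
          WL A (AlgebraicClosure ℚ) (IsLocalRing.ResidueField A),
        πL A (AlgebraicClosure ℚ) (IsLocalRing.ResidueField A)
          ⟨CarE.emb (K0 A) (AlgebraicClosure ℚ) M y, h⟩ = z) ∧
      ∀ v : Place (AlgebraicClosure ℚ) (FF (AlgebraicClosure ℚ) M),
        0 ≤ v.ord (jF' (AlgebraicClosure ℚ) M) →
          0 ≤ v.ord (CarE.emb (K0 A) (AlgebraicClosure ℚ) M y) := by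
  haveI := isFractionRing_RK (A := A)
  haveI := charP_residue hA
  haveI : IsAlgClosed (IsLocalRing.ResidueField A) := isAlgClosed_residueField A
  haveI : IsDiscreteValuationRing (R0 A) := isDVR hA
  have hN : (M : IsLocalRing.ResidueField A) ≠ 0 := natCast_residue_ne_zero hA hM
  haveI : Algebra.IsAlgebraic ℚ (AlgebraicClosure ℚ) := AlgebraicClosure.isAlgebraic ℚ
  haveI : Algebra.IsAlgebraic (K0 A) (AlgebraicClosure ℚ) :=
    Algebra.IsAlgebraic.tower_top (K := ℚ) (K0 A)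
  have ι : AlgebraicClosure ℚ →+* ℂ :=
    (IsAlgClosed.lift (R := ℚ) (M := ℂ) (S := AlgebraicClosure ℚ)).toRingHom
  have hj1 : ∀ a : R0 A, algebraMap (K0 A) (AlgebraicClosure ℚ) (algebraMap (R0 A) (K0 A) a) =
      algebraMap A (AlgebraicClosure ℚ) (inclR0 A a) := fun a => rfl
  have hj2 : ∀ a : R0 A, algebraMap (R0 A) (IsLocalRing.ResidueField A) a =
      algebraMap A (IsLocalRing.ResidueField A) (inclR0 A a) := fun a => rfl
  obtain ⟨y, hy, h1, h2⟩ := exists_lift_gen (A₀ := R0 A) (K₀ := K0 A) (A := A)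
    (K := AlgebraicClosure ℚ) (k := IsLocalRing.ResidueField A) ι
    (fun x hx => ⟨⟨x, mem_K0_of_fixed A hx⟩, rfl⟩) (inclR0 A) hj1 hj2
    (algebraMap_kk_surjective hA) hN z hz
  obtain ⟨h3, h4⟩ := emb_mem_WL (A₀ := R0 A) (K₀ := K0 A) (A := A) (K := AlgebraicClosure ℚ)
    (k := IsLocalRing.ResidueField A) (inclR0 A) hj1 hj2 hy
  exact ⟨y, hy, h1, ⟨h3, h4.trans h1⟩, h2⟩

/-- **(H7) over the fixed field of inertia** -/
theorem exists_unif_K0 (hA : A.LiesOverPrime q) (hM : ¬ q ∣ M) {r : ℕ} (hr : r.Prime)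
    (hr12 : r % 12 = 11) (hrM : r ∣ M)
    (Q : Place (IsLocalRing.ResidueField A) (FF (IsLocalRing.ResidueField A) M))
    (hQ : 0 ≤ Q.ord (jF' (IsLocalRing.ResidueField A) M)) :
    haveI := isFractionRing_RK (A := A)
    ∃ (y : FF (K0 A) M) (hy : (y : LaurentSeries (K0 A)) ∈
        WL (R0 A) (K0 A) (IsLocalRing.ResidueField A)) (z : FF (IsLocalRing.ResidueField A) M),
      πL (R0 A) (K0 A) (IsLocalRing.ResidueField A) ⟨y, hy⟩ = z ∧ Q.ord z = 1 ∧
      (∀ v : Place (AlgebraicClosure ℚ) (FF (AlgebraicClosure ℚ) M),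
        0 ≤ v.ord (jF' (AlgebraicClosure ℚ) M) →
          0 ≤ v.ord (CarE.emb (K0 A) (AlgebraicClosure ℚ) M y)) ∧
      ∃ g : FF (IsLocalRing.ResidueField A) M,
        theta (z : LaurentSeries (IsLocalRing.ResidueField A)) =
          (g : LaurentSeries (IsLocalRing.ResidueField A)) *
            theta (jqModC (IsLocalRing.ResidueField A)) ∧
        g ^ 6 * jF' (IsLocalRing.ResidueField A) M ^ 4 *
          (jF' (IsLocalRing.ResidueField A) M - 1728) ^ 3 ≠ 0 ∧
        Q.ord (g ^ 6 * jF' (IsLocalRing.ResidueField A) M ^ 4 *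
          (jF' (IsLocalRing.ResidueField A) M - 1728) ^ 3) = 0 := by
  haveI := isFractionRing_RK (A := A)
  haveI := charP_residue hA
  haveI : IsAlgClosed (IsLocalRing.ResidueField A) := isAlgClosed_residueField A
  have hN : (M : IsLocalRing.ResidueField A) ≠ 0 := natCast_residue_ne_zero hA hM
  haveI := funField_FF (k := IsLocalRing.ResidueField A) (M := M) hN
  have hk : Function.Surjective (algebraMap A (IsLocalRing.ResidueField A)) :=
    IsLocalRing.residue_surjective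
  haveI : Algebra.IsAlgebraic ℚ (AlgebraicClosure ℚ) := AlgebraicClosure.isAlgebraic ℚ
  have ι : AlgebraicClosure ℚ →+* ℂ :=
    (IsAlgClosed.lift (R := ℚ) (M := ℂ) (S := AlgebraicClosure ℚ)).toRingHom
  obtain ⟨a, -, z, hzL, hz1⟩ := exists_simple_zero
    (RR.transcendental_jF (k := IsLocalRing.ResidueField A) M) Q hQ 0
  obtain ⟨y, hy, h1, ⟨h2, h3⟩, h4⟩ := exists_lift_K0 hA hM z (by
    intro w hw
    have h1 := (mem_LL.1 hzL) w
    rw [poleDiv_apply, max_eq_right (by omega)] at h1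
    simp only [Nat.cast_zero, zero_mul, add_zero, mul_zero, Finsupp.coe_zero, Pi.zero_apply,
      neg_zero] at h1
    rcases h1 with h1 | h1
    · rw [h1, w.ord_zero]
    · exact h1)
  have hred : redFF (AlgebraicClosure ℚ) hk hN
      ⟨CarE.emb (K0 A) (AlgebraicClosure ℚ) M y, h2⟩ = z := Subtype.ext h3
  obtain ⟨g, hg1, hg2, hg3⟩ := zz_of_unif (A := A) (K := AlgebraicClosure ℚ) ι hk hN
    (nuTwo_eq_zero_of_prime hr hr12 hrM) (nuThree_eq_zero_of_prime hr hr12 hrM) hQ
    (u := CarE.emb (K0 A) (AlgebraicClosure ℚ) M y) h2 h4 (by rw [hred]; exact hz1)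
  rw [hred] at hg1
  refine ⟨y, hy, z, h1, hz1, h4, g, hg1, ?_, ?_⟩
  · rwa [zz, map_ofNat] at hg2
  · rwa [zz, map_ofNat] at hg3

end Inertia

end Fermat.Agent.ThmC
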