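import Fermat.Agent.RR.Three

/-!
# The dimension of a canonical space is at most the genus
-/

set_option autoImplicit false
set_option linter.style.haveILetI false
set_option linter.unusedSectionVars false

namespace Fermat.Agent.ThmC

open AlgebraicCurve Fermat.Agent.Curve Polynomial IntermediateField Fermat.Agent.RR

variable {K F : Type*} [Field K] [IsAlgClosed K] [Field F] [Algebra K F]

variable [hF : FunField K F]

/-- The bound, with all ramification over finite values of `t`. -/
theorem ell_le_finite {t : F} (ht : Transcendental K t) [FiniteDimensional K⟮t⟯ F]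
    [Algebra.IsSeparable K⟮t⟯ F]
    (S : Finset (Place K F)) (e : Place K F → ℤ) (α : Place K F → K)
    (hS : ∀ v ∈ S, v.ord (t - algebraMap K F (α v)) = e v ∧ 0 < e v)
    (D : Divisor K F) (hinf : ∀ v, v.ord t < 0 → D v ≤ 2 * v.ord t)
    (hfin : ∀ v, 0 ≤ v.ord t → v ∉ S → D v ≤ 0) (hDS : ∀ v ∈ S, D v ≤ e v - 1) :
    ell D ≤ rrGenus K F := by
  classical
  obtain ⟨B⟩ := exists_homogBasis (K := K) ht
  have hsum := B.sum_a ht
  set n := Module.finrank K⟮t⟯ F with hn
  have ht0 : t ≠ 0 := by
    rintro rfl
    exact ht isAlgebraic_zero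
  have hSt : ∀ v ∈ S, 0 ≤ v.ord t := by
    intro v hv
    have h1 := hS v hv
    have h3 : Ge v 0 t := by
      have h4 : Ge v 0 ((t - algebraMap K F (α v)) + algebraMap K F (α v)) :=
        (Ge.of_le (by omega)).add (Ge.algebraMap v _)
      rwa [sub_add_cancel] at h4
    exact h3.le_ord ht0
  have hDmem : ∀ (f : F), f ∈ riemannRochSpace D → ∀ i, ∃ P : K[X],
      P ∈ degreeLT K (B.a i - 1) ∧
        aeval (AdjoinSimple.gen K t) P = Algebra.trace K⟮t⟯ F (B.y i * f) := by
    intro f hf i
    rw [mem_L] at hf
    have hy := B.mem i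
    rw [mem_Lm] at hy
    have hinf' : ∀ v : Place K F, v.ord t < 0 → Ge v (((B.a i : ℤ) - 2) * v.ord t) (B.y i * f) := by
      intro v hv
      have h1 := hy v
      rw [min_eq_left hv.le] at h1
      have h2 := hf v
      have h3 := hinf v hv
      exact (h1.mul h2).mono (by linarith)
    have hfin' : ∀ v : Place K F, 0 ≤ v.ord t → v ∉ S → Ge v 0 (B.y i * f) := by
      intro v hv hvS
      have h1 := hy v
      rw [min_eq_right hv, mul_zero] at h1
      have h2 := hf v
      have h3 := hfin v hv hvS
      exact (h1.mul h2).mono (by linarith)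
    have hS' : ∀ v ∈ S, Ge v (-(e v - 1)) (B.y i * f) := by
      intro v hvS
      have h1 := hy v
      rw [min_eq_right (hSt v hvS), mul_zero] at h1
      have h2 := hf v
      have h3 := hDS v hvS
      exact (h1.mul h2).mono (by linarith)
    by_cases ha : 2 ≤ B.a i
    · obtain ⟨P, hP, hP2⟩ := trace_mem_degreeLT ht S e α hS (B.a i - 2) (f := B.y i * f)
        (by
          intro v hv
          have h4 : ((B.a i - 2 : ℕ) : ℤ) = (B.a i : ℤ) - 2 := by omega
          rw [h4]
          exact hinf' v hv) hfin' hS'
      refine ⟨P, ?_, hP2⟩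
      have h5 : B.a i - 2 + 1 = B.a i - 1 := by omega
      rwa [h5] at hP
    · -- the trace vanishes
      have ha' : B.a i ≤ 1 := by omega
      obtain ⟨Q, hQ, hQ2⟩ := trace_mem_degreeLT ht S e α hS 0 (f := B.y i * f)
        (by
          intro v hv
          refine (hinf' v hv).mono ?_
          have h4 : ((B.a i : ℤ) - 2) ≤ -1 := by omega
          push_cast
          nlinarith) hfin' hS'
      obtain ⟨P, hP, hP2⟩ := trace_mem_degreeLT ht S e α hS 0 (f := t * (B.y i * f))
        (by
          intro v hv
          have h3 : Ge v (v.ord t) t := Ge.of_le le_rfl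
          refine (h3.mul (hinf' v hv)).mono ?_
          have h4 : ((B.a i : ℤ) - 2) ≤ -1 := by omega
          push_cast
          nlinarith)
        (by
          intro v hv hvS
          have h3 : Ge v 0 t := Ge.of_le hv
          exact (h3.mul (hfin' v hv hvS)).mono (by simp))
        (by
          intro v hvS
          have h3 : Ge v 0 t := Ge.of_le (hSt v hvS)
          exact (h3.mul (hS' v hvS)).mono (by simp))
      have h6 : aeval (AdjoinSimple.gen K t) P = aeval (AdjoinSimple.gen K t) (X * Q) := by
        have h8 : aeval (AdjoinSimple.gen K t) (X * Q) =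
            AdjoinSimple.gen K t * aeval (AdjoinSimple.gen K t) Q := by rw [map_mul, aeval_X]
        rw [hP2, h8, hQ2]
        have h7 : t * (B.y i * f) = (AdjoinSimple.gen K t) • (B.y i * f) := rfl
        rw [h7, map_smul, smul_eq_mul]
      have h7 : P = X * Q := (transcendental_iff_injective.1 (transcendental_gen ht)) h6
      have hQ0 : Q = 0 := by
        by_contra hne
        rw [zero_add, mem_degreeLT_iff] at hP
        rcases hP with h8 | h8
        · rw [h8] at h7
          exact (mul_ne_zero X_ne_zero hne) h7.symm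
        · rw [h7, natDegree_X_mul hne] at h8
          omega
      refine ⟨0, zero_mem _, ?_⟩
      rw [map_zero, ← hQ2, hQ0, map_zero]
  -- the trace map
  let U : Fin n → Submodule K K⟮t⟯ := fun i =>
    (degreeLT K (B.a i - 1)).map (aeval (AdjoinSimple.gen K t) : K[X] →ₐ[K] K⟮t⟯).toLinearMap
  have hU : ∀ i, Module.finrank K (U i) ≤ B.a i - 1 := by
    intro i
    refine (Submodule.finrank_map_le _ _).trans ?_
    rw [finrank_degreeLT]
  let τ : Fin n → (F →ₗ[K] K⟮t⟯) := fun i =>
    ((Algebra.trace K⟮t⟯ F).restrictScalars K).comp (LinearMap.mulLeft K (B.y i))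
  have hτ : ∀ i (f : riemannRochSpace D), τ i (f : F) ∈ U i := by
    intro i f
    obtain ⟨P, hP, hP2⟩ := hDmem f f.2 i
    exact ⟨P, hP, hP2⟩
  let Φ : riemannRochSpace D →ₗ[K] (∀ i, U i) := LinearMap.pi fun i =>
    ((τ i).comp (riemannRochSpace D).subtype).codRestrict (U i) (hτ i)
  have hΦ : Function.Injective Φ := by
    rw [injective_iff_map_eq_zero]
    intro f hf
    have h1 : ∀ i, Algebra.trace K⟮t⟯ F (B.y i * f) = 0 := by
      intro i
      have := congrFun hf i
      exact congrArg Subtype.val this
    have hspan : Submodule.span K⟮t⟯ (Set.range B.y) = ⊤ :=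
      B.li.span_eq_top_of_card_eq_finrank' (by simp)
    have h2 : ∀ y : F, Algebra.trace K⟮t⟯ F (y * f) = 0 := by
      intro y
      have hy : y ∈ Submodule.span K⟮t⟯ (Set.range B.y) := by rw [hspan]; trivial
      induction hy using Submodule.span_induction with
      | mem y hy =>
        obtain ⟨i, rfl⟩ := hy
        exact h1 i
      | zero => rw [zero_mul, map_zero]
      | add y z _ _ hy hz => rw [add_mul, map_add, hy, hz, add_zero]
      | smul c y _ hy => rw [smul_mul_assoc, map_smul, hy, smul_zero]
    apply Subtype.ext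
    by_contra hne
    have h3 := traceForm_nondegenerate K⟮t⟯ F
    have h4 := h3.1 (f : F) (by
      intro y
      rw [Algebra.traceForm_apply, mul_comm]
      exact h2 y)
    exact hne h4
  haveI : ∀ i, Module.Finite K (U i) := fun i => inferInstance
  have hle := LinearMap.finrank_le_finrank_of_injective hΦ
  rw [Module.finrank_pi_fintype] at hle
  have hle2 : ell D ≤ ∑ i, (B.a i - 1) := hle.trans (Finset.sum_le_sum fun i _ => hU i)
  have h0 := B.ell_eq ht 0
  rw [zero_smul, ell_zero] at h0
  have h3 : ∑ i, (B.a i - 1) + n = ∑ i, B.a i + 1 := by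
    have h4 : ∑ i : Fin n, ((B.a i - 1) + 1) = ∑ i, (B.a i + (0 + 1 - B.a i)) :=
      Finset.sum_congr rfl fun i _ => by omega
    rw [Finset.sum_add_distrib, Finset.sum_add_distrib, ← h0] at h4
    simpa using h4
  have h4 : (ell D : ℤ) ≤ ((∑ i, (B.a i - 1) : ℕ) : ℤ) := by exact_mod_cast hle2
  have h5 : ((∑ i, (B.a i - 1) : ℕ) : ℤ) + n = ((∑ i, B.a i : ℕ) : ℤ) + 1 := by exact_mod_cast h3
  have h6 : (ell D : ℤ) ≤ rrGenus K F := by linarith
  exact_mod_cast h6

theorem exists_isRam {t : F} (ht : Transcendental K t) (v : Place K F) : ∃ e, IsRam t v e := by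
  have ht0 : ∀ a : K, t - algebraMap K F a ≠ 0 := by
    intro a h
    apply ht
    rw [sub_eq_zero.1 h]
    exact isAlgebraic_algebraMap a
  by_cases hv : v.ord t < 0
  · exact ⟨-v.ord t, by omega, Or.inl (by omega)⟩
  · push Not at hv
    obtain ⟨a, ha⟩ := exists_sub_ord_pos ht hv
    exact ⟨v.ord (t - algebraMap K F a), ha, Or.inr ⟨a, rfl⟩⟩

/-- **The bound**: `ℓ(D) ≤ g` when `D` is at most the divisor of `dt`, any characteristic. -/
theorem ell_le {t : F} (ht : Transcendental K t) [FiniteDimensional K⟮t⟯ F]
    [hsep : Algebra.IsSeparable K⟮t⟯ F] (D : Divisor K F) (e : Place K F → ℤ)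
    (he : ∀ v, IsRam t v (e v))
    (hD : ∀ v, D v ≤ (e v - 1) - 2 * max (-v.ord t) 0) :
    ell D ≤ rrGenus K F := by
  classical
  have hval : ∀ v : Place K F, ∃ a : K, v.ord t = -(e v) ∨
      v.ord (t - algebraMap K F a) = e v := by
    intro v
    rcases (he v).2 with h | ⟨a, ha⟩
    · exact ⟨0, Or.inl h⟩
    · exact ⟨a, Or.inr ha⟩
  choose a ha using hval
  haveI : Infinite K := IsAlgClosed.instInfinite
  obtain ⟨β, hβ⟩ := Infinite.exists_notMem_finset (D.support.image a)
  have hne : ∀ b : K, t - algebraMap K F b ≠ 0 := by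
    intro b h
    apply ht
    rw [sub_eq_zero.1 h]
    exact isAlgebraic_algebraMap b
  have ht' : Transcendental K (t - algebraMap K F β)⁻¹ := by
    apply Fermat.Agent.RR.transcendental_inv
    intro h
    apply ht
    have := h.add (isAlgebraic_algebraMap β)
    simpa using this
  have hadj := adjoin_inv_sub (K := K) t β
  haveI : FiniteDimensional K⟮(t - algebraMap K F β)⁻¹⟯ F := by rw [hadj]; infer_instance
  haveI : Algebra.IsSeparable K⟮(t - algebraMap K F β)⁻¹⟯ F := by rw [hadj]; exact hsep
  -- the new divisor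
  obtain ⟨D', hD'⟩ : ∃ D', D' = D - divisor K ((t - algebraMap K F β) ^ 2) := ⟨_, rfl⟩
  have hD'v : ∀ v, D' v = D v - 2 * v.ord (t - algebraMap K F β) := by
    intro v
    rw [hD']
    change D v - divisor K ((t - algebraMap K F β) ^ 2) v = _
    have h1 : divisor K ((t - algebraMap K F β) ^ 2) v = v.ord ((t - algebraMap K F β) ^ 2) :=
      divisor_apply _ _
    rw [h1, ord_pow]
    push_cast
    rfl
  have hell : ell D = ell D' := by
    rw [hD']
    exact (ell_sub_divisor (pow_ne_zero 2 (hne β)) D).symm
  rw [hell]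
  have hβv : ∀ v, D v ≠ 0 → v.ord (t - algebraMap K F β) ≤ 0 := by
    intro v hv
    by_contra hcon
    push Not at hcon
    apply hβ
    rw [Finset.mem_image]
    refine ⟨v, Finsupp.mem_support_iff.2 hv, ?_⟩
    have hvt : ¬ v.ord t < 0 := by
      intro hneg
      have := (ord_sub_eq_of_neg hneg β).2
      omega
    have hav : v.ord (t - algebraMap K F (a v)) = e v := by
      rcases ha v with h | h
      · have := (he v).1; omega
      · exact h
    by_contra hab
    have h3 : Ge v 1 ((t - algebraMap K F (a v)) - (t - algebraMap K F β)) :=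
      (Ge.of_le (by rw [hav]; exact (he v).1)).sub (Ge.of_le (by omega))
    rw [sub_sub_sub_cancel_left, ← map_sub] at h3
    have h4 : algebraMap K F (β - a v) ≠ 0 := by
      rw [ne_eq, map_eq_zero]
      exact sub_ne_zero.2 (Ne.symm hab)
    have h5 := h3.le_ord h4
    rw [ord_algebraMap] at h5
    omega
  -- finite places for the new variable
  let α : Place K F → K := fun v => if v.ord t < 0 then 0 else (a v - β)⁻¹
  have hram : ∀ v, v.ord (t - algebraMap K F β) ≤ 0 →
      v.ord ((t - algebraMap K F β)⁻¹ - algebraMap K F (α v)) = e v ∧ 0 < e v := by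
    intro v hvβ
    have hpos := (he v).1
    refine ⟨?_, hpos⟩
    by_cases hneg : v.ord t < 0
    · have hα : α v = 0 := if_pos hneg
      rw [hα, map_zero, sub_zero, v.ord_inv, (ord_sub_eq_of_neg hneg β).2]
      rcases ha v with h | h
      · omega
      · have := (ord_sub_eq_of_neg hneg (a v)).2
        omega
    · have hα : α v = (a v - β)⁻¹ := if_neg hneg
      rw [hα]
      have hav : v.ord (t - algebraMap K F (a v)) = e v := by
        rcases ha v with h | h
        · omega
        · exact h
      have hab : a v - β ≠ 0 := by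
        rw [sub_ne_zero]
        intro h
        rw [h] at hav
        omega
      have hab' : algebraMap K F (a v - β) ≠ 0 := by rwa [ne_eq, map_eq_zero]
      have hβ0 : v.ord (t - algebraMap K F β) = 0 := by
        have e1 : t - algebraMap K F β = algebraMap K F (a v - β) +
            (t - algebraMap K F (a v)) := by
          rw [map_sub]; ring
        rw [e1, ord_add_eq_of_lt v hab' (hne _) (by rw [ord_algebraMap, hav]; exact hpos),
          ord_algebraMap]
      have e2 : (t - algebraMap K F β)⁻¹ - algebraMap K F (a v - β)⁻¹ =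
          -((t - algebraMap K F (a v)) * ((t - algebraMap K F β)⁻¹ *
            (algebraMap K F (a v - β))⁻¹)) := by
        rw [map_inv₀]
        have h1 := hne β
        field_simp
        rw [map_sub]
        ring
      rw [e2, ord_neg, v.ord_mul (hne _) (mul_ne_zero (inv_ne_zero (hne _)) (inv_ne_zero hab')),
        v.ord_mul (inv_ne_zero (hne _)) (inv_ne_zero hab'), v.ord_inv, v.ord_inv, hβ0,
        ord_algebraMap, hav]
      ring
  let S : Finset (Place K F) := D'.support.filter fun v => 0 < D' v
  have hSβ : ∀ v ∈ S, v.ord (t - algebraMap K F β) ≤ 0 := by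
    intro v hv
    have h1 : 0 < D' v := (Finset.mem_filter.1 hv).2
    rw [hD'v] at h1
    by_cases h2 : D v = 0
    · omega
    · exact hβv v h2
  -- a uniform bound
  have hDle : ∀ v, v.ord (t - algebraMap K F β) ≤ 0 → D' v ≤ e v - 1 := by
    intro v hvβ
    rw [hD'v]
    have h1 := hD v
    by_cases hneg : v.ord t < 0
    · rw [(ord_sub_eq_of_neg hneg β).2]
      rw [max_eq_left (by omega)] at h1
      omega
    · rw [max_eq_right (by omega)] at h1
      have h2 : 0 ≤ v.ord (t - algebraMap K F β) := by
        have h3 : Ge v 0 (t - algebraMap K F β) :=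
          (Ge.of_le (by omega)).sub (Ge.algebraMap v _)
        exact h3.le_ord (hne β)
      omega
  refine ell_le_finite ht' S e α (fun v hv => hram v (hSβ v hv)) D' ?_ ?_ ?_
  · intro v hv
    rw [v.ord_inv] at hv ⊢
    rw [hD'v]
    have h0 : D v = 0 := by
      by_contra h0
      have := hβv v h0
      omega
    omega
  · intro v hv hvS
    by_contra hcon
    push Not at hcon
    exact hvS (Finset.mem_filter.2 ⟨Finsupp.mem_support_iff.2 (by omega), hcon⟩)
  · intro v hv
    exact hDle v (hSβ v hv)

end Fermat.Agent.ThmC
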