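import Fermat.Agent.ThmC.Kaehler
import Fermat.Agent.ThmC.Ell
import Fermat.Agent.Spec.Level

/-!
# The theta operator on Laurent series and its compatibility with reduction
-/

set_option autoImplicit false
set_option linter.style.haveILetI false
set_option linter.unusedSectionVars false

noncomputable section

namespace Fermat.Agent.ThmC

open ModularCurve Polynomial IntermediateField Fermat.Agent.ModPoly Fermat.Agent.Red AlgebraicCurve
open Fermat.Agent.RR Fermat.Agent.Cusp Fermat.Agent.RedMod Fermat.Agent.Spec Fermat.Agent.Curve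

section Ring

variable {R : Type*} [CommRing R]

/-- `q d/dq` over a ring -/
def th (x : LaurentSeries R) : LaurentSeries R where
  coeff n := (n : R) * x.coeff n
  isPWO_support' := x.isPWO_support.mono (by
    intro n hn
    rw [Function.mem_support] at hn
    rw [HahnSeries.mem_support]
    exact right_ne_zero_of_mul hn)

theorem th_coeff (x : LaurentSeries R) (n : ℤ) : (th x).coeff n = (n : R) * x.coeff n := rfl

theorem coeffMap_th {K : Type*} [Field K] (f : R →+* K) (x : LaurentSeries R) :
    coeffMap f (th x) = theta (coeffMap f x) := by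
  ext n
  rw [coeffMap_coeff, th_coeff, theta_coeff, coeffMap_coeff, map_mul, map_intCast]

end Ring

section WL

variable {A K k : Type*} [CommRing A] [IsDomain A]
  [Field K] [Algebra A K] [IsFractionRing A K] [Field k] [Algebra A k]

theorem theta_key {x : LaurentSeries K} {u v : LaurentSeries A}
    (h : incL A K v * x = incL A K u) :
    incL A K (v * v) * theta x = incL A K (v * th u - th v * u) := by
  have h1 := congrArg theta h
  rw [theta_mul, ← coeffMap_th, ← coeffMap_th] at h1
  rw [map_mul, map_sub, map_mul, map_mul, ← h]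
  linear_combination (incL A K v) * h1

theorem theta_mem_WL {x : LaurentSeries K} (hx : x ∈ WL A K k) : theta x ∈ WL A K k := by
  obtain ⟨u, v, hv, h⟩ := hx
  exact ⟨_, _, by rw [map_mul]; exact mul_ne_zero hv hv, theta_key h⟩

theorem quot_aux {L : Type*} [Field L] {U V U' V' X X' : L} (hV : V ≠ 0) (h : X * V = U)
    (h2 : X' * V + X * V' = U') : (V * U' - V' * U) / (V * V) = X' := by
  rw [div_eq_iff (mul_ne_zero hV hV), ← h2, ← h]
  ring

theorem πL_theta {x : LaurentSeries K} (hx : x ∈ WL A K k) (h' : theta x ∈ WL A K k) :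
    πL A K k ⟨theta x, h'⟩ = theta (πL A K k ⟨x, hx⟩) := by
  obtain ⟨u, v, hv, h⟩ := mem_WL.1 hx
  have h1 : redL A k (v * v) ≠ 0 := by rw [map_mul]; exact mul_ne_zero hv hv
  have e1 := πL_eq ⟨theta x, h'⟩ h1 (theta_key h)
  have e2 := πL_eq ⟨x, hx⟩ hv h
  obtain ⟨X, hX⟩ : ∃ X, X = πL A K k ⟨x, hx⟩ := ⟨_, rfl⟩
  rw [← hX] at e2 ⊢
  have h3 : X * redL A k v = redL A k u := by rw [e2, div_mul_cancel₀ _ hv]
  have h4 : theta X * redL A k v + X * redL A k (th v) = redL A k (th u) := by
    have := congrArg theta h3
    rw [theta_mul, ← coeffMap_th, ← coeffMap_th] at this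
    exact this
  rw [e1, map_mul, map_sub, map_mul, map_mul]
  exact quot_aux hv h3 h4

end WL

section J

variable {k : Type*} [Field k]

theorem theta_jq_ne : theta (jqModC k) ≠ 0 := by
  refine (theta_order' (f := jqModC k) ?_).1
  rw [order_jqModC]
  push_cast
  exact neg_ne_zero.2 one_ne_zero

theorem theta_jq_order : (theta (jqModC k)).order = -1 := by
  have h := (theta_order' (f := jqModC k) (by
    rw [order_jqModC]
    push_cast
    exact neg_ne_zero.2 one_ne_zero)).2
  rw [h, order_jqModC]

variable [IsAlgClosed k] {N : ℕ} [NeZero N]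

theorem coe_jF' : ((jF' k N : FF k N) : LaurentSeries k) = jqModC k := Jc_one_one

theorem exists_dj (hN : (N : k) ≠ 0) (u : FF k N) : ∃ g : FF k N,
    KaehlerDifferential.D k (FF k N) u = g • KaehlerDifferential.D k (FF k N) (jF' k N) ∧
    theta (u : LaurentSeries k) = (g : LaurentSeries k) * theta (jqModC k) := by
  haveI := finiteDimensional_E (k := k) (N := N) hN
  haveI := isSeparable_E (k := k) (N := N) hN
  obtain ⟨g, hg⟩ := exists_dquot (K := k) (F := FF k N) (jF' k N) u
  refine ⟨g, hg, ?_⟩
  have h := theta_of_D (FF k N).val.toRingHom (fun a => by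
    change algebraMap k (LaurentSeries k) a = _
    rw [algebraMap_eq_C]) hg
  change theta (u : LaurentSeries k) = (g : LaurentSeries k) *
    theta ((jF' k N : FF k N) : LaurentSeries k) at h
  rwa [coe_jF'] at h

theorem D_of_theta (hN : (N : k) ≠ 0) {u g : FF k N}
    (h : theta (u : LaurentSeries k) = (g : LaurentSeries k) * theta (jqModC k)) :
    KaehlerDifferential.D k (FF k N) u = g • KaehlerDifferential.D k (FF k N) (jF' k N) := by
  obtain ⟨g', h1, h2⟩ := exists_dj hN u
  have h3 : g = g' := by
    apply Subtype.ext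
    rw [h2] at h
    exact (mul_right_cancel₀ theta_jq_ne h).symm
  rw [h3, h1]

end J

section Red

attribute [local instance] algFF

variable {A K k : Type*} [CommRing A] [IsDomain A] [ValuationRing A]
  [Field K] [IsAlgClosed K] [Algebra A K] [IsFractionRing A K] [Field k] [IsAlgClosed k]
  [Algebra A k] {N : ℕ} [NeZero N]

variable (A K k N) in
theorem thetaj_mem : theta (jqModC K) ∈ WL A K k := by
  apply theta_mem_WL
  rw [← coeffMap_jqModC (algebraMap A K)]
  exact incL_mem _

theorem πL_thetaj (h : theta (jqModC K) ∈ WL A K k) :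
    πL A K k ⟨theta (jqModC K), h⟩ = theta (jqModC k) := by
  have h1 : jqModC K ∈ WL A K k := by
    rw [← coeffMap_jqModC (algebraMap A K)]
    exact incL_mem _
  rw [πL_theta h1, πL_of_eq (coeffMap_jqModC (algebraMap A K)).symm h1, coeffMap_jqModC]

/-- the derivative of a Gauss integral function is Gauss integral -/
theorem dj_mem {u g : FF K N} (hu : (u : LaurentSeries K) ∈ WL A K k)
    (h : theta (u : LaurentSeries K) = (g : LaurentSeries K) * theta (jqModC K)) :
    (g : LaurentSeries K) ∈ WL A K k := by
  have h1 := thetaj_mem A K k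
  have h2 := inv_mem_WL h1 (by rw [πL_thetaj]; exact theta_jq_ne)
  have h3 : (g : LaurentSeries K) = theta (u : LaurentSeries K) * (theta (jqModC K))⁻¹ := by
    rw [h, mul_assoc, mul_inv_cancel₀ theta_jq_ne, mul_one]
  rw [h3]
  exact mul_mem (theta_mem_WL hu) h2

theorem πL_dj {u g : FF K N} (hu : (u : LaurentSeries K) ∈ WL A K k)
    (h : theta (u : LaurentSeries K) = (g : LaurentSeries K) * theta (jqModC K))
    (hg : (g : LaurentSeries K) ∈ WL A K k) :
    theta (πL A K k ⟨u, hu⟩) = πL A K k ⟨g, hg⟩ * theta (jqModC k) := by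
  rw [← πL_theta hu (theta_mem_WL hu), ← πL_thetaj (A := A) (K := K) (thetaj_mem A K k), ← map_mul]
  congr 1
  exact Subtype.ext h

end Red

end Fermat.Agent.ThmC
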