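import Fermat.Agent.RR.Hurwitz
import Fermat.Agent.Curve.Differential

/-!
# Derivatives of functions with respect to a separating variable, local estimates
-/

set_option autoImplicit false
set_option linter.style.haveILetI false
set_option linter.unusedSectionVars false

namespace Fermat.Agent.ThmC

open AlgebraicCurve IntermediateField Fermat.Agent.Curve Fermat.Agent.RR

section Span

variable {K F : Type*} [Field K] [Field F] [Algebra K F]

theorem D_mem_span_of_mem_adjoin (t : F) {x : F} (hx : x ∈ K⟮t⟯) :
    KaehlerDifferential.D K F x ∈ Submodule.span F {KaehlerDifferential.D K F t} := by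
  induction hx using IntermediateField.adjoin_induction with
  | mem x hx =>
    rw [Set.mem_singleton_iff] at hx
    rw [hx]
    exact Submodule.mem_span_singleton_self _
  | algebraMap a => simp
  | add x y _ _ hx hy => rw [map_add]; exact add_mem hx hy
  | inv x _ hx =>
    rcases eq_or_ne x 0 with rfl | hx0
    · simp
    have h : KaehlerDifferential.D K F (x * x⁻¹) = 0 := by
      rw [mul_inv_cancel₀ hx0]
      simp
    rw [Derivation.leibniz] at h
    have h2 : x • KaehlerDifferential.D K F x⁻¹ = -(x⁻¹ • KaehlerDifferential.D K F x) :=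
      eq_neg_of_add_eq_zero_left h
    have h3 : KaehlerDifferential.D K F x⁻¹ = -(x⁻¹ • x⁻¹ • KaehlerDifferential.D K F x) := by
      rw [← smul_neg, ← h2, smul_smul, inv_mul_cancel₀ hx0, one_smul]
    rw [h3]
    exact neg_mem (Submodule.smul_mem _ _ (Submodule.smul_mem _ _ hx))
  | mul x y _ _ hx hy =>
    rw [Derivation.leibniz]
    exact add_mem (Submodule.smul_mem _ _ hy) (Submodule.smul_mem _ _ hx)

theorem kaehler_span (t : F) [FiniteDimensional K⟮t⟯ F] [Algebra.IsSeparable K⟮t⟯ F] :
    Submodule.span F {KaehlerDifferential.D K F t} = ⊤ := by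
  rw [eq_top_iff]
  intro ω _
  haveI : Algebra.FormallyUnramified K⟮t⟯ F := Algebra.FormallyUnramified.of_isSeparable _ _
  have h0 : KaehlerDifferential.map K K⟮t⟯ F F ω = 0 := Subsingleton.elim _ _
  obtain ⟨z, hz⟩ := (KaehlerDifferential.exact_mapBaseChange_map K K⟮t⟯ F ω).1 h0
  rw [← hz]
  clear hz h0
  induction z using TensorProduct.induction_on with
  | zero => simp
  | add x y hx hy => rw [map_add]; exact add_mem hx hy
  | tmul f η =>
    rw [KaehlerDifferential.mapBaseChange_tmul]
    apply Submodule.smul_mem
    have hη : η ∈ Submodule.span K⟮t⟯ (Set.range (KaehlerDifferential.D K K⟮t⟯)) := by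
      rw [KaehlerDifferential.span_range_derivation]; trivial
    induction hη using Submodule.span_induction with
    | mem x hx =>
      obtain ⟨y, rfl⟩ := hx
      rw [KaehlerDifferential.map_D]
      exact D_mem_span_of_mem_adjoin t y.2
    | zero => simp
    | add x y _ _ hx hy => rw [map_add]; exact add_mem hx hy
    | smul a x _ hx =>
      rw [map_smul, ← algebraMap_smul F a]
      exact Submodule.smul_mem _ _ hx

theorem exists_dquot (t : F) [FiniteDimensional K⟮t⟯ F] [Algebra.IsSeparable K⟮t⟯ F] (u : F) :
    ∃ g : F, KaehlerDifferential.D K F u = g • KaehlerDifferential.D K F t := by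
  have h : KaehlerDifferential.D K F u ∈ Submodule.span F {KaehlerDifferential.D K F t} := by
    rw [kaehler_span]; trivial
  obtain ⟨g, hg⟩ := Submodule.mem_span_singleton.1 h
  exact ⟨g, hg.symm⟩

end Span

section Theta

variable {K : Type*} [Field K]

theorem coeff_order_ne {f : LaurentSeries K} (hf : f ≠ 0) : f.coeff f.order ≠ 0 :=
  HahnSeries.coeff_orderTop_ne (HahnSeries.order_eq_orderTop_of_ne_zero hf).symm

theorem theta_single_one' : theta (HahnSeries.single 1 1 : LaurentSeries K) =
    HahnSeries.single 1 1 := by
  ext n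
  rw [theta_coeff]
  by_cases hn : n = 1
  · simp [hn]
  · simp [HahnSeries.coeff_single_of_ne hn]

theorem theta_order' {f : LaurentSeries K} (hf : ((f.order : ℤ) : K) ≠ 0) :
    theta f ≠ 0 ∧ (theta f).order = f.order := by
  have hf0 : f ≠ 0 := by
    rintro rfl
    rw [HahnSeries.order_zero] at hf
    simp at hf
  have hc : f.coeff f.order ≠ 0 := coeff_order_ne hf0
  have hc' : (theta f).coeff f.order ≠ 0 := by
    rw [theta_coeff]
    exact mul_ne_zero hf hc
  have hne : theta f ≠ 0 := by
    intro h
    rw [h, HahnSeries.coeff_zero] at hc'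
    exact hc' rfl
  refine ⟨hne, le_antisymm (HahnSeries.order_le_of_coeff_ne_zero hc') ?_⟩
  by_contra hlt
  push Not at hlt
  have h := HahnSeries.coeff_eq_zero_of_lt_order hlt
  apply coeff_order_ne hne
  rw [theta_coeff, h, mul_zero]

theorem theta_order_ge {f : LaurentSeries K} (hf : theta f ≠ 0) : f.order ≤ (theta f).order := by
  by_contra hlt
  push Not at hlt
  have h := HahnSeries.coeff_eq_zero_of_lt_order hlt
  apply coeff_order_ne hf
  rw [theta_coeff, h, mul_zero]

theorem theta_order_ne_zero {f : LaurentSeries K} (hf : theta f ≠ 0) :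
    (((theta f).order : ℤ) : K) ≠ 0 := by
  intro h
  apply coeff_order_ne hf
  rw [theta_coeff, h, zero_mul]

end Theta

section Der

variable {K F : Type*} [Field K] [Field F] [Algebra K F]

/-- `LaurentSeries K` as a module over `F`. -/
def LMod (_h : F →+* LaurentSeries K) : Type _ := LaurentSeries K

noncomputable instance (h : F →+* LaurentSeries K) : AddCommGroup (LMod h) :=
  inferInstanceAs (AddCommGroup (LaurentSeries K))

noncomputable instance (h : F →+* LaurentSeries K) : Module F (LMod h) :=
  Module.compHom (LaurentSeries K) h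

noncomputable instance (h : F →+* LaurentSeries K) : Module K (LMod h) :=
  Module.compHom (LaurentSeries K) (h.comp (algebraMap K F))

instance (h : F →+* LaurentSeries K) : IsScalarTower K F (LMod h) := by
  constructor
  intro a f m
  change (h (a • f) * (show LaurentSeries K from m) : LaurentSeries K) =
    h (algebraMap K F a) * (h f * (show LaurentSeries K from m))
  rw [Algebra.smul_def, map_mul, mul_assoc]

/-- The derivation `f ↦ X d/dX (f(X))`. -/
noncomputable def thetaD (h : F →+* LaurentSeries K)
    (hC : ∀ a : K, h (algebraMap K F a) = HahnSeries.C a) : Derivation K F (LMod h) where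
  toFun f := (theta (h f) : LaurentSeries K)
  map_add' f g := by
    change theta (h (f + g)) = theta (h f) + theta (h g)
    rw [map_add, map_add]
  map_smul' a f := by
    change theta (h (a • f)) = h (algebraMap K F a) * theta (h f)
    rw [Algebra.smul_def, map_mul, theta_mul, hC, theta_C]
    ring
  map_one_eq_zero' := by
    change theta (h 1) = 0
    rw [map_one, ← map_one (HahnSeries.C (Γ := ℤ) (R := K)), theta_C]
  leibniz' f g := by
    change theta (h (f * g)) = h f * theta (h g) + h g * theta (h f)
    rw [map_mul, theta_mul]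
    ring

theorem theta_of_D (h : F →+* LaurentSeries K)
    (hC : ∀ a : K, h (algebraMap K F a) = HahnSeries.C a) {u t g : F}
    (hg : KaehlerDifferential.D K F u = g • KaehlerDifferential.D K F t) :
    theta (h u) = h g * theta (h t) := by
  have key : ∀ g x : F,
      (thetaD h hC).liftKaehlerDifferential (g • KaehlerDifferential.D K F x)
      = (h g * theta (h x) : LaurentSeries K) := by
    intro g x
    rw [map_smul, Derivation.liftKaehlerDifferential_comp_D]
    rfl
  have h1 := key 1 u
  rw [one_smul, hg, key g t, map_one, one_mul] at h1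
  exact h1.symm

end Der

section Local

variable {K F : Type*} [Field K] [IsAlgClosed K] [Field F] [Algebra K F] [hF : FunField K F]

theorem bij (v : Place K F) : Function.Bijective (algebraMap K v.ResidueField) := by
  refine ⟨(algebraMap K v.ResidueField).injective, ?_⟩
  intro y
  obtain ⟨x, rfl⟩ := IsLocalRing.residue_surjective y
  obtain ⟨a, ha⟩ := exists_const' v x.2
  refine ⟨a, ?_⟩
  have h1 : algebraMap K v.ResidueField a
      = IsLocalRing.residue _ (algebraMap K v.toValuationSubring a) := rfl
  rw [h1]
  symm
  rw [← sub_eq_zero, ← map_sub, IsLocalRing.residue_eq_zero_iff, mem_nonunits_iff_ord_pos]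
  exact ha.imp id fun h => by
    change 1 ≤ v.ord ((x : F) - algebraMap K F a) at h
    change 0 < v.ord ((x : F) - algebraMap K F a)
    omega

omit [IsAlgClosed K] hF in
theorem exists_pi (v : Place K F) : ∃ π : F, v.ord π = 1 :=
  ⟨_, v.ord_coe_irreducible
    (IsDiscreteValuationRing.exists_irreducible v.toValuationSubring).choose_spec⟩

/-- order of the derivative of the expansion of the variable -/
theorem theta_exp_order (v : Place K F) {π : F} (hπ : v.ord π = 1) {t : F} {n : ℤ}
    (hn : (n : K) ≠ 0) (ht : v.ord t = n ∨ ∃ a : K, v.ord (t - algebraMap K F a) = n) :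
    theta (laurentExp v (bij v) hπ t) ≠ 0 ∧ (theta (laurentExp v (bij v) hπ t)).order = n := by
  have key : ∀ s : F, v.ord s = n → theta (laurentExp v (bij v) hπ s) ≠ 0 ∧
      (theta (laurentExp v (bij v) hπ s)).order = n := by
    intro s hs
    have hs0 : s ≠ 0 := by
      rintro rfl
      rw [v.ord_zero] at hs
      apply hn
      rw [← hs, Int.cast_zero]
    have h1 := order_laurentExp v (bij v) hπ hs0
    have h2 := theta_order' (f := laurentExp v (bij v) hπ s) (by rw [h1, hs]; exact hn)
    exact ⟨h2.1, by rw [h2.2, h1, hs]⟩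
  rcases ht with ht | ⟨a, ha⟩
  · exact key t ht
  · have h1 := key _ ha
    rwa [map_sub, map_sub, laurentExp_algebraMap, theta_C, sub_zero] at h1

/-- **Tame estimate**: the derivative of a regular function. -/
theorem ge_of_D {v : Place K F} {t u g : F}
    (hg : KaehlerDifferential.D K F u = g • KaehlerDifferential.D K F t) (hu : Ge v 0 u) {n : ℤ}
    (hn : (n : K) ≠ 0) (ht : v.ord t = n ∨ ∃ a : K, v.ord (t - algebraMap K F a) = n) :
    Ge v (1 - n) g := by
  obtain ⟨π, hπ⟩ := exists_pi v
  by_cases hg0 : g = 0
  · exact Or.inl hg0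
  right
  have h1 := theta_of_D (laurentExp v (bij v) hπ) (laurentExp_algebraMap v (bij v) hπ) hg
  obtain ⟨h2, h3⟩ := theta_exp_order v hπ hn ht
  have hg1 : laurentExp v (bij v) hπ g ≠ 0 := by rwa [ne_eq, map_eq_zero]
  have h4 : theta (laurentExp v (bij v) hπ u) ≠ 0 := by
    rw [h1]; exact mul_ne_zero hg1 h2
  have hu0 : u ≠ 0 := by
    rintro rfl
    rw [map_zero, map_zero] at h4
    exact h4 rfl
  have h5 := theta_order_ge h4
  rw [order_laurentExp v (bij v) hπ hu0] at h5
  have h6 := theta_order_ne_zero h4
  have h7 : (theta (laurentExp v (bij v) hπ u)).order ≠ 0 := by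
    intro h
    rw [h] at h6
    exact h6 Int.cast_zero
  have h8 := hu.le_ord hu0
  have h9 : (theta (laurentExp v (bij v) hπ u)).order = v.ord g + n := by
    rw [h1, HahnSeries.order_mul hg1 h2, h3, order_laurentExp v (bij v) hπ hg0]
  omega

/-- **Criterion for tameness**. -/
theorem tame_of {v : Place K F} {t π g : F} (hπ : v.ord π = 1)
    (hg : KaehlerDifferential.D K F π = g • KaehlerDifferential.D K F t) {e : ℤ} {a : K}
    (ht : v.ord (t - algebraMap K F a) = e) (hle : -(e - 1) ≤ v.ord g) : (e : K) ≠ 0 := by
  have h1 := theta_of_D (laurentExp v (bij v) hπ) (laurentExp_algebraMap v (bij v) hπ) hg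
  rw [laurentExp_pi, theta_single_one'] at h1
  have h0 : (HahnSeries.single 1 1 : LaurentSeries K) ≠ 0 := by
    rw [ne_eq, HahnSeries.single_eq_zero_iff]; exact one_ne_zero
  rw [h1] at h0
  have hg1 := left_ne_zero_of_mul h0
  have ht1 := right_ne_zero_of_mul h0
  have hg0 : g ≠ 0 := by
    rintro rfl
    exact hg1 (map_zero _)
  have h2 := congrArg HahnSeries.order h1
  rw [HahnSeries.order_single one_ne_zero, HahnSeries.order_mul hg1 ht1,
    order_laurentExp v (bij v) hπ hg0] at h2
  have h3 : theta (laurentExp v (bij v) hπ t) =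
      theta (laurentExp v (bij v) hπ (t - algebraMap K F a)) := by
    rw [map_sub, map_sub, laurentExp_algebraMap, theta_C, sub_zero]
  rw [h3] at h2 ht1
  have ht0 : t - algebraMap K F a ≠ 0 := by
    intro h
    rw [h, map_zero, map_zero] at ht1
    exact ht1 rfl
  have h4 := theta_order_ge ht1
  have h5 := theta_order_ne_zero ht1
  rw [order_laurentExp v (bij v) hπ ht0, ht] at h4
  have h6 : (theta (laurentExp v (bij v) hπ (t - algebraMap K F a))).order = e := by omega
  rwa [h6] at h5

end Local

end Fermat.Agent.ThmC
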