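import Fermat.Agent.GenusRR.Family
import Fermat.Agent.JFun.Orders
import Fermat.Agent.ThmC.Kaehler

/-!
# `q`-expansions of derivatives; the derivative of `j`
-/

set_option autoImplicit false

open UpperHalfPlane ModularForm Complex Filter Topology Matrix.SpecialLinearGroup
open ModularCurve Function
open scoped MatrixGroups Manifold

namespace Fermat.Agent.ThmC

noncomputable section

open Fermat.Agent.MFLib Fermat.Agent.ModPoly Fermat.Agent.JFun Fermat.Agent.GenusRR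
open Fermat.Agent.Curve

local notation "Δ" => ModularForm.discriminant
local notation "𝕢" => Periodic.qParam
local notation "D" => Derivative.normalizedDerivOfComplex

variable {f g : ℍ → ℂ}

lemma qg_D (hf : QG f) : QG (D f) where
  per w := by
    by_cases hw : 0 < im w
    · have h1 : 0 < im (w + ((1 : ℝ) : ℂ)) := by simpa using hw
      simp only [Function.comp_apply, ofComplex_apply_of_im_pos h1, ofComplex_apply_of_im_pos hw,
        Derivative.normalizedDerivOfComplex]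
      congr 1
      have h2 : (f ∘ ofComplex) = fun w => (f ∘ ofComplex) (w + ((1 : ℝ) : ℂ)) :=
        funext fun w => (hf.per w).symm
      have h3 : deriv (f ∘ ofComplex) w = deriv (f ∘ ofComplex) (w + ((1 : ℝ) : ℂ)) := by
        conv_lhs => rw [h2]
        rw [deriv_comp_add_const]
      exact h3.symm
    · push Not at hw
      have h1 : im (w + ((1 : ℝ) : ℂ)) ≤ 0 := by simpa using hw
      simp only [Function.comp_apply]
      rw [ofComplex_apply_of_im_nonpos h1, ofComplex_apply_of_im_nonpos hw]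
  holo := Derivative.normalizedDerivOfComplex_mdifferentiable hf.holo
  bdd := (tendsto_D_atImInfty hf.per hf.holo hf.bdd).isBigO_one ℝ

lemma cuspFunction_D (hf : QG f) : cuspFunction 1 (D f) =ᶠ[𝓝 0]
    (fun z => z) * deriv (cuspFunction 1 f) := by
  have ha : AnalyticAt ℂ ((fun z : ℂ => z) * deriv (cuspFunction 1 f)) 0 :=
    analyticAt_id.mul hf.analyticAt.deriv
  refine ((qg_D hf).analyticAt.frequently_eq_iff_eventually_eq ha).1 ?_
  apply Eventually.frequently
  have h1 : ∀ᶠ q : ℂ in 𝓝[≠] 0, q ≠ 0 := self_mem_nhdsWithin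
  have h2 : ∀ᶠ q : ℂ in 𝓝[≠] 0, ‖q‖ < 1 := by
    apply mem_nhdsWithin_of_mem_nhds
    have := Metric.ball_mem_nhds (0 : ℂ) zero_lt_one
    filter_upwards [this] with q hq
    simpa using hq
  filter_upwards [h1, h2] with q hq0 hq1
  have him : 0 < (Periodic.invQParam 1 q).im := Periodic.im_invQParam_pos_of_norm_lt_one
    one_pos hq1 hq0
  have h3 := D_eq_mul_deriv_cuspFunction hf.per hf.holo hf.bdd ⟨_, him⟩
  have h4 := UpperHalfPlane.eq_cuspFunction (h := 1) (f := D f) ⟨_, him⟩ one_ne_zero (qg_D hf).per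
  rw [h3] at h4
  have h5 : 𝕢 1 (((⟨Periodic.invQParam 1 q, him⟩ : ℍ)) : ℂ) = q :=
    Periodic.qParam_right_inv one_ne_zero hq0
  rw [h5] at h4
  exact h4

lemma coeff_qe_D (hf : QG f) (n : ℕ) : (qe (D f)).coeff n = n * (qe f).coeff n := by
  rw [qe, qExpansion_eq_taylorPS, taylorPS_congr (cuspFunction_D hf),
    taylorPS_mul (by fun_prop) hf.analyticAt.deriv, taylorPS_id_zero]
  cases n with
  | zero => simp
  | succ n =>
    rw [PowerSeries.coeff_succ_X_mul, coeff_taylorPS, qe, qExpansion_eq_taylorPS, coeff_taylorPS,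
      iteratedDeriv_succ', Nat.factorial_succ]
    have h1 : ((n : ℂ) + 1) ≠ 0 := by exact_mod_cast Nat.succ_ne_zero n
    have h2 : ((n.factorial : ℕ) : ℂ) ≠ 0 := by exact_mod_cast n.factorial_ne_zero
    push_cast
    field_simp

lemma qL_D (hf : QG f) : qL (D f) = theta (qL f) := by
  ext k
  rw [theta_coeff]
  rcases lt_or_ge k 0 with hk | hk
  · rw [qL, qL, ofPowerSeries_coeff_of_neg _ hk, ofPowerSeries_coeff_of_neg _ hk, mul_zero]
  · obtain ⟨n, rfl⟩ := Int.eq_ofNat_of_zero_le hk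
    rw [qL, qL, HahnSeries.ofPowerSeries_apply_coeff, HahnSeries.ofPowerSeries_apply_coeff,
      coeff_qe_D hf]
    simp

lemma exists_bracket_identity : ∃ c : ℂ, (Δ : ℍ → ℂ) * D ((⇑E₄) ^ 3) - (⇑E₄) ^ 3 * D Δ =
    c • (((⇑E₄) ^ 2 * ⇑E₆) * Δ) := by
  obtain ⟨c, hc⟩ := exists_bracket_eq
  refine ⟨c / 3456, ?_⟩
  ext z
  have hD0 := discriminant_ne_zero z
  have h1 : jfun * Δ = (E₄ : ℍ → ℂ) ^ 3 := by
    ext w
    simp only [Pi.mul_apply, Pi.pow_apply, jfun]
    exact div_mul_cancel₀ _ (discriminant_ne_zero w)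
  have h2 : D (jfun * Δ) z = D ((E₄ : ℍ → ℂ) ^ 3) z := by rw [h1]
  rw [Derivative.normalizedDerivOfComplex_mul _ _ mdiff_jfun mdiff_disc] at h2
  simp only [Pi.add_apply, Pi.mul_apply] at h2
  have h3 := D_jfun z
  rw [hc] at h3
  have h5 : jfun z * Δ z = E₄ z ^ 3 := congrFun h1 z
  simp only [Pi.sub_apply, Pi.mul_apply, Pi.pow_apply, Pi.smul_apply, smul_eq_mul]
  rw [← h2, h3]
  field_simp
  linear_combination (3456 * D Δ z) * h5

lemma leadingCoeff_of_coeff_zero {x : LaurentSeries ℂ} (h : ∀ n < 0, x.coeff n = 0)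
    (h0 : x.coeff 0 = 1) : x.leadingCoeff = 1 := by
  have hx : x ≠ 0 := by
    rintro rfl
    rw [HahnSeries.coeff_zero] at h0
    exact zero_ne_one h0
  have h1 : x.order = 0 := by
    apply le_antisymm
    · exact HahnSeries.order_le_of_coeff_ne_zero (by rw [h0]; exact one_ne_zero)
    · by_contra hlt
      push Not at hlt
      exact coeff_order_ne hx (h _ hlt)
  rw [HahnSeries.leadingCoeff_eq, h1, h0]

lemma lc_pow (u : LaurentSeries ℂ) (m : ℕ) : (u ^ m).leadingCoeff = u.leadingCoeff ^ m := by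
  induction m with
  | zero => simp
  | succ m ih => rw [pow_succ, HahnSeries.leadingCoeff_mul, ih, pow_succ]

lemma lc_eisC : (eisC ℂ).leadingCoeff = 1 := by
  apply leadingCoeff_of_coeff_zero
  · intro n hn
    exact ofPowerSeries_coeff_of_neg _ hn
  · have : (0 : ℤ) = ((0 : ℕ) : ℤ) := rfl
    rw [eisC, this, HahnSeries.ofPowerSeries_apply_coeff, PowerSeries.coeff_map, eisenstein4,
      PowerSeries.coeff_mk]
    simp

lemma lc_E6 : (qL (⇑E₆)).leadingCoeff = 1 := by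
  apply leadingCoeff_of_coeff_zero
  · intro n hn
    exact ofPowerSeries_coeff_of_neg _ hn
  · have : (0 : ℤ) = ((0 : ℕ) : ℤ) := rfl
    rw [qL, this, HahnSeries.ofPowerSeries_apply_coeff]
    exact EisensteinSeries.E_qExpansion_coeff_zero _ ⟨3, rfl⟩

/-- **Derivative of `j`**. -/
theorem theta_jq : theta (jqModC ℂ) * deltaC ℂ = -(eisC ℂ ^ 2 * qL (⇑E₆)) := by
  obtain ⟨c, hc⟩ := exists_bracket_identity
  have hE := qg_E4
  have h6 := qg_E6
  have hD := qg_disc
  have h1 := congrArg qL hc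
  have hsub : qL ((Δ : ℍ → ℂ) * D ((⇑E₄) ^ 3) - (⇑E₄) ^ 3 * D Δ) =
      qL ((Δ : ℍ → ℂ) * D ((⇑E₄) ^ 3)) - qL ((⇑E₄) ^ 3 * D Δ) := by
    rw [qL, (hD.mul (qg_D (hE.pow 3))).qe_sub ((hE.pow 3).mul (qg_D hD)), map_sub]; rfl
  rw [hsub, qL_mul hD (qg_D (hE.pow 3)), qL_mul (hE.pow 3) (qg_D hD), qL_D (hE.pow 3), qL_D hD,
    qL_smul _ (((hE.pow 2).mul h6).mul hD), qL_mul ((hE.pow 2).mul h6) hD, qL_mul (hE.pow 2) h6,
    qL_pow hE, qL_pow hE, qL_E4, qL_disc] at h1
  have h2 := congrArg theta (jqModC_mul_delta ℂ)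
  rw [theta_mul] at h2
  have h3 : theta (jqModC ℂ) * deltaC ℂ = HahnSeries.C c * (eisC ℂ ^ 2 * qL (⇑E₆)) := by
    apply mul_right_cancel₀ deltaC_ne
    rw [mul_assoc (HahnSeries.C c), ← h1, ← h2, ← jqModC_mul_delta]
    ring
  have h4 := congrArg HahnSeries.leadingCoeff h3
  rw [HahnSeries.leadingCoeff_mul, HahnSeries.leadingCoeff_mul, HahnSeries.leadingCoeff_mul,
    lc_pow, lc_eisC, lc_E6] at h4
  have h5 : (theta (jqModC ℂ)).leadingCoeff = -(jqModC ℂ).leadingCoeff := by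
    have h6 := theta_order' (f := jqModC ℂ) (by rw [order_jqModC]; norm_num)
    rw [HahnSeries.leadingCoeff_eq, h6.2, theta_coeff, HahnSeries.leadingCoeff_eq, order_jqModC]
    push_cast
    ring
  have h7 := congrArg HahnSeries.leadingCoeff (jqModC_mul_delta ℂ)
  rw [HahnSeries.leadingCoeff_mul, lc_pow, lc_eisC, one_pow] at h7
  have h8 : (HahnSeries.C c : LaurentSeries ℂ).leadingCoeff = c := by
    rw [HahnSeries.C_apply, HahnSeries.leadingCoeff_of_single]
  rw [h5, neg_mul, h7, h8] at h4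
  have hc1 : c = -1 := by rw [h4]; ring
  rw [h3, hc1, map_neg, map_one]
  ring

/-- `E₆² = E₄³ - 1728 Δ` -/
theorem E6_sq : qL (⇑E₆) ^ 2 = eisC ℂ ^ 3 - 1728 * deltaC ℂ := by
  have hE := qg_E4
  have h6 := qg_E6
  have h := congrArg qL disc_eq
  have hsub : qL ((⇑E₄) ^ 3 - (⇑E₆) ^ 2) = qL ((⇑E₄) ^ 3) - qL ((⇑E₆) ^ 2) := by
    rw [qL, (hE.pow 3).qe_sub (h6.pow 2), map_sub]; rfl
  rw [qL_smul _ ((hE.pow 3).sub (h6.pow 2)), hsub, qL_pow hE, qL_pow h6, qL_E4, qL_disc] at h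
  have h1 : (HahnSeries.C (1728 : ℂ) : LaurentSeries ℂ) * HahnSeries.C (1 / 1728 : ℂ) = 1 := by
    rw [← map_mul]; norm_num
  have h2 : (HahnSeries.C (1728 : ℂ) : LaurentSeries ℂ) = 1728 := map_ofNat _ 1728
  rw [h, ← h2, ← mul_assoc, h1]
  ring

end

end Fermat.Agent.ThmC
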