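import Fermat.Agent.ThmC.Hecke
import Fermat.Agent.RedMod.Qbar

/-!
# Theorem C: mod `p` Hecke eigensystems on regular differentials of `X₀(M)`, `p ∤ M`, lift to
weight two newforms.
-/

set_option autoImplicit false
set_option linter.style.haveILetI false
set_option linter.unusedSectionVars false

open ModularCurve AlgebraicCurve ModularFormClass

namespace Fermat.Agent.ThmC

noncomputable section

open Fermat.Agent.ModPoly Fermat.Agent.Curve Fermat.Agent.RR Fermat.Agent.Red Fermat.Agent.RedMod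
open Fermat.Agent.Spec

section Main

attribute [local instance] algFF

variable {A K k : Type*} [CommRing A] [IsDomain A] [ValuationRing A]
  [Field K] [IsAlgClosed K] [Algebra A K] [IsFractionRing A K] [Field k] [IsAlgClosed k]
  [Algebra A k] {M : ℕ} [NeZero M]

theorem six_ne_zero_of {p : ℕ} [hp : Fact p.Prime] [CharP k p] (h5 : 5 ≤ p) : (6 : k) ≠ 0 := by
  intro h
  have h1 : ((6 : ℕ) : k) = 0 := by exact_mod_cast h
  rw [CharP.cast_eq_zero_iff k p] at h1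
  have h2 : p ∣ 2 * 3 := h1
  rcases (hp.out.dvd_mul).1 h2 with h3 | h3
  · have := Nat.le_of_dvd (by norm_num) h3
    omega
  · have := Nat.le_of_dvd (by norm_num) h3
    omega

include A K in
/-- **Theorem C.** -/
theorem main [CharZero K] [Algebra ℚ K] (ι : K →+* ℂ) (hk : Function.Surjective (algebraMap A k))
    {p : ℕ} [Fact p.Prime] [CharP k p] (h5 : 5 ≤ p) (hM : (M : k) ≠ 0)
    {h : LaurentSeries k} (h0 : h ≠ 0) (hmem : h / theta (jqModC k) ∈ FF k M)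
    (hloc : ∀ v : Place k (FF k M), ∃ u b : FF k M, Ge v 0 u ∧ b ≠ 0 ∧ v.ord b = 0 ∧
      h * (b : LaurentSeries k) = theta (u : LaurentSeries k))
    (c : ℕ → ℤ) (P : ℕ → Prop)
    (hecke : ∀ ℓ : ℕ, ℓ.Prime → ¬ ℓ ∣ M → P ℓ → ∀ n : ℤ,
      h.coeff (ℓ * n) + ℓ * (if (ℓ : ℤ) ∣ n then h.coeff (n / ℓ) else 0) = (c ℓ : k) * h.coeff n) :
    ∃ g : CuspForm (CongruenceSubgroup.Gamma0 M) 2, g.IsNormalizedEigenform ∧
      ∃ m : Ideal (integralClosure ℤ ℂ), m.IsMaximal ∧ (p : integralClosure ℤ ℂ) ∈ m ∧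
        ∀ ℓ : ℕ, ℓ.Prime → ¬ ℓ ∣ M → P ℓ → ∃ α : integralClosure ℤ ℂ, (α : ℂ) = qCoeff g ℓ ∧
          α - (c ℓ : integralClosure ℤ ℂ) ∈ m := by
  haveI := funField_FF (k := k) (M := M) hM
  have h6 : (6 : k) ≠ 0 := six_ne_zero_of (p := p) h5
  have hx : h = ((⟨h / theta (jqModC k), hmem⟩ : FF k M) : LaurentSeries k) * theta (jqModC k) :=
    (div_mul_cancel₀ _ theta_jq_ne).symm
  have hreg : RegD (K := k) (jF' k M) (⟨h / theta (jqModC k), hmem⟩ : FF k M) := by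
    refine regD_of_local (A := A) ι hk hM h6 fun v => ?_
    obtain ⟨u, b, hu, hb0, hb, hub⟩ := hloc v
    exact ⟨u, b, hu, hb0, hb, by rw [← hx]; exact hub⟩
  obtain ⟨r, ⟨B⟩⟩ := exists_basis M
  obtain ⟨a, ha⟩ := mem_span_barq (A := A) (p := p) ι hk hM h6 B hreg
  rw [← hx] at ha
  exact exists_eigenform_aux (p := p) B ha h0 c P hecke

end Main

section Qbar

variable {A : ValuationSubring (AlgebraicClosure ℚ)} {p : ℕ} [Fact p.Prime] {M : ℕ} [NeZero M]

/-- **Theorem C** over the residue field of a place of `ℚ̄` above `p`. -/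
theorem main_Qbar (hA : A.LiesOverPrime p) (h5 : 5 ≤ p) (hM : ¬ p ∣ M)
    {h : LaurentSeries (IsLocalRing.ResidueField A)} (h0 : h ≠ 0)
    (hmem : h / theta (jqModC (IsLocalRing.ResidueField A)) ∈ FF (IsLocalRing.ResidueField A) M)
    (hloc : ∀ v : Place (IsLocalRing.ResidueField A) (FF (IsLocalRing.ResidueField A) M),
      ∃ u b : FF (IsLocalRing.ResidueField A) M, Ge v 0 u ∧ b ≠ 0 ∧ v.ord b = 0 ∧
      h * (b : LaurentSeries (IsLocalRing.ResidueField A)) =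
        theta (u : LaurentSeries (IsLocalRing.ResidueField A)))
    (c : ℕ → ℤ) (P : ℕ → Prop)
    (hecke : ∀ ℓ : ℕ, ℓ.Prime → ¬ ℓ ∣ M → P ℓ → ∀ n : ℤ,
      h.coeff (ℓ * n) + ℓ * (if (ℓ : ℤ) ∣ n then h.coeff (n / ℓ) else 0) =
        (c ℓ : IsLocalRing.ResidueField A) * h.coeff n) :
    ∃ g : CuspForm (CongruenceSubgroup.Gamma0 M) 2, g.IsNormalizedEigenform ∧
      ∃ m : Ideal (integralClosure ℤ ℂ), m.IsMaximal ∧ (p : integralClosure ℤ ℂ) ∈ m ∧
        ∀ ℓ : ℕ, ℓ.Prime → ¬ ℓ ∣ M → P ℓ → ∃ α : integralClosure ℤ ℂ, (α : ℂ) = qCoeff g ℓ ∧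
          α - (c ℓ : integralClosure ℤ ℂ) ∈ m := by
  haveI := charP_residue hA
  haveI : Algebra.IsAlgebraic ℚ (AlgebraicClosure ℚ) := AlgebraicClosure.isAlgebraic ℚ
  have ι : AlgebraicClosure ℚ →+* ℂ :=
    (IsAlgClosed.lift (R := ℚ) (M := ℂ) (S := AlgebraicClosure ℚ)).toRingHom
  exact main (A := A) (K := AlgebraicClosure ℚ) ι
    (by exact IsLocalRing.residue_surjective) h5 (natCast_residue_ne_zero hA hM) h0 hmem hloc c P
    hecke

end Qbar

end

end Fermat.Agent.ThmC
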