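import Fermat.Agent.ThmC.Reg
import Fermat.Agent.RR.LevelH
import Fermat.Agent.RedMod.Bar

/-!
# Uniformisers on the special fibre with well behaved differentials
-/

set_option autoImplicit false
set_option linter.style.haveILetI false
set_option linter.unusedSectionVars false

noncomputable section

namespace Fermat.Agent.ThmC

open ModularCurve Polynomial IntermediateField Fermat.Agent.ModPoly Fermat.Agent.Red AlgebraicCurve
open Fermat.Agent.RR Fermat.Agent.Cusp Fermat.Agent.RedMod Fermat.Agent.Spec Fermat.Agent.Curve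

/-! ### specialisation of places -/

section DivRed

variable {A K F k R : Type*} [CommRing A] [IsDomain A] [ValuationRing A]
  [Field K] [Algebra A K] [IsFractionRing A K] [Field F] [Algebra K F] [Algebra A F]
  [IsScalarTower A K F] [Field k] [Algebra A k] [Field R] [Algebra k R] [Algebra A R]
  [IsScalarTower A k R] [IsAlgClosed K] [IsAlgClosed k] [FunField K F] [FunField k R]
  {M : RedModel A K F k R} {hk : Function.Surjective (algebraMap A k)}
  (𝓓 : DivRed A K F k R M hk)

theorem r_ge {D : Divisor K F} {Q : Place k R}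
    (h : ∀ P, 𝓓.r (Finsupp.single P 1) = Finsupp.single Q 1 → 0 ≤ D P) : 0 ≤ 𝓓.r D Q := by
  classical
  have h1 : 𝓓.r D = ∑ v ∈ D.support, D v • 𝓓.r (Finsupp.single v 1) := by
    conv_lhs => rw [← Finsupp.sum_single D, Finsupp.sum, map_sum]
    refine Finset.sum_congr rfl fun v _ => ?_
    rw [← map_zsmul, Finsupp.smul_single, smul_eq_mul, mul_one]
  rw [h1, Finsupp.finsetSum_apply]
  refine Finset.sum_nonneg fun v _ => ?_
  obtain ⟨w', hw'⟩ := 𝓓.r_single v
  rw [Finsupp.smul_apply, hw', Finsupp.single_apply]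
  split_ifs with h2
  · subst h2
    have := h v hw'
    simpa using this
  · simp

theorem exists_pos_of_r {D : Divisor K F} {Q : Place k R} (h : 0 < 𝓓.r D Q) :
    ∃ P, 𝓓.r (Finsupp.single P 1) = Finsupp.single Q 1 ∧ 0 < D P := by
  by_contra hcon
  push Not at hcon
  have h1 := r_ge 𝓓 (D := -D) (Q := Q) (fun P hP => by
    rw [Finsupp.neg_apply]
    have := hcon P hP
    omega)
  rw [map_neg, Finsupp.neg_apply] at h1
  omega

theorem le_r {D : Divisor K F} {Q : Place k R} {P₀ : Place K F} {n : ℤ}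
    (hP₀ : 𝓓.r (Finsupp.single P₀ 1) = Finsupp.single Q 1)
    (h : ∀ P, 𝓓.r (Finsupp.single P 1) = Finsupp.single Q 1 → 0 ≤ D P) (hn : n ≤ D P₀) :
    n ≤ 𝓓.r D Q := by
  classical
  have h1 := r_ge 𝓓 (D := D - Finsupp.single P₀ n) (Q := Q) (fun P hP => by
    rw [Finsupp.sub_apply, Finsupp.single_apply]
    split_ifs with h2
    · subst h2; omega
    · have := h P hP
      omega)
  have h2 : 𝓓.r (Finsupp.single P₀ n) = Finsupp.single Q n := by
    have : Finsupp.single P₀ n = n • (Finsupp.single P₀ (1 : ℤ)) := by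
      rw [Finsupp.smul_single, smul_eq_mul, mul_one]
    rw [this, map_zsmul, hP₀, Finsupp.smul_single, smul_eq_mul, mul_one]
  rw [map_sub, h2, Finsupp.sub_apply, Finsupp.single_eq_same] at h1
  omega

theorem divisor_eq_sub {K F : Type*} [Field K] [IsAlgClosed K] [Field F] [Algebra K F]
    [FunField K F] (t : F) : divisor K t = zeroDiv K t - poleDiv K t := by
  ext v
  rw [Finsupp.sub_apply, divisor_apply, zeroDiv_apply, poleDiv_apply]
  rcases le_total 0 (v.ord t) with h | h
  · rw [max_eq_left h, max_eq_right (by omega)]; omega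
  · rw [max_eq_right h, max_eq_left (by omega)]; omega

theorem r_poleDiv {t : F} (ht : t ∈ M.W) (h0 : M.π ⟨t, ht⟩ ≠ 0)
    (hdeg : Divisor.degree (poleDiv k (M.π ⟨t, ht⟩)) = Divisor.degree (poleDiv K t)) :
    𝓓.r (poleDiv K t) = poleDiv k (M.π ⟨t, ht⟩) := by
  symm
  apply eq_of_le_of_degree
  · intro v
    have h1 := 𝓓.r_divisor ht h0
    rw [divisor_eq_sub, map_sub] at h1
    have h2 := 𝓓.r_nonneg (poleDiv_nonneg (K := K) t) v
    have h3 : (0 : Divisor K F) ≤ zeroDiv K t := by
      intro w
      rw [zeroDiv_apply]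
      exact le_max_right _ _
    have h4 := 𝓓.r_nonneg h3 v
    have h5 := DFunLike.congr_fun h1 v
    rw [Finsupp.sub_apply, divisor_apply] at h5
    simp only [Finsupp.coe_zero, Pi.zero_apply] at h2 h4
    rw [poleDiv_apply]
    apply max_le
    · omega
    · exact h2
  · rw [𝓓.degree_r, hdeg]

theorem nonneg_of_to {t : F} (ht : t ∈ M.W) (h0 : M.π ⟨t, ht⟩ ≠ 0)
    (hdeg : Divisor.degree (poleDiv k (M.π ⟨t, ht⟩)) = Divisor.degree (poleDiv K t))
    {P : Place K F} {Q : Place k R} (hP : 𝓓.r (Finsupp.single P 1) = Finsupp.single Q 1)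
    (hQ : 0 ≤ Q.ord (M.π ⟨t, ht⟩)) : 0 ≤ P.ord t := by
  by_contra hneg
  push Not at hneg
  have h1 : Finsupp.single P 1 ≤ poleDiv K t := by
    classical
    intro w
    rw [Finsupp.single_apply]
    split_ifs with h
    · subst h
      rw [poleDiv_apply]
      have := le_max_left (-P.ord t) 0
      omega
    · exact poleDiv_nonneg t w
  have h2 := 𝓓.r_mono h1 Q
  rw [hP, r_poleDiv 𝓓 ht h0 hdeg, Finsupp.single_eq_same, poleDiv_apply, max_eq_right (by omega)]
    at h2
  omega

/-- nonunits reduce to zero -/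
theorem algebraMap_eq_zero_of_not_isUnit {A k : Type*} [CommRing A] [IsDomain A] [ValuationRing A]
    [Field k] [Algebra A k] (hk : Function.Surjective (algebraMap A k)) {b : A} (hb : ¬ IsUnit b) :
    algebraMap A k b = 0 := by
  have h1 : (RingHom.ker (algebraMap A k)).IsMaximal := RingHom.ker_isMaximal_of_surjective _ hk
  have h2 := IsLocalRing.eq_maximalIdeal h1
  rw [← RingHom.mem_ker, h2]
  exact hb

/-- **unramified specialisation**: if `ū` is a uniformiser at `Q` then `u - c` vanishes at most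
once at every place specialising to `Q`. -/
theorem ord_sub_le_one {u : F} {Q : Place k R} (hu : u ∈ M.W)
    (hfin : ∀ P, 𝓓.r (Finsupp.single P 1) = Finsupp.single Q 1 → 0 ≤ P.ord u)
    (hū : Q.ord (M.π ⟨u, hu⟩) = 1) {P : Place K F}
    (hP : 𝓓.r (Finsupp.single P 1) = Finsupp.single Q 1) (c : K) :
    P.ord (u - algebraMap K F c) ≤ 1 := by
  by_contra hlt
  push Not at hlt
  have hne : u - algebraMap K F c ≠ 0 := by
    intro h
    rw [h, P.ord_zero] at hlt
    omega
  have hmax : ∀ a : k, Q.ord (M.π ⟨u, hu⟩ - algebraMap k R a) ≤ 1 ∧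
      M.π ⟨u, hu⟩ - algebraMap k R a ≠ 0 := by
    intro a
    have h0 : M.π ⟨u, hu⟩ - algebraMap k R a ≠ 0 := by
      intro h
      rw [sub_eq_zero.1 h, ord_algebraMap] at hū
      omega
    refine ⟨?_, h0⟩
    by_contra hgt
    push Not at hgt
    have g1 : Ge Q 1 (M.π ⟨u, hu⟩) := Ge.of_le (by omega)
    have g2 : Ge Q 1 (M.π ⟨u, hu⟩ - algebraMap k R a) := Ge.of_le (by omega)
    have g3 : Ge Q 1 (algebraMap k R a) := by
      have := g1.sub g2
      rwa [sub_sub_cancel] at this
    rcases eq_or_ne a 0 with rfl | ha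
    · rw [map_zero, sub_zero] at hgt
      omega
    · have h3 := g3.le_ord (by simpa using ha)
      rw [ord_algebraMap] at h3
      omega
  -- regularity of `u - c`
  have hreg : ∀ P', 𝓓.r (Finsupp.single P' 1) = Finsupp.single Q 1 →
      0 ≤ P'.ord (u - algebraMap K F c) := by
    intro P' hP'
    have g1 : Ge P' 0 u := Ge.of_le (hfin P' hP')
    have g2 : Ge P' 0 (algebraMap K F c) := Ge.of_le (by rw [ord_algebraMap])
    exact (g1.sub g2).le_ord hne
  rcases ValuationRing.isInteger_or_isInteger A c with ⟨a, ha⟩ | ⟨b, hb⟩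
  · have hmem : u - algebraMap A F a ∈ M.W := sub_mem hu (M.W.algebraMap_mem a)
    have e1 : M.π ⟨u - algebraMap A F a, hmem⟩ = M.π ⟨u, hu⟩ - algebraMap k R (algebraMap A k a) := by
      have h1 : (⟨u - algebraMap A F a, hmem⟩ : M.W) = ⟨u, hu⟩ - algebraMap A M.W a := rfl
      rw [h1, map_sub, AlgHom.commutes, IsScalarTower.algebraMap_apply A k R]
    obtain ⟨h2, h3⟩ := hmax (algebraMap A k a)
    rw [← e1] at h2 h3
    have h4 := 𝓓.r_divisor hmem h3
    have e2 : u - algebraMap A F a = u - algebraMap K F c := by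
      rw [← ha, ← IsScalarTower.algebraMap_apply A K F]
    have h5 : 2 ≤ 𝓓.r (divisor K (u - algebraMap A F a)) Q :=
      le_r 𝓓 hP (fun P' hP' => by rw [divisor_apply, e2]; exact hreg P' hP') (by
        rw [divisor_apply, e2]; omega)
    rw [h4, divisor_apply] at h5
    omega
  · by_cases hbu : IsUnit b
    · -- then `c` is integral
      obtain ⟨b', hb'⟩ := hbu.exists_right_inv
      have hc0 : c ≠ 0 := by
        rintro rfl
        rw [inv_zero] at hb
        have h1 : algebraMap A K (b * b') = 1 := by rw [hb', map_one]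
        rw [map_mul, hb, zero_mul] at h1
        exact zero_ne_one h1
      have ha : algebraMap A K b' = c := by
        have h1 : algebraMap A K (b * b') = 1 := by rw [hb', map_one]
        rw [map_mul, hb] at h1
        field_simp at h1
        exact h1
      have hmem : u - algebraMap A F b' ∈ M.W := sub_mem hu (M.W.algebraMap_mem b')
      have e1 : M.π ⟨u - algebraMap A F b', hmem⟩ =
          M.π ⟨u, hu⟩ - algebraMap k R (algebraMap A k b') := by
        have h1 : (⟨u - algebraMap A F b', hmem⟩ : M.W) = ⟨u, hu⟩ - algebraMap A M.W b' := rfl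
        rw [h1, map_sub, AlgHom.commutes, IsScalarTower.algebraMap_apply A k R]
      obtain ⟨h2, h3⟩ := hmax (algebraMap A k b')
      rw [← e1] at h2 h3
      have h4 := 𝓓.r_divisor hmem h3
      have e2 : u - algebraMap A F b' = u - algebraMap K F c := by
        rw [← ha, ← IsScalarTower.algebraMap_apply A K F]
      have h5 : 2 ≤ 𝓓.r (divisor K (u - algebraMap A F b')) Q :=
        le_r 𝓓 hP (fun P' hP' => by rw [divisor_apply, e2]; exact hreg P' hP') (by
          rw [divisor_apply, e2]; omega)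
      rw [h4, divisor_apply] at h5
      omega
    · have hb0 := algebraMap_eq_zero_of_not_isUnit hk hbu
      by_cases hc0 : c = 0
      · subst hc0
        rw [map_zero, sub_zero] at hlt
        have h3 : M.π ⟨u, hu⟩ ≠ 0 := by
          intro h
          rw [h, Q.ord_zero] at hū
          omega
        have h4 := 𝓓.r_divisor hu h3
        have h5 : 2 ≤ 𝓓.r (divisor K u) Q :=
          le_r 𝓓 hP (fun P' hP' => by rw [divisor_apply]; exact hfin P' hP') (by
            rw [divisor_apply]; omega)
        rw [h4, divisor_apply] at h5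
        omega
      have hmem : algebraMap A F b * u - 1 ∈ M.W :=
        sub_mem (mul_mem (M.W.algebraMap_mem b) hu) (one_mem _)
      have e1 : M.π ⟨algebraMap A F b * u - 1, hmem⟩ = -1 := by
        have h1 : (⟨algebraMap A F b * u - 1, hmem⟩ : M.W) = algebraMap A M.W b * ⟨u, hu⟩ - 1 := rfl
        rw [h1, map_sub, map_mul, AlgHom.commutes, map_one, IsScalarTower.algebraMap_apply A k R,
          hb0, map_zero, zero_mul, zero_sub]
      have h3 : M.π ⟨algebraMap A F b * u - 1, hmem⟩ ≠ 0 := by
        rw [e1]; exact neg_ne_zero.2 one_ne_zero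
      have h4 := 𝓓.r_divisor hmem h3
      have e2 : algebraMap A F b * u - 1 = c⁻¹ • (u - algebraMap K F c) := by
        rw [IsScalarTower.algebraMap_apply A K F, hb, Algebra.smul_def, mul_sub, ← map_mul,
          inv_mul_cancel₀ hc0, map_one]
      have h5 : 2 ≤ 𝓓.r (divisor K (algebraMap A F b * u - 1)) Q := by
        rw [e2, divisor_smul (inv_ne_zero hc0)]
        exact le_r 𝓓 hP (fun P' hP' => by rw [divisor_apply]; exact hreg P' hP') (by
          rw [divisor_apply]; omega)
      rw [h4, e1, divisor_apply] at h5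
      have h6 : Q.ord (-1 : R) = 0 := by
        have : (-1 : R) = algebraMap k R (-1) := by rw [map_neg, map_one]
        rw [this, ord_algebraMap]
      rw [h6] at h5
      omega

end DivRed

/-! ### ramification over the `j`-line without elliptic points -/

section Count

variable {K F : Type*} [Field K] [IsAlgClosed K] [Field F] [Algebra K F] [FunField K F]

/-- if `m * #{zeros} = degree` and each multiplicity divides `m` then each multiplicity is `m` -/
theorem eq_of_count {t : F} {m : ℕ} (hm : 0 < m) {d : ℕ}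
    (hd : Divisor.degree (zeroDiv K t) = d)
    (hcount : m * Set.ncard {v : Place K F | 0 < v.ord t} = d)
    (hdvd : ∀ v : Place K F, 0 < v.ord t → v.ord t ∣ m) (v : Place K F) (hv : 0 < v.ord t) :
    v.ord t = m := by
  classical
  have hs : {v : Place K F | 0 < v.ord t} = ↑(zeroDiv K t).support := by
    ext w
    rw [Finset.mem_coe, Finsupp.mem_support_iff, zeroDiv_apply]
    change 0 < w.ord t ↔ _
    constructor
    · intro h
      rw [max_eq_left h.le]
      omega
    · intro h
      by_contra hle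
      push Not at hle
      exact h (max_eq_right hle)
  rw [hs, Set.ncard_coe_finset] at hcount
  have hz : ∀ w ∈ (zeroDiv K t).support, zeroDiv K t w = w.ord t ∧ 0 < w.ord t := by
    intro w hw
    have h1 : w ∈ {v : Place K F | 0 < v.ord t} := by rw [hs]; exact hw
    have h2 : 0 < w.ord t := h1
    exact ⟨by rw [zeroDiv_apply, max_eq_left h2.le], h2⟩
  have h1 : ∑ w ∈ (zeroDiv K t).support, ((m : ℤ) - zeroDiv K t w) = 0 := by
    rw [Finset.sum_sub_distrib, Finset.sum_const, ← degree_eq, hd, ← hcount]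
    push_cast
    rw [nsmul_eq_mul]
    ring
  have h2 := (Finset.sum_eq_zero_iff_of_nonneg (fun w hw => by
    obtain ⟨e1, e2⟩ := hz w hw
    have := Int.le_of_dvd (by exact_mod_cast hm) (hdvd w e2)
    rw [e1]
    omega)).1 h1 v (by
      have : v ∈ {v : Place K F | 0 < v.ord t} := hv
      rw [hs] at this
      exact this)
  obtain ⟨e1, e2⟩ := hz v (by
      have : v ∈ {v : Place K F | 0 < v.ord t} := hv
      rw [hs] at this
      exact this)
  rw [e1] at h2
  omega

end Count

section CharZero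

open Fermat.Agent.X0Genus Fermat.Agent.JFun

variable {K : Type*} [Field K] [IsAlgClosed K] [CharZero K] [Algebra ℚ K] {N : ℕ} [NeZero N]
  (ι : K →+* ℂ)

theorem ncard_transport {E E' : IntermediateField K (LaurentSeries K)} (h : E = E') (x : E)
    (x' : E') (hx : (x : LaurentSeries K) = x') (c : K) :
    Set.ncard {v : Place K E | 0 < v.ord (x - algebraMap K E c)} =
      Set.ncard {v : Place K E' | 0 < v.ord (x' - algebraMap K E' c)} := by
  subst h
  have : x = x' := Subtype.ext hx
  subst this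
  rfl

theorem degree_zeroDiv_j_sub [FunField K (FF K N)] (c : K) :
    Divisor.degree (zeroDiv K (jF' K N - algebraMap K _ c)) = dedekindPsi N := by
  have hN : (N : K) ≠ 0 := by exact_mod_cast NeZero.ne N
  have h1 := degree_divisor (K := K) (jF' K N - algebraMap K _ c)
  rw [divisor_eq_sub, map_sub, sub_eq_zero] at h1
  rw [h1]
  have h2 : poleDiv K (jF' K N - algebraMap K _ c) = poleDiv K (jF' K N) := by
    ext v
    rw [poleDiv_apply, poleDiv_apply]
    rcases lt_or_ge (v.ord (jF' K N)) 0 with h | h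
    · rw [(ord_sub_eq_of_neg h c).2]
    · have g1 : Ge v 0 (jF' K N) := Ge.of_le h
      have g2 : Ge v 0 (algebraMap K (FF K N) c) := Ge.of_le (by rw [ord_algebraMap])
      rw [max_eq_right (a := -v.ord (jF' K N)) (by omega)]
      rcases g1.sub g2 with h3 | h3
      · rw [h3, v.ord_zero]; rfl
      · rw [max_eq_right (by omega)]
  rw [h2]
  exact (poleZero_jF hN).dP

include ι in
/-- exact ramification indices over the `j`-line -/
theorem ord_eq_ram [FunField K (FF K N)] (h2 : nuTwo N = 0) (h3 : nuThree N = 0)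
    (v : Place K (FF K N)) (c : K) (hc : 0 < v.ord (jF' K N - algebraMap K _ c)) :
    v.ord (jF' K N - algebraMap K _ c) = ramJ (ι c) := by
  have hn := finrank_jj K N
  by_cases hc0 : c = 0
  · have hr : ramJ (ι c) = 3 := by rw [ramJ, if_pos (by rw [hc0, map_zero])]
    rw [hr]
    refine eq_of_count (by norm_num) (degree_zeroDiv_j_sub c) ?_ (fun w hw => ?_) v hc
    · have h4 := count_zero N ι hn
      rw [h3, ncard_transport (baseChange_eq K N) (jj K N) (jF' K N)
        (by rw [coe_jj]; exact Jc_one_one.symm)] at h4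
      rw [hc0]
      simpa using h4
    · have := ram_dvd N ι w c hw
      rwa [hr] at this
  · by_cases hc1 : c = 1728
    · have hr : ramJ (ι c) = 2 := by
        rw [ramJ, if_neg, if_pos (by rw [hc1, map_ofNat])]
        rw [hc1, map_ofNat]; norm_num
      rw [hr]
      refine eq_of_count (by norm_num) (degree_zeroDiv_j_sub c) ?_ (fun w hw => ?_) v hc
      · have h4 := count_1728 N ι hn
        rw [h2, ncard_transport (baseChange_eq K N) (jj K N) (jF' K N)
          (by rw [coe_jj]; exact Jc_one_one.symm)] at h4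
        rw [hc1]
        simpa using h4
      · have := ram_dvd N ι w c hw
        rwa [hr] at this
    · have hr : ramJ (ι c) = 1 := by
        rw [ramJ, if_neg, if_neg]
        · intro h
          apply hc1
          apply ι.injective
          rw [h, map_ofNat]
        · intro h
          exact hc0 ((map_eq_zero ι).1 h)
      have := ram_dvd N ι v c hc
      rw [hr] at this ⊢
      have := Int.le_of_dvd (by norm_num) this
      push_cast at this ⊢
      omega

include ι in
/-- vanishing of `zz` means vanishing of the differential -/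
theorem ord_zz_pos [FunField K (FF K N)] (h2 : nuTwo N = 0) (h3 : nuThree N = 0)
    {u g : FF K N} {v : Place K (FF K N)} (hv : 0 ≤ v.ord (jF' K N)) (hu : 0 ≤ v.ord u)
    (hg : KaehlerDifferential.D K (FF K N) u = g • KaehlerDifferential.D K (FF K N) (jF' K N))
    (hz : 0 < v.ord (zz K (jF' K N) g)) : ∃ c : K, 2 ≤ v.ord (u - algebraMap K _ c) := by
  have ht := RR.transcendental_jF (k := K) N
  have hg0 : g ≠ 0 := by
    rintro rfl
    rw [zz, zero_pow (by norm_num), zero_mul, zero_mul, v.ord_zero] at hz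
    exact lt_irrefl _ hz
  obtain ⟨c0, hc0⟩ := exists_sub_ord_pos ht hv
  have he := ord_eq_ram ι h2 h3 v c0 hc0
  obtain ⟨e, hedef⟩ : ∃ e : ℤ, e = v.ord (jF' K N - algebraMap K _ c0) := ⟨_, rfl⟩
  rw [← hedef] at he hc0
  have hne : ∀ b : K, jF' K N - algebraMap K _ b ≠ 0 := by
    intro b hb
    apply ht
    rw [sub_eq_zero.1 hb]
    exact isAlgebraic_algebraMap b
  have ht0 : jF' K N ≠ 0 := by simpa using hne 0
  obtain ⟨-, e1⟩ := ord_zz (v := v) hg0 ht0 (hne 1728)
  rw [e1] at hz
  have o0 := ord_sub_const hc0 hedef.symm 0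
  have o1 := ord_sub_const hc0 hedef.symm 1728
  rw [map_zero, sub_zero] at o0
  have hcz : 0 < v.ord g + e - 1 := by
    have h1728 : (1728 : K) ≠ 0 := by norm_num
    by_cases h0 : c0 = 0
    · have hr : ramJ (ι c0) = 3 := by rw [ramJ, if_pos (by rw [h0, map_zero])]
      rw [hr] at he
      rw [o0.1 h0.symm, (o1.2 (by rw [h0]; exact h1728)).2] at hz
      push_cast at he
      omega
    · by_cases h1 : c0 = 1728
      · have hr : ramJ (ι c0) = 2 := by
          rw [ramJ, if_neg, if_pos (by rw [h1, map_ofNat])]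
          rw [h1, map_ofNat]; norm_num
        rw [hr] at he
        rw [(o0.2 (Ne.symm h0)).2, o1.1 h1.symm] at hz
        push_cast at he
        omega
      · rw [(o0.2 (Ne.symm h0)).2, (o1.2 (Ne.symm h1)).2] at hz
        omega
  -- the value of `u`
  by_cases hconst : IsAlgebraic K u
  · exfalso
    obtain ⟨a, rfl⟩ := mem_range_of_isAlgebraic hconst
    rw [Derivation.map_algebraMap] at hg
    have h4 := theta_of_D (laurentExp v (bij v) (exists_pi v).choose_spec)
      (laurentExp_algebraMap v (bij v) (exists_pi v).choose_spec)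
      (u := 0) (t := jF' K N) (g := g) (by rw [map_zero]; exact hg)
    obtain ⟨h5, -⟩ := theta_exp_order v (exists_pi v).choose_spec (t := jF' K N) (n := e)
      (by exact_mod_cast hc0.ne') (Or.inr ⟨c0, hedef.symm⟩)
    rw [map_zero, map_zero, eq_comm, mul_eq_zero] at h4
    rcases h4 with h4 | h4
    · exact hg0 ((map_eq_zero _).1 h4)
    · exact h5 h4
  obtain ⟨c, hc⟩ := exists_sub_ord_pos hconst hu
  refine ⟨c, ?_⟩
  by_contra hlt
  push Not at hlt
  have hπ : v.ord (u - algebraMap K _ c) = 1 := by omega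
  have hD : KaehlerDifferential.D K (FF K N) (u - algebraMap K _ c) =
      g • KaehlerDifferential.D K (FF K N) (jF' K N) := by
    rw [map_sub, Derivation.map_algebraMap, sub_zero, hg]
  have h4 := theta_of_D (laurentExp v (bij v) hπ) (laurentExp_algebraMap v (bij v) hπ) hD
  obtain ⟨h5, h6⟩ := theta_exp_order v hπ (t := jF' K N) (n := e)
    (by exact_mod_cast hc0.ne') (Or.inr ⟨c0, hedef.symm⟩)
  rw [laurentExp_pi, theta_single_one'] at h4
  have hg1 : laurentExp v (bij v) hπ g ≠ 0 := by rwa [ne_eq, map_eq_zero]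
  have h7 := congrArg HahnSeries.order h4
  rw [HahnSeries.order_single one_ne_zero, HahnSeries.order_mul hg1 h5, h6,
    order_laurentExp v (bij v) hπ hg0] at h7
  omega

end CharZero

/-! ### the main statement -/

section Main

attribute [local instance] algFF

variable {A K k : Type*} [CommRing A] [IsDomain A] [ValuationRing A]
  [Field K] [IsAlgClosed K] [Algebra A K] [IsFractionRing A K] [Field k] [IsAlgClosed k]
  [Algebra A k] {N : ℕ} [NeZero N]

/-- the differential of a lift of a uniformiser does not vanish, in the sense that the function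
`(dȳ/dj)^6 j^4 (j-1728)^3` is a unit. All characteristics. -/
theorem zz_of_unif [CharZero K] [Algebra ℚ K] (ι : K →+* ℂ)
    (hk : Function.Surjective (algebraMap A k)) (hN : (N : k) ≠ 0)
    (h2 : nuTwo N = 0) (h3 : nuThree N = 0)
    [FunField k (FF k N)] {Q : Place k (FF k N)} (hQ : 0 ≤ Q.ord (jF' k N)) {u : FF K N}
    (huW : u ∈ Wφ A k (FF K N).val)
    (hureg : ∀ v : Place K (FF K N), 0 ≤ v.ord (jF' K N) → 0 ≤ v.ord u)
    (hu1 : Q.ord (redFF K hk hN ⟨u, huW⟩) = 1) :
    ∃ g : FF k N, theta ((redFF K hk hN ⟨u, huW⟩ : FF k N) : LaurentSeries k) =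
        (g : LaurentSeries k) * theta (jqModC k) ∧
      zz k (jF' k N) g ≠ 0 ∧ Q.ord (zz k (jF' k N) g) = 0 := by
  have hNK := natCast_K (A := A) (K := K) hN
  haveI := funField_FF (k := K) (M := N) hNK
  have H := fibreHyp (K := K) (N := N) hk hN
  rw [rrGenus_eq_level ι hk hN] at H
  let 𝓓 := Fermat.Agent.Spec.FibreHyp.divRed H
  have ht := RR.transcendental_jF (k := k) N
  obtain ⟨g, hg1, hg2⟩ := exists_dj hNK u
  have hgW : g ∈ Wφ A k (FF K N).val := dj_mem (A := A) (k := k) huW hg2
  have hθ : theta ((redFF K hk hN ⟨u, huW⟩ : FF k N) : LaurentSeries k) =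
      ((redFF K hk hN ⟨g, hgW⟩ : FF k N) : LaurentSeries k) * theta (jqModC k) := by
    rw [coe_redFF, coe_redFF]
    exact πL_dj (A := A) (k := k) huW hg2 hgW
  refine ⟨redFF K hk hN ⟨g, hgW⟩, hθ, ?_⟩
  have hD := D_of_theta hN hθ
  -- the reduction is nonzero
  have hg0 : redFF K hk hN ⟨g, hgW⟩ ≠ 0 := by
    intro h0
    have h4 := theta_of_D (laurentExp Q (bij Q) hu1) (laurentExp_algebraMap Q (bij Q) hu1) hD
    rw [laurentExp_pi, theta_single_one', h0, map_zero, zero_mul,
      HahnSeries.single_eq_zero_iff] at h4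
    exact one_ne_zero h4
  have hne : ∀ b : k, jF' k N - algebraMap k _ b ≠ 0 := by
    intro b hb
    apply ht
    rw [sub_eq_zero.1 hb]
    exact isAlgebraic_algebraMap b
  have hz0 := (ord_zz (v := Q) hg0 (by simpa using hne 0) (hne 1728)).1
  refine ⟨hz0, ?_⟩
  -- regularity
  obtain ⟨b, hb⟩ := zz_dj_mem ι (u := u) (g := g) hureg hg1
  have e1 : (gaussFF K hk hN).π ⟨zz K (jF' K N) g, zz_mem_W hgW⟩ =
      zz k (jF' k N) (redFF K hk hN ⟨g, hgW⟩) := red_zz hk hN hgW
  have hzL := H.π_mem_LL (x := zz K (jF' K N) g) (zz_mem_W hgW) hb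
  rw [e1] at hzL
  have hge : 0 ≤ Q.ord (zz k (jF' k N) (redFF K hk hN ⟨g, hgW⟩)) := by
    have h1 := (mem_LL.1 hzL) Q
    rw [poleDiv_apply, max_eq_right (by omega)] at h1
    simp only [Nat.cast_zero, zero_mul, add_zero, mul_zero, Finsupp.coe_zero, Pi.zero_apply,
      neg_zero] at h1
    rcases h1 with h1 | h1
    · rw [h1, Q.ord_zero]
    · exact h1
  by_contra hne0
  have hpos : 0 < Q.ord (zz k (jF' k N) (redFF K hk hN ⟨g, hgW⟩)) := by omega
  -- a zero in characteristic zero
  have hdiv : 𝓓.r (divisor K (zz K (jF' K N) g)) =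
      divisor k (zz k (jF' k N) (redFF K hk hN ⟨g, hgW⟩)) := by
    have h1 := 𝓓.r_divisor (f := zz K (jF' K N) g) (zz_mem_W hgW) (by
      change (gaussFF K hk hN).π ⟨zz K (jF' K N) g, zz_mem_W hgW⟩ ≠ 0
      rw [e1]; exact hz0)
    rw [h1]
    exact congrArg (divisor k) e1
  obtain ⟨P, hP, hPpos⟩ := exists_pos_of_r 𝓓 (D := divisor K (zz K (jF' K N) g)) (Q := Q) (by
    rw [hdiv, divisor_apply]; exact hpos)
  rw [divisor_apply] at hPpos
  have hjW : jF' K N ∈ Wφ A k (FF K N).val := mem_Wφ_of_eq _ val_jF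
  have hπj : H.M.π ⟨jF' K N, hjW⟩ = jF' k N := redFF_jF hk hN hjW
  have hto : ∀ P' : Place K (FF K N), 𝓓.r (Finsupp.single P' 1) = Finsupp.single Q 1 →
      0 ≤ P'.ord (jF' K N) := by
    intro P' hP'
    refine nonneg_of_to 𝓓 (t := jF' K N) hjW ?_ ?_ hP' ?_
    · rw [hπj]
      simpa using hne 0
    · rw [hπj, (poleZero_jF hN).dP, (poleZero_jF hNK).dP]
    · rw [hπj]; exact hQ
  obtain ⟨c, hc⟩ := ord_zz_pos ι h2 h3 (hto P hP) (hureg P (hto P hP)) hg1 hPpos
  have h5 := ord_sub_le_one 𝓓 (u := u) (Q := Q) huW (fun P' hP' => hureg P' (hto P' hP')) hu1 hP c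
  omega

/-- existence of lifts of uniformisers -/
theorem exists_lift_unif [CharZero K] [Algebra ℚ K] (ι : K →+* ℂ)
    (hk : Function.Surjective (algebraMap A k)) (hN : (N : k) ≠ 0)
    [FunField k (FF k N)] {Q : Place k (FF k N)} (hQ : 0 ≤ Q.ord (jF' k N)) :
    ∃ (u : FF K N) (huW : u ∈ Wφ A k (FF K N).val),
      (∀ v : Place K (FF K N), 0 ≤ v.ord (jF' K N) → 0 ≤ v.ord u) ∧
      Q.ord (redFF K hk hN ⟨u, huW⟩) = 1 := by
  have hNK := natCast_K (A := A) (K := K) hN
  haveI := funField_FF (k := K) (M := N) hNK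
  have H := fibreHyp (K := K) (N := N) hk hN
  rw [rrGenus_eq_level ι hk hN] at H
  obtain ⟨n0, hn0⟩ := rd_eq_LL H
  have ht := RR.transcendental_jF (k := k) N
  obtain ⟨a, ha, π₀, hπL, hπ1⟩ := exists_simple_zero ht Q hQ n0
  rw [← hn0 a 0 (by omega)] at hπL
  obtain ⟨u, hu, hπu⟩ := hπL
  have huW : u ∈ Wφ A k (FF K N).val := hu.1
  have huL : u ∈ LL (poleDiv K (jF' K N)) (zeroDiv K (jF' K N)) 0 a 0 := hu.2
  have hπu' : redFF K hk hN ⟨u, huW⟩ = π₀ := hπu
  refine ⟨u, huW, ?_, ?_⟩
  · intro w hw
    have h1 := (mem_LL.1 huL) w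
    rw [poleDiv_apply, max_eq_right (by omega)] at h1
    simp only [Nat.cast_zero, zero_mul, add_zero, mul_zero, Finsupp.coe_zero, Pi.zero_apply,
      neg_zero] at h1
    rcases h1 with h1 | h1
    · rw [h1, w.ord_zero]
    · exact h1
  · rw [hπu']; exact hπ1

end Main

/-! ### vanishing of the numbers of elliptic points -/

theorem nuTwo_eq_zero_of_prime {r M : ℕ} (hr : r.Prime) (h : r % 12 = 11) (hrM : r ∣ M) :
    nuTwo M = 0 := by
  haveI : Fact r.Prime := ⟨hr⟩
  refine nuTwo_eq_zero hrM fun x hx => ?_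
  have h1 : x ^ 2 = -1 := eq_neg_of_add_eq_zero_left hx
  exact ZMod.mod_four_ne_three_of_sq_eq_neg_one h1 (by omega)

theorem nuThree_eq_zero_of_prime {r M : ℕ} (hr : r.Prime) (h : r % 12 = 11) (hrM : r ∣ M) :
    nuThree M = 0 := by
  haveI : Fact r.Prime := ⟨hr⟩
  refine nuThree_eq_zero hrM fun x hx => ?_
  have h3 : x ^ 3 = 1 := by linear_combination (x - 1) * hx
  have hx0 : x ≠ 0 := by
    rintro rfl
    rw [zero_pow (by norm_num), zero_add, zero_add] at hx
    exact one_ne_zero hx
  have hx1 : x ≠ 1 := by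
    rintro rfl
    have h4 : ((3 : ℕ) : ZMod r) = 0 := by
      push_cast
      linear_combination hx
    rw [ZMod.natCast_eq_zero_iff, Nat.prime_dvd_prime_iff_eq hr Nat.prime_three] at h4
    omega
  have h4 : orderOf x = 3 := by
    haveI : Fact (Nat.Prime 3) := ⟨Nat.prime_three⟩
    exact orderOf_eq_prime h3 hx1
  have h5 : x ^ (r - 1) = 1 := ZMod.pow_card_sub_one_eq_one hx0
  have h6 : 3 ∣ r - 1 := by
    rw [← h4]; exact orderOf_dvd_of_pow_eq_one h5
  omega

/-! ### over the algebraic closure of the rationals -/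

section Qbar

attribute [local instance] algFF

variable {A : ValuationSubring (AlgebraicClosure ℚ)} {q M : ℕ} [Fact q.Prime] [NeZero M]

/-- **(H7)**: at every finite place of the special fibre there is a uniformiser which lifts to a
regular function and whose differential has no zero. -/
theorem exists_unif_Qbar (hA : A.LiesOverPrime q) (hM : ¬ q ∣ M) {r : ℕ} (hr : r.Prime)
    (hr12 : r % 12 = 11) (hrM : r ∣ M)
    (Q : Place (IsLocalRing.ResidueField A) (FF (IsLocalRing.ResidueField A) M))
    (hQ : 0 ≤ Q.ord (jF' (IsLocalRing.ResidueField A) M)) :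
    ∃ (y : FF (AlgebraicClosure ℚ) M)
      (hy : (y : LaurentSeries (AlgebraicClosure ℚ)) ∈
        WL A (AlgebraicClosure ℚ) (IsLocalRing.ResidueField A)),
      (∀ v : Place (AlgebraicClosure ℚ) (FF (AlgebraicClosure ℚ) M),
        0 ≤ v.ord (jF' (AlgebraicClosure ℚ) M) → 0 ≤ v.ord y) ∧
      ∃ g : FF (IsLocalRing.ResidueField A) M,
        theta (πL A (AlgebraicClosure ℚ) (IsLocalRing.ResidueField A) ⟨y, hy⟩) =
          (g : LaurentSeries (IsLocalRing.ResidueField A)) *
            theta (jqModC (IsLocalRing.ResidueField A)) ∧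
        g ^ 6 * jF' (IsLocalRing.ResidueField A) M ^ 4 *
          (jF' (IsLocalRing.ResidueField A) M - 1728) ^ 3 ≠ 0 ∧
        Q.ord (g ^ 6 * jF' (IsLocalRing.ResidueField A) M ^ 4 *
          (jF' (IsLocalRing.ResidueField A) M - 1728) ^ 3) = 0 := by
  haveI := charP_residue hA
  haveI : IsAlgClosed (IsLocalRing.ResidueField A) := isAlgClosed_residueField A
  have hN : (M : IsLocalRing.ResidueField A) ≠ 0 := natCast_residue_ne_zero hA hM
  haveI := funField_FF (k := IsLocalRing.ResidueField A) (M := M) hN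
  have hk : Function.Surjective (algebraMap A (IsLocalRing.ResidueField A)) :=
    IsLocalRing.residue_surjective
  haveI : Algebra.IsAlgebraic ℚ (AlgebraicClosure ℚ) := AlgebraicClosure.isAlgebraic ℚ
  have ι : AlgebraicClosure ℚ →+* ℂ :=
    (IsAlgClosed.lift (R := ℚ) (M := ℂ) (S := AlgebraicClosure ℚ)).toRingHom
  obtain ⟨u, huW, hreg, hu1⟩ := exists_lift_unif (A := A) (K := AlgebraicClosure ℚ) ι hk hN hQ
  obtain ⟨g, hg1, hg2, hg3⟩ := zz_of_unif (A := A) (K := AlgebraicClosure ℚ) ι hk hN
    (nuTwo_eq_zero_of_prime hr hr12 hrM) (nuThree_eq_zero_of_prime hr hr12 hrM) hQ huW hreg hu1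
  refine ⟨u, huW, hreg, g, ?_, ?_, ?_⟩
  · rw [← hg1, coe_redFF]
    rfl
  · rwa [zz, map_ofNat] at hg2
  · rwa [zz, map_ofNat] at hg3

end Qbar

end Fermat.Agent.ThmC
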