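import Fermat.Agent.ThmC.Deg
import Fermat.Agent.ThmC.Main
import Fermat.Agent.ThmC.Unif
import Fermat.Agent.Cusp.Count

/-!
# Theorem C in every characteristic, for levels without elliptic points
-/

set_option autoImplicit false
set_option linter.style.haveILetI false
set_option linter.unusedSectionVars false

noncomputable section

namespace Fermat.Agent.ThmC

open ModularCurve Polynomial IntermediateField Fermat.Agent.ModPoly Fermat.Agent.Red AlgebraicCurve
open Fermat.Agent.RR Fermat.Agent.Cusp Fermat.Agent.RedMod Fermat.Agent.Spec Fermat.Agent.Curve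
open ModularFormClass CuspForm GenusRR Fermat.Agent.MFLib

section General

variable {K F : Type*} [Field K] [IsAlgClosed K] [Field F] [Algebra K F]

/-- `x dt` is a regular differential (levels without elliptic points) -/
def RegZ (t x : F) : Prop := ∀ v : Place K F,
  (0 ≤ v.ord t → Ge v 0 (zz K t x)) ∧ (v.ord t < 0 → Ge v (1 - v.ord t) x)

variable [hF : FunField K F]

/-- dimension of a space of functions with given regularity -/
theorem mem_of_le {V : Submodule K F} [FiniteDimensional K V] {D : Divisor K F}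
    (hV : V ≤ riemannRochSpace D) (hD : Divisor.degree D ≤ 2 * (rrGenus K F : ℤ) - 2)
    (hd : rrGenus K F ≤ Module.finrank K V) : V = riemannRochSpace D := by
  refine Submodule.eq_of_le_of_finrank_le hV ?_
  exact (ell_le_genus hD).trans hd

end General

section Main

attribute [local instance] algFF

variable {A K k : Type*} [CommRing A] [IsDomain A] [ValuationRing A]
  [Field K] [IsAlgClosed K] [Algebra A K] [IsFractionRing A K] [Field k] [IsAlgClosed k]
  [Algebra A k] {N : ℕ} [NeZero N]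

theorem degree_zeroDiv_sub (hN : (N : k) ≠ 0) [FunField k (FF k N)] (c : k) :
    Divisor.degree (zeroDiv k (jF' k N - algebraMap k _ c)) = dedekindPsi N := by
  have h1 := degree_divisor (K := k) (jF' k N - algebraMap k _ c)
  rw [divisor_eq_sub, map_sub, sub_eq_zero] at h1
  rw [h1]
  have h2 : poleDiv k (jF' k N - algebraMap k _ c) = poleDiv k (jF' k N) := by
    ext v
    rw [poleDiv_apply, poleDiv_apply]
    rcases lt_or_ge (v.ord (jF' k N)) 0 with h | h
    · rw [(ord_sub_eq_of_neg h c).2]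
    · have g1 : Ge v 0 (jF' k N) := Ge.of_le h
      have g2 : Ge v 0 (algebraMap k (FF k N) c) := Ge.of_le (by rw [ord_algebraMap])
      rw [max_eq_right (a := -v.ord (jF' k N)) (by omega)]
      rcases g1.sub g2 with h3 | h3
      · rw [h3, v.ord_zero]; rfl
      · rw [max_eq_right (by omega)]
  rw [h2]
  exact (poleZero_jF hN).dP

/-- every finite place has a function whose differential is a unit -/
theorem exists_unit_zz [CharZero K] [Algebra ℚ K] (ι : K →+* ℂ)
    (hk : Function.Surjective (algebraMap A k)) (hN : (N : k) ≠ 0)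
    (h2 : nuTwo N = 0) (h3 : nuThree N = 0)
    [FunField k (FF k N)] {Q : Place k (FF k N)} (hQ : 0 ≤ Q.ord (jF' k N)) :
    ∃ u g : FF k N, Q.ord u = 1 ∧ theta (u : LaurentSeries k) =
        (g : LaurentSeries k) * theta (jqModC k) ∧
      zz k (jF' k N) g ≠ 0 ∧ Q.ord (zz k (jF' k N) g) = 0 := by
  obtain ⟨u, huW, hreg, hu1⟩ := exists_lift_unif (A := A) (K := K) ι hk hN hQ
  obtain ⟨g, hg1, hg2, hg3⟩ := zz_of_unif (A := A) (K := K) ι hk hN h2 h3 hQ huW hreg hu1
  exact ⟨_, g, hu1, hg1, hg2, hg3⟩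

theorem jF_sub_ne (b : k) : jF' k N - algebraMap k _ b ≠ 0 := by
  intro hb
  apply RR.transcendental_jF (k := k) N
  rw [sub_eq_zero.1 hb]
  exact isAlgebraic_algebraMap b

/-- divisibility by 6 -/
theorem six_dvd [CharZero K] [Algebra ℚ K] (ι : K →+* ℂ)
    (hk : Function.Surjective (algebraMap A k)) (hN : (N : k) ≠ 0)
    (h2 : nuTwo N = 0) (h3 : nuThree N = 0)
    [FunField k (FF k N)] {Q : Place k (FF k N)} (hQ : 0 ≤ Q.ord (jF' k N)) :
    (6 : ℤ) ∣ 4 * Q.ord (jF' k N) + 3 * Q.ord (jF' k N - algebraMap k _ 1728) := by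
  obtain ⟨u, g, -, -, hz, hz0⟩ := exists_unit_zz (A := A) (K := K) ι hk hN h2 h3 hQ
  have hg0 : g ≠ 0 := by
    rintro rfl
    apply hz
    rw [zz, zero_pow (by norm_num), zero_mul, zero_mul]
  have h := (ord_zz (v := Q) hg0 (by simpa using jF_sub_ne (k := k) (N := N) 0)
    (jF_sub_ne (k := k) (N := N) 1728)).2
  rw [hz0] at h
  exact ⟨-Q.ord g, by linarith⟩

/-- in characteristic `3` the ramification at `j = 0` is divisible by `6` -/
theorem six_dvd_ord [CharZero K] [Algebra ℚ K] (ι : K →+* ℂ)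
    (hk : Function.Surjective (algebraMap A k)) (hN : (N : k) ≠ 0)
    (h2 : nuTwo N = 0) (h3 : nuThree N = 0) [CharP k 3]
    [FunField k (FF k N)] {Q : Place k (FF k N)} (hQ : 0 ≤ Q.ord (jF' k N)) :
    (6 : ℤ) ∣ Q.ord (jF' k N) := by
  have h := six_dvd (A := A) (K := K) ι hk hN h2 h3 hQ
  have h0 : (1728 : k) = 0 := by
    have : ((1728 : ℕ) : k) = 0 := (CharP.cast_eq_zero_iff k 3 1728).2 (by norm_num)
    exact_mod_cast this
  rw [h0, map_zero, sub_zero] at h
  omega

/-- the canonical divisor -/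
theorem exists_canonical [CharZero K] [Algebra ℚ K] (ι : K →+* ℂ)
    (hk : Function.Surjective (algebraMap A k)) (hN : (N : k) ≠ 0)
    (h2 : nuTwo N = 0) (h3 : nuThree N = 0)
    [FunField k (FF k N)] : ∃ D : Divisor k (FF k N),
      Divisor.degree D = 2 * (rrGenus k (FF k N) : ℤ) - 2 ∧
      ∀ x, RegZ (K := k) (jF' k N) x → x ∈ riemannRochSpace D := by
  classical
  have hNK := natCast_K (A := A) (K := K) hN
  haveI := funField_FF (k := K) (M := N) hNK
  have hj0 : jF' k N ≠ 0 := by simpa using jF_sub_ne (k := k) (N := N) 0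
  have hj1 := jF_sub_ne (k := k) (N := N) 1728
  obtain ⟨D₁, hD₁⟩ : ∃ D₁ : Divisor k (FF k N), D₁ = 4 • zeroDiv k (jF' k N) +
      3 • zeroDiv k (jF' k N - algebraMap k _ 1728) := ⟨_, rfl⟩
  have hD₁v : ∀ v, D₁ v = 4 * max (v.ord (jF' k N)) 0 +
      3 * max (v.ord (jF' k N - algebraMap k _ 1728)) 0 := by
    intro v
    rw [hD₁, Finsupp.add_apply, Finsupp.smul_apply, Finsupp.smul_apply, zeroDiv_apply,
      zeroDiv_apply, nsmul_eq_mul, nsmul_eq_mul]
    push_cast
    rfl
  have hfin : ∀ v : Place k (FF k N), 0 ≤ v.ord (jF' k N) →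
      0 ≤ v.ord (jF' k N - algebraMap k _ 1728) := fun v hv =>
    ((Ge.of_le hv).sub (Ge.algebraMap v _)).le_ord hj1
  have h6 : ∀ v, (6 : ℤ) ∣ D₁ v := by
    intro v
    rw [hD₁v]
    rcases le_or_gt 0 (v.ord (jF' k N)) with hv | hv
    · rw [max_eq_left hv, max_eq_left (hfin v hv)]
      exact six_dvd (A := A) (K := K) ι hk hN h2 h3 hv
    · rw [max_eq_right hv.le, (ord_sub_eq_of_neg hv 1728).2, max_eq_right hv.le]
      norm_num
  obtain ⟨D₀, hD₀⟩ : ∃ D₀ : Divisor k (FF k N), ∀ v, 6 * D₀ v = D₁ v := by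
    refine ⟨D₁.mapRange (fun n => n / 6) (by simp), fun v => ?_⟩
    rw [Finsupp.mapRange_apply]
    have := h6 v
    omega
  have hdeg0 : 6 * Divisor.degree D₀ = 7 * dedekindPsi N := by
    have e1 : (6 : ℕ) • D₀ = D₁ := by
      ext v
      rw [Finsupp.smul_apply, nsmul_eq_mul]
      exact_mod_cast hD₀ v
    have e2 := congrArg Divisor.degree e1
    have h4 := degree_zeroDiv_sub (k := k) hN 0
    rw [map_zero, sub_zero] at h4
    rw [map_nsmul, hD₁, map_add, map_nsmul, map_nsmul, h4, degree_zeroDiv_sub hN,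
      nsmul_eq_mul, nsmul_eq_mul, nsmul_eq_mul] at e2
    push_cast at e2
    linarith
  -- the cusps
  have hSfin : {v : Place k (FF k N) | v.ord (jF' k N) < 0}.Finite :=
    (finite_ord (K := k) hj0).subset fun v hv => (ne_of_lt hv)
  obtain ⟨S, hS⟩ : ∃ S : Finset (Place k (FF k N)), S = hSfin.toFinset := ⟨_, rfl⟩
  have hSm : ∀ v, v ∈ S ↔ v.ord (jF' k N) < 0 := fun v => by
    rw [hS, Set.Finite.mem_toFinset]; rfl
  obtain ⟨C, hC⟩ : ∃ C : Divisor k (FF k N), C = ∑ v ∈ S, Finsupp.single v 1 := ⟨_, rfl⟩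
  have hCv : ∀ v, C v = if v ∈ S then 1 else 0 := by
    intro v
    rw [hC, Finsupp.finsetSum_apply]
    simp only [Finsupp.single_apply]
    rw [Finset.sum_ite_eq']
  have hCdeg : Divisor.degree C = cuspCount N := by
    rw [hC, map_sum]
    simp only [degree_single']
    rw [Finset.sum_const, nsmul_eq_mul, mul_one, ← card_cusps hN,
      Set.ncard_eq_toFinset_card _ hSfin, hS]
  refine ⟨D₀ - poleDiv k (jF' k N) - C, ?_, fun x hx => ?_⟩
  · have hg := rrGenus_K (K := K) (N := N) ι
    rw [← rrGenus_eq_level (A := A) ι hk hN, genusFormula, h2, h3] at hg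
    have h5 : ((6 * Divisor.degree D₀ : ℤ) : ℚ) = ((7 * dedekindPsi N : ℤ) : ℚ) := by
      exact_mod_cast congrArg (Int.cast : ℤ → ℚ) hdeg0
    rw [map_sub, map_sub, hCdeg, (poleZero_jF hN).dP]
    have h7 : ((Divisor.degree D₀ - dedekindPsi N - cuspCount N : ℤ) : ℚ) =
        ((2 * (rrGenus k (FF k N) : ℤ) - 2 : ℤ) : ℚ) := by
      push_cast at h5 ⊢
      rw [hg]
      push_cast
      linarith
    exact_mod_cast h7
  · rw [mem_L]
    intro v
    by_cases hx0 : x = 0
    · exact Or.inl hx0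
    right
    rw [Finsupp.sub_apply, Finsupp.sub_apply, hCv, poleDiv_apply]
    rcases le_or_gt 0 (v.ord (jF' k N)) with hv | hv
    · have h4 := (hx v).1 hv
      obtain ⟨e1, e2⟩ := ord_zz (v := v) hx0 hj0 hj1
      have h5 := h4.le_ord e1
      rw [e2] at h5
      have h6 := hD₀ v
      rw [hD₁v, max_eq_left hv, max_eq_left (hfin v hv)] at h6
      rw [if_neg (by rw [hSm]; omega), max_eq_right (by omega)]
      omega
    · have h4 := ((hx v).2 hv).le_ord hx0
      have h6 := hD₀ v
      rw [hD₁v, max_eq_right hv.le, (ord_sub_eq_of_neg hv 1728).2, max_eq_right hv.le] at h6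
      rw [if_pos ((hSm v).2 hv), max_eq_left (by omega)]
      omega

/-- a locally exact differential is regular -/
theorem regZ_of_local [CharZero K] [Algebra ℚ K] (ι : K →+* ℂ)
    (hk : Function.Surjective (algebraMap A k)) (hN : (N : k) ≠ 0)
    (h2 : nuTwo N = 0) (h3 : nuThree N = 0)
    [FunField k (FF k N)] {x : FF k N}
    (hx : ∀ v : Place k (FF k N), ∃ u b : FF k N, Ge v 0 u ∧ b ≠ 0 ∧ v.ord b = 0 ∧
      (x : LaurentSeries k) * theta (jqModC k) * b = theta (u : LaurentSeries k)) :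
    RegZ (K := k) (jF' k N) x := by
  intro v
  obtain ⟨u, b, hu, hb0, hb, h⟩ := hx v
  have hD := D_of_theta hN (u := u) (g := x * b) (by
    rw [← h]
    change _ = ((x : LaurentSeries k) * (b : LaurentSeries k)) * _
    ring)
  by_cases hx0 : x = 0
  · subst hx0
    refine ⟨fun _ => ?_, fun _ => Ge.zero v _⟩
    rw [zz, zero_pow (by norm_num), zero_mul, zero_mul]
    exact Ge.zero v _
  have hj0 : jF' k N ≠ 0 := by simpa using jF_sub_ne (k := k) (N := N) 0
  have hj1 := jF_sub_ne (k := k) (N := N) 1728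
  refine ⟨fun hv => ?_, fun hv => ?_⟩
  · obtain ⟨π, g, hπ, hg, hz, hz0⟩ := exists_unit_zz (A := A) (K := K) ι hk hN h2 h3 hv
    have hg0 : g ≠ 0 := by
      rintro rfl
      apply hz
      rw [zz, zero_pow (by norm_num), zero_mul, zero_mul]
    have hDπ := D_of_theta hN hg
    -- `du = (x b / g) dπ`
    have hD' : KaehlerDifferential.D k (FF k N) u =
        (x * b * g⁻¹) • KaehlerDifferential.D k (FF k N) π := by
      rw [hD, hDπ, smul_smul, mul_assoc, mul_assoc, inv_mul_cancel₀ hg0, mul_one]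
    have h4 := ge_of_D (n := 1) hD' hu (by simp) (Or.inl hπ)
    rw [sub_self] at h4
    have h5 := h4.le_ord (mul_ne_zero (mul_ne_zero hx0 hb0) (inv_ne_zero hg0))
    rw [v.ord_mul (mul_ne_zero hx0 hb0) (inv_ne_zero hg0), v.ord_mul hx0 hb0, hb, v.ord_inv] at h5
    apply Ge.of_le
    rw [(ord_zz hx0 hj0 hj1).2]
    have h6 := (ord_zz (v := v) hg0 hj0 hj1).2
    rw [hz0] at h6
    linarith
  · have h4 := ge_of_D hD hu (tame_cusp hN v hv) (Or.inl rfl)
    have h5 := h4.le_ord (mul_ne_zero hx0 hb0)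
    rw [v.ord_mul hx0 hb0, hb, add_zero] at h5
    exact Ge.of_le h5

/-- The reduction of a weight two cusp form is a regular differential. -/
theorem exists_xbarZ [CharZero K] [Algebra ℚ K] (ι : K →+* ℂ)
    (hk : Function.Surjective (algebraMap A k)) (hN : (N : k) ≠ 0)
    [FunField k (FF k N)] (f : intLattice N 2) :
    ∃ x : FF k N, RegZ (K := k) (jF' k N) x ∧
      (x : LaurentSeries k) * theta (jqModC k) = barq k f := by
  have hNK := natCast_K (A := A) (K := K) hN
  haveI := funField_FF (k := K) (M := N) hNK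
  have H := fibreHyp (K := K) (N := N) hk hN
  have hf : IsCF (CongruenceSubgroup.Gamma0 N) 2 (f : CuspForm (CongruenceSubgroup.Gamma0 N) 2) :=
    IsCF.of_class _
  obtain ⟨x, hx, n, hn, hz⟩ := exists_x N ι hf (by
    intro m
    refine ⟨(cz N m f : ℚ), ?_⟩
    have := cz_spec N m f
    push_cast
    exact this.symm)
  have h1 : incL A K (th (jqModC A)) * (x : LaurentSeries K) = incL A K (barq A f) := by
    apply coeffMap_injective' ι
    rw [map_mul, coeffMap_th, coeffMap_jqModC]
    have e1 : coeffMap ι (theta (jqModC K)) = theta (jqModC ℂ) := by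
      have : theta (jqModC K) = th (jqModC K) := by
        ext m; rw [theta_coeff, th_coeff]
      rw [this, coeffMap_th, coeffMap_jqModC]
    rw [e1, coeffMap_barq, coeffMap_barq, mul_comm, hx, qL_eq_barq]
  have hv : redL A k (th (jqModC A)) ≠ 0 := by
    rw [coeffMap_th, coeffMap_jqModC]
    exact theta_jq_ne
  have hxW : x ∈ Wφ A k (FF K N).val := ⟨_, _, hv, h1⟩
  refine ⟨redFF K hk hN ⟨x, hxW⟩, ?_, ?_⟩
  · have ht := RR.transcendental_jF (k := k) N
    have hzn : zz K (jF' K N) x ^ n ∈ Wφ A k (FF K N).val := pow_mem (zz_mem_W hxW) n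
    have hL := H.π_mem_LL (x := zz K (jF' K N) x ^ n) hzn hz
    have e1 : (gaussFF K hk hN).π ⟨zz K (jF' K N) x ^ n, hzn⟩ =
        zz k (jF' k N) (redFF K hk hN ⟨x, hxW⟩) ^ n := by
      rw [← red_zz hk hN hxW, ← map_pow]
      rfl
    rw [e1, mem_LL] at hL
    intro v
    have hLv := hL v
    simp only [Nat.cast_zero, zero_mul, add_zero, Finsupp.coe_zero, Pi.zero_apply,
      poleDiv_apply] at hLv
    refine ⟨fun hv => ?_, fun hv => ?_⟩
    · rw [max_eq_right (by omega), mul_zero, neg_zero] at hLv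
      rcases hLv with h | h
      · exact Or.inl (eq_zero_of_pow_eq_zero h)
      · rw [ord_pow] at h
        right
        by_contra hlt
        push Not at hlt
        have : (0 : ℤ) < n := by omega
        nlinarith
    · rw [max_eq_left (by omega)] at hLv
      refine ge_of_zz_pole (n := n) ht hv (by omega) ?_
      rw [Int.toNat_natCast]
      rw [Nat.cast_sub hn] at hLv
      exact hLv
  · rw [coe_redFF, πφ_eq (FF K N).val hxW hv h1, coeffMap_barq]
    have : redL A k (th (jqModC A)) = theta (jqModC k) := by rw [coeffMap_th, coeffMap_jqModC]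
    rw [this, div_mul_cancel₀ _ theta_jq_ne]

/-- **Regular differentials are reductions of cusp forms** (no elliptic points). -/
theorem mem_span_barqZ [CharZero K] [Algebra ℚ K] (ι : K →+* ℂ) {p : ℕ} [Fact p.Prime]
    [CharP k p] (hk : Function.Surjective (algebraMap A k)) (hN : (N : k) ≠ 0)
    (h2 : nuTwo N = 0) (h3 : nuThree N = 0)
    [FunField k (FF k N)] {r : ℕ} (B : Module.Basis (Fin r) ℤ (intLattice N 2)) {x : FF k N}
    (hx : RegZ (K := k) (jF' k N) x) :
    ∃ c : Fin r → k, (x : LaurentSeries k) * theta (jqModC k) =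
      ∑ i, HahnSeries.C (c i) * barq k (B i) := by
  have hNK := natCast_K (A := A) (K := K) hN
  haveI := funField_FF (k := K) (M := N) hNK
  choose y hy1 hy2 using fun i => exists_xbarZ (A := A) ι hk hN (B i)
  have hsum : ∀ c : Fin r → k, ((∑ i, c i • y i : FF k N) : LaurentSeries k) *
      theta (jqModC k) = ∑ i, HahnSeries.C (c i) * barq k (B i) := by
    intro c
    have h1 : (((∑ i, c i • y i : FF k N)) : LaurentSeries k) =
        ∑ i, HahnSeries.C (c i) * (y i : LaurentSeries k) := by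
      change (FF k N).val (∑ i, c i • y i) = _
      rw [map_sum]
      refine Finset.sum_congr rfl fun i _ => ?_
      rw [Algebra.smul_def, map_mul, AlgHom.commutes, algebraMap_eq_C]
      rfl
    rw [h1, Finset.sum_mul]
    refine Finset.sum_congr rfl fun i _ => ?_
    rw [mul_assoc, hy2]
  have hli : LinearIndependent k y := by
    rw [Fintype.linearIndependent_iff]
    intro c hc
    apply indep_barq (p := p) B
    rw [← hsum, hc]
    exact zero_mul _
  obtain ⟨D, hDdeg, hD⟩ := exists_canonical (A := A) (K := K) ι hk hN h2 h3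
  have hV : Submodule.span k (Set.range y) ≤ riemannRochSpace D := by
    rw [Submodule.span_le]
    rintro _ ⟨i, rfl⟩
    exact hD _ (hy1 i)
  have hd : rrGenus k (FF k N) ≤ Module.finrank k (Submodule.span k (Set.range y)) := by
    rw [finrank_span_eq_card hli, Fintype.card_fin, rrGenus_eq_level (A := A) ι hk hN]
    have h3 := rrGenus_K (K := K) (N := N) ι
    have h4 := Fermat.Agent.S20.result N
    rw [← h3] at h4
    have h5 : Module.finrank ℂ (CuspForm (CongruenceSubgroup.Gamma0 N) 2) =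
      rrGenus K (FF K N) := by exact_mod_cast h4
    rw [← h5]
    exact finrank_le_card B
  have hfd : FiniteDimensional k (Submodule.span k (Set.range y)) :=
    FiniteDimensional.span_of_finite k (Set.finite_range y)
  have hmem : x ∈ Submodule.span k (Set.range y) := by
    rw [mem_of_le hV hDdeg.le hd]
    exact hD _ hx
  obtain ⟨c, hc⟩ := (Submodule.mem_span_range_iff_exists_fun k).1 hmem
  refine ⟨c, ?_⟩
  rw [← hc, hsum]

include A K in
/-- **Theorem C**, every characteristic. -/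
theorem mainZ [CharZero K] [Algebra ℚ K] (ι : K →+* ℂ) (hk : Function.Surjective (algebraMap A k))
    {p : ℕ} [Fact p.Prime] [CharP k p] (hN : (N : k) ≠ 0) (h2 : nuTwo N = 0) (h3 : nuThree N = 0)
    {h : LaurentSeries k} (h0 : h ≠ 0) (hmem : h / theta (jqModC k) ∈ FF k N)
    (hloc : ∀ v : Place k (FF k N), ∃ u b : FF k N, Ge v 0 u ∧ b ≠ 0 ∧ v.ord b = 0 ∧
      h * (b : LaurentSeries k) = theta (u : LaurentSeries k))
    (c : ℕ → ℤ) (P : ℕ → Prop)
    (hecke : ∀ ℓ : ℕ, ℓ.Prime → ¬ ℓ ∣ N → P ℓ → ∀ n : ℤ,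
      h.coeff (ℓ * n) + ℓ * (if (ℓ : ℤ) ∣ n then h.coeff (n / ℓ) else 0) = (c ℓ : k) * h.coeff n) :
    ∃ g : CuspForm (CongruenceSubgroup.Gamma0 N) 2, g.IsNormalizedEigenform ∧
      ∃ m : Ideal (integralClosure ℤ ℂ), m.IsMaximal ∧ (p : integralClosure ℤ ℂ) ∈ m ∧
        ∀ ℓ : ℕ, ℓ.Prime → ¬ ℓ ∣ N → P ℓ → ∃ α : integralClosure ℤ ℂ, (α : ℂ) = qCoeff g ℓ ∧
          α - (c ℓ : integralClosure ℤ ℂ) ∈ m := by
  haveI := funField_FF (k := k) (M := N) hN
  have hx : h = ((⟨h / theta (jqModC k), hmem⟩ : FF k N) : LaurentSeries k) * theta (jqModC k) :=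
    (div_mul_cancel₀ _ theta_jq_ne).symm
  have hreg : RegZ (K := k) (jF' k N) (⟨h / theta (jqModC k), hmem⟩ : FF k N) := by
    refine regZ_of_local (A := A) (K := K) ι hk hN h2 h3 fun v => ?_
    obtain ⟨u, b, hu, hb0, hb, hub⟩ := hloc v
    exact ⟨u, b, hu, hb0, hb, by rw [← hx]; exact hub⟩
  obtain ⟨r, ⟨B⟩⟩ := exists_basis N
  obtain ⟨a, ha⟩ := mem_span_barqZ (A := A) (p := p) ι hk hN h2 h3 B hreg
  rw [← hx] at ha
  exact exists_eigenform_aux (p := p) B ha h0 c P hecke

end Main

end Fermat.Agent.ThmC
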