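import Fermat.Agent.ThmC.Tame

/-!
# Regular differentials
-/

set_option autoImplicit false
set_option linter.style.haveILetI false
set_option linter.unusedSectionVars false

noncomputable section

namespace Fermat.Agent.ThmC

open ModularCurve Polynomial IntermediateField Fermat.Agent.ModPoly Fermat.Agent.Red AlgebraicCurve
open Fermat.Agent.RR Fermat.Agent.Cusp Fermat.Agent.RedMod Fermat.Agent.Spec Fermat.Agent.Curve

section General

variable {K F : Type*} [Field K] [IsAlgClosed K] [Field F] [Algebra K F]

/-- `x dt` is a regular differential (when `t` is tame) -/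
def RegD (t x : F) : Prop := ∀ v : Place K F,
  (∀ c : K, 0 < v.ord (t - algebraMap K F c) → Ge v (1 - v.ord (t - algebraMap K F c)) x) ∧
  (v.ord t < 0 → Ge v (1 - v.ord t) x)

variable (K) in
/-- the space of regular differentials -/
def regSpace (t : F) : Submodule K F where
  carrier := {x | RegD (K := K) t x}
  add_mem' := fun hx hy v => ⟨fun c hc => ((hx v).1 c hc).add ((hy v).1 c hc),
    fun hv => ((hx v).2 hv).add ((hy v).2 hv)⟩
  zero_mem' := fun v => ⟨fun _ _ => Ge.zero v _, fun _ => Ge.zero v _⟩
  smul_mem' := fun a x hx v => ⟨fun c hc => ((hx v).1 c hc).smul a, fun hv => ((hx v).2 hv).smul a⟩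

theorem mem_regSpace {t x : F} : x ∈ regSpace K t ↔ RegD (K := K) t x := Iff.rfl

variable [hF : FunField K F]

theorem exists_divisor {t : F} (e : Place K F → ℤ) (he : ∀ v, IsRam t v (e v)) (s : Finset F)
    (hs : ∀ x ∈ s, RegD (K := K) t x) :
    ∃ D : Divisor K F, (∀ v, D v ≤ (e v - 1) - 2 * max (-v.ord t) 0) ∧
      ∀ x ∈ s, x ∈ riemannRochSpace D := by
  classical
  induction s using Finset.induction_on with
  | empty =>
    refine ⟨-(2 • poleDiv K t), fun v => ?_, by simp⟩
    rw [Finsupp.neg_apply, Finsupp.smul_apply, poleDiv_apply, nsmul_eq_mul]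
    have := (he v).1
    push_cast
    omega
  | insert x s hxs ih =>
    obtain ⟨D, hD1, hD2⟩ := ih fun y hy => hs y (Finset.mem_insert_of_mem hy)
    have hx := hs x (Finset.mem_insert_self _ _)
    by_cases hx0 : x = 0
    · refine ⟨D, hD1, fun y hy => ?_⟩
      rcases Finset.mem_insert.1 hy with rfl | hy
      · rw [hx0]; exact zero_mem _
      · exact hD2 y hy
    refine ⟨D ⊔ -divisor K x, fun v => ?_, fun y hy => ?_⟩
    · rw [Finsupp.sup_apply, Finsupp.neg_apply, divisor_apply]
      apply sup_le (hD1 v)
      obtain ⟨h0, h1⟩ := he v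
      obtain ⟨h2, h3⟩ := hx v
      by_cases hneg : v.ord t < 0
      · have h4 := (h3 hneg).le_ord hx0
        have h5 : e v = -v.ord t := by
          rcases h1 with h1 | ⟨a, ha⟩
          · omega
          · have := (ord_sub_eq_of_neg hneg a).2
            omega
        rw [max_eq_left (by omega)]
        omega
      · rcases h1 with h1 | ⟨a, ha⟩
        · omega
        · have h4 := (h2 a (by omega)).le_ord hx0
          rw [max_eq_right (by omega)]
          omega
    · rcases Finset.mem_insert.1 hy with rfl | hy
      · rw [mem_L]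
        intro v
        apply Ge.of_le
        rw [Finsupp.sup_apply, Finsupp.neg_apply, divisor_apply]
        have : -v.ord y ≤ D v ⊔ -v.ord y := le_sup_right
        omega
      · exact L_mono le_sup_left (hD2 y hy)

variable {t : F} (ht : Transcendental K t) [FiniteDimensional K⟮t⟯ F]
    [Algebra.IsSeparable K⟮t⟯ F]

include ht in
theorem rank_regSpace : Module.rank K (regSpace K t) ≤ rrGenus K F := by
  apply rank_le
  intro s hs
  classical
  choose e he using exists_isRam (K := K) ht
  obtain ⟨D, hD1, hD2⟩ := exists_divisor e he (s.image Subtype.val) (by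
    intro x hx
    rw [Finset.mem_image] at hx
    obtain ⟨y, _, rfl⟩ := hx
    exact y.2)
  refine le_trans ?_ (ell_le ht D e he hD1)
  have hli : LinearIndependent K (fun i : s => ((i : regSpace K t) : F)) :=
    hs.map' (Submodule.subtype _) (Submodule.ker_subtype _)
  have hli' : LinearIndependent K (fun i : s => (⟨((i : regSpace K t) : F),
      hD2 _ (Finset.mem_image_of_mem _ i.2)⟩ : riemannRochSpace D)) := by
    apply LinearIndependent.of_comp (riemannRochSpace D).subtype
    exact hli
  have := hli'.fintype_card_le_finrank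
  rwa [Fintype.card_coe] at this

include ht in
theorem finite_regSpace : Module.Finite K (regSpace K t) := by
  rw [← Module.rank_lt_aleph0_iff]
  exact (rank_regSpace ht).trans_lt (Cardinal.natCast_lt_aleph0)

include ht in
theorem finrank_regSpace : Module.finrank K (regSpace K t) ≤ rrGenus K F := by
  haveI := finite_regSpace (K := K) ht
  have := rank_regSpace (K := K) ht
  rw [← Module.finrank_eq_rank] at this
  exact_mod_cast this

include ht in
theorem mem_of_regD {V : Submodule K F} (hV : V ≤ regSpace K t)
    (hd : rrGenus K F ≤ Module.finrank K V) {x : F} (hx : RegD (K := K) t x) : x ∈ V := by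
  haveI := finite_regSpace (K := K) ht
  have h := Submodule.eq_of_le_of_finrank_le hV ((finrank_regSpace ht).trans hd)
  rw [h]
  exact hx

end General

section Main

attribute [local instance] algFF

variable {A K k : Type*} [CommRing A] [IsDomain A] [ValuationRing A]
  [Field K] [IsAlgClosed K] [Algebra A K] [IsFractionRing A K] [Field k] [IsAlgClosed k]
  [Algebra A k] {N : ℕ} [NeZero N]

/-- a locally exact differential is regular -/
theorem regD_of_local [CharZero K] [Algebra ℚ K] (ι : K →+* ℂ)
    (hk : Function.Surjective (algebraMap A k)) (hN : (N : k) ≠ 0) (h6 : (6 : k) ≠ 0)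
    [FunField k (FF k N)] {x : FF k N}
    (hx : ∀ v : Place k (FF k N), ∃ u b : FF k N, Ge v 0 u ∧ b ≠ 0 ∧ v.ord b = 0 ∧
      (x : LaurentSeries k) * theta (jqModC k) * b = theta (u : LaurentSeries k)) :
    RegD (K := k) (jF' k N) x := by
  intro v
  obtain ⟨u, b, hu, hb0, hb, h⟩ := hx v
  have hD := D_of_theta hN (u := u) (g := x * b) (by
    rw [← h]
    change _ = ((x : LaurentSeries k) * (b : LaurentSeries k)) * _
    ring)
  have hfin : ∀ n : ℤ, Ge v n (x * b) → Ge v n x := by
    intro n hn
    by_cases hx0 : x = 0
    · exact Or.inl hx0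
    · have := hn.le_ord (mul_ne_zero hx0 hb0)
      rw [v.ord_mul hx0 hb0, hb, add_zero] at this
      exact Ge.of_le this
  refine ⟨fun c hc => hfin _ ?_, fun hv => hfin _ ?_⟩
  · exact ge_of_D hD hu (tame_finite (A := A) (K := K) ι hk hN h6 v hc) (Or.inr ⟨c, rfl⟩)
  · exact ge_of_D hD hu (tame_cusp hN v hv) (Or.inl rfl)

end Main

end Fermat.Agent.ThmC
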