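import Fermat.Agent.ThmC.DExp
import Fermat.Agent.ThmC.Reg

/-!
# Weight two cusp forms as elements of the modular function field
-/

set_option autoImplicit false
set_option linter.style.haveILetI false
set_option linter.unusedSectionVars false

open UpperHalfPlane ModularForm Complex Filter Topology Matrix.SpecialLinearGroup
open ModularCurve Function AlgebraicCurve
open scoped MatrixGroups Manifold

namespace Fermat.Agent.ThmC

noncomputable section

open Fermat.Agent.MFLib Fermat.Agent.ModPoly Fermat.Agent.JFun Fermat.Agent.GenusRR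
open Fermat.Agent.Curve Fermat.Agent.RR Fermat.Agent.Red

local notation "Δ" => ModularForm.discriminant

lemma isRat_of_disc_mul {g : ℍ → ℂ} (hg : QG g) (h : IsRat (qe ((Δ : ℍ → ℂ) * g))) :
    IsRat (qe g) := by
  obtain ⟨lam, hl1, hl2⟩ := exists_retraction
  rw [isRat_iff_mapL lam hl1 hl2] at h ⊢
  rw [qg_disc.qe_mul hg, mapL_mul_of_isRat _ isRat_qe_disc] at h
  exact mul_left_cancel₀ qe_disc_ne_zero h

variable (N : ℕ) [NeZero N]

local notation "Γ₀" => CongruenceSubgroup.Gamma0 N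

lemma exists_pow_disc {f : ℍ → ℂ} (hf : IsCF Γ₀ 2 f) (hr : IsRat (qe f)) :
    ∃ n : ℕ, 6 ≤ n ∧ ∃ G : ℍ → ℂ, IsMF Γ₀ (12 * ((n - 6 : ℕ) : ℤ)) G ∧ IsRat (qe G) ∧
      f ^ (6 * n) = (Δ : ℍ → ℂ) ^ 6 * G := by
  obtain ⟨n₀, hn₀, g₀, hg₀, h₀⟩ := hf.exists_pow_eq
  have hT := MFLib.T_mem_Gamma0 N
  have hfq := hf.toIsMF.qg hT
  have hgq := hg₀.qg hT
  have hgr : IsRat (qe g₀) := by
    apply isRat_of_disc_mul hgq
    rw [← h₀, hfq.qe_pow]
    exact hr.pow n₀
  refine ⟨6 * n₀, by omega, (f ^ (5 * n₀) * g₀) ^ 6, ?_, ?_, ?_⟩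
  · refine (((hf.toIsMF.pow (5 * n₀)).mul hg₀).pow 6).congr_weight ?_
    rw [Nat.cast_sub (by omega)]
    push_cast
    ring
  · rw [((hfq.pow _).mul hgq).qe_pow, (hfq.pow _).qe_mul hgq, hfq.qe_pow]
    exact ((hr.pow _).mul hgr).pow 6
  · have h1 : f ^ (6 * (6 * n₀)) = (f ^ (5 * n₀) * f ^ n₀) ^ 6 := by ring
    rw [h1, h₀]
    ring

lemma field_aux {L : Type*} [Field L] {E e d δ J T F : L} (hE : E ≠ 0) (he : e ≠ 0) (hd : d ≠ 0)
    (hδ : d * δ = 1) (hJ : J * d = E ^ 3) (hT : T * d = -(E ^ 2 * e)) (he2 : e ^ 2 = E ^ 3 - 1728 * d) :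
    -(F * E * e * δ) / (J * (J - 1728)) * T = F ∧
    (-(F * E * e * δ) / (J * (J - 1728))) ^ 6 * J ^ 4 * (J - 1728) ^ 3 = F ^ 6 * δ := by
  have h1 : δ = d⁻¹ := eq_inv_of_mul_eq_one_right hδ
  have h2 : J = E ^ 3 / d := by rw [← hJ, mul_div_cancel_right₀ _ hd]
  have h3 : T = -(E ^ 2 * e) / d := by rw [← hT, mul_div_cancel_right₀ _ hd]
  have h4 : J - 1728 = e ^ 2 / d := by
    rw [h2, he2, eq_div_iff hd, sub_mul, div_mul_cancel₀ _ hd]
  rw [h4, h3, h2, h1]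
  constructor
  · field_simp
  · field_simp

variable {K : Type*} [Field K] [Algebra ℚ K] [IsAlgClosed K] (ι : K →+* ℂ)

/-- The function `f / θ(j)` attached to a weight two cusp form with rational coefficients. -/
theorem exists_x_FK {f : ℍ → ℂ} (hf : IsCF Γ₀ 2 f) (hr : IsRat (qe f)) :
    ∃ x : FK K N, emb N ι x * theta (jqModC ℂ) = qL f ∧
      ∃ n : ℕ, 6 ≤ n ∧ ∀ v : Place K (FK K N),
        v.adicValuation (zz K (jK K N) x ^ n) ≤ (max 1 (v.adicValuation (jK K N))) ^ (n - 6) := by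
  have hT := MFLib.T_mem_Gamma0 N
  have hfq := hf.toIsMF.qg hT
  have h4 : IsMF Γ₀ 4 ⇑E₄ := (IsMF.of_SL E₄).mono le_top
  have h6 : IsMF Γ₀ 6 ⇑E₆ := (IsMF.of_SL E₆).mono le_top
  have hw : IsMF Γ₀ (12 * ((1 : ℕ) : ℤ)) (f * ⇑E₄ * ⇑E₆) :=
    ((hf.toIsMF.mul h4).mul h6).congr_weight (by norm_num)
  have hwr : IsRat (qe (f * ⇑E₄ * ⇑E₆)) := by
    rw [(hfq.mul qg_E4).qe_mul qg_E6, hfq.qe_mul qg_E4]
    exact (hr.mul (isRat_qe_E _ (by decide))).mul (isRat_qe_E _ (by decide))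
  obtain ⟨w, hw1, -⟩ := exists_elt N ι hw hwr
  obtain ⟨n, hn, G, hG, hGr, hfG⟩ := exists_pow_disc N hf hr
  obtain ⟨y, hy1, hy2⟩ := exists_elt N ι hG hGr
  rw [qL_mul (hfq.mul qg_E4) qg_E6, qL_mul hfq qg_E4, qL_E4, pow_one] at hw1
  have hEne : eisC ℂ ≠ 0 := by
    intro h
    have := lc_eisC
    rw [h, HahnSeries.leadingCoeff_zero] at this
    exact zero_ne_one this
  have h6ne : qL (⇑E₆) ≠ 0 := by
    intro h
    have := lc_E6
    rw [h, HahnSeries.leadingCoeff_zero] at this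
    exact zero_ne_one this
  have hj : emb N ι (jK K N) = jqModC ℂ := coeffMap_jK N ι
  have hj' : emb N ι (jK K N - algebraMap K _ 1728) = jqModC ℂ - 1728 := by
    rw [map_sub, hj, map_ofNat, map_ofNat]
  obtain ⟨e1, e2⟩ := field_aux (F := qL f) hEne h6ne deltaC_ne (deltaC_mul_inv ℂ)
    (jqModC_mul_delta ℂ) theta_jq E6_sq
  have hx : emb N ι (-w / (jK K N * (jK K N - algebraMap K _ 1728))) =
      -(qL f * eisC ℂ * qL (⇑E₆) * deltaInvC ℂ) / (jqModC ℂ * (jqModC ℂ - 1728)) := by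
    rw [map_div₀, map_neg, map_mul, hj, hj', hw1]
  refine ⟨-w / (jK K N * (jK K N - algebraMap K _ 1728)), ?_, n, hn, ?_⟩
  · rw [hx, e1]
  · have h1 : zz K (jK K N) (-w / (jK K N * (jK K N - algebraMap K _ 1728))) ^ n = y := by
      apply emb_injective N ι
      rw [map_pow, zz, map_mul, map_mul, map_pow, map_pow, map_pow, hx, hj, hj', e2, hy1, mul_pow,
        ← pow_mul, ← qL_pow hfq, hfG, qL_mul (qg_disc.pow 6) (hG.qg hT), qL_pow qg_disc, qL_disc]
      have h2 : deltaInvC ℂ ^ n = deltaInvC ℂ ^ 6 * deltaInvC ℂ ^ (n - 6) := by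
        rw [← pow_add]; congr 1; omega
      have h3 : deltaC ℂ ^ 6 * deltaInvC ℂ ^ 6 = 1 := by
        rw [← mul_pow, deltaC_mul_inv, one_pow]
      rw [h2]
      calc deltaC ℂ ^ 6 * qL G * (deltaInvC ℂ ^ 6 * deltaInvC ℂ ^ (n - 6)) =
          (deltaC ℂ ^ 6 * deltaInvC ℂ ^ 6) * (qL G * deltaInvC ℂ ^ (n - 6)) := by ring
        _ = _ := by rw [h3, one_mul]
    rw [h1]
    exact hy2

theorem mem_LL_of_adic {F : Type*} [Field F] [Algebra K F] [FunField K F] {t y : F} {a : ℕ}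
    (h : ∀ v : Place K F, v.adicValuation y ≤ (max 1 (v.adicValuation t)) ^ a) :
    y ∈ LL (poleDiv K t) (zeroDiv K t) 0 a 0 := by
  intro v
  refine (h v).trans ?_
  have hD : (a • poleDiv K t + 0 • zeroDiv K t + 0 : Divisor K F) v = a * max (-v.ord t) 0 := by
    rw [zero_smul, add_zero, add_zero, Finsupp.smul_apply, poleDiv_apply, nsmul_eq_mul]
  rw [hD]
  rcases eq_or_ne t 0 with h0 | h0
  · rw [h0]
    simp
  · rw [v.adicValuation_eq_exp_neg_ord h0]
    rcases le_total 0 (-v.ord t) with h | h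
    · rw [max_eq_left (a := -v.ord t) h, max_eq_right (by
        rw [← WithZero.exp_zero, WithZero.exp_le_exp]; exact h), ← WithZero.exp_nsmul, nsmul_eq_mul]
    · rw [max_eq_right (a := -v.ord t) h, mul_zero, max_eq_left (by
        rw [← WithZero.exp_zero, WithZero.exp_le_exp]; exact h)]
      simp

theorem x_transport {E E' : IntermediateField K (LaurentSeries K)} (h : E = E') (j : E) (j' : E')
    (hj : (j : LaurentSeries K) = j') {P : LaurentSeries K → Prop} {n : ℕ}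
    (H : ∃ x : E, P x ∧ ∀ v : Place K E,
        v.adicValuation (zz K j x ^ n) ≤ (max 1 (v.adicValuation j)) ^ (n - 6)) :
    ∃ x : E', P x ∧ ∀ v : Place K E',
        v.adicValuation (zz K j' x ^ n) ≤ (max 1 (v.adicValuation j')) ^ (n - 6) := by
  subst h
  have : j = j' := Subtype.ext hj
  subst this
  exact H

variable [CharZero K]

/-- The function `f / θ(j)` attached to a weight two cusp form with rational coefficients. -/
theorem exists_x {f : ℍ → ℂ} (hf : IsCF Γ₀ 2 f) (hr : IsRat (qe f)) [FunField K (FF K N)] :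
    ∃ x : FF K N, coeffMap ι (x : LaurentSeries K) * theta (jqModC ℂ) = qL f ∧
      ∃ n : ℕ, 6 ≤ n ∧ zz K (jF' K N) x ^ n ∈
        LL (poleDiv K (jF' K N)) (zeroDiv K (jF' K N)) 0 (n - 6) 0 := by
  obtain ⟨x, hx, n, hn, hb⟩ := exists_x_FK N ι hf hr
  obtain ⟨x', hx', hb'⟩ := x_transport (X0Genus.baseChange_eq K N) (jK K N) (jF' K N) (by
    rw [show (jK K N : FK K N) = X0Genus.jj K N from rfl, X0Genus.coe_jj]
    exact Jc_one_one.symm) (P := fun y => coeffMap ι y * theta (jqModC ℂ) = qL f) (n := n)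
    ⟨x, hx, hb⟩
  exact ⟨x', hx', n, hn, mem_LL_of_adic hb'⟩

end

end Fermat.Agent.ThmC
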