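import Fermat.Agent.RR.Riemann
import Fermat.Agent.FFG.GenPos

/-!
# `ℓ(D) ≤ g` for divisors of degree `2g - 2`
-/

set_option autoImplicit false
set_option linter.style.haveILetI false
set_option linter.unusedSectionVars false

namespace Fermat.Agent.ThmC

open AlgebraicCurve Fermat.Agent.Curve Fermat.Agent.RR Fermat.Agent.FFG Fermat.Agent.Red Fermat.Agent.Spec

variable {K F : Type*} [Field K] [IsAlgClosed K] [Field F] [Algebra K F] [hF : FunField K F]

variable (K F) in
/-- a nonspecial divisor of degree `g - 1` -/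
theorem exists_nonspecial : ∃ B : Divisor K F,
    Divisor.degree B = (rrGenus K F : ℤ) - 1 ∧ ell B = 0 := by
  classical
  obtain ⟨c, hc⟩ := exists_riemann (K := K) (F := F)
  obtain ⟨v0⟩ := exists_place K F
  obtain ⟨D, hD⟩ : ∃ D : Divisor K F, D = Finsupp.single v0 (max c (rrGenus K F)) := ⟨_, rfl⟩
  have hdeg : Divisor.degree D = max c (rrGenus K F) := by rw [hD, degree_single']
  have h1 := hc D (by rw [hdeg]; exact le_max_left _ _)
  have hg : (rrGenus K F : ℤ) ≤ Divisor.degree D := by rw [hdeg]; exact le_max_right _ _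
  obtain ⟨q, -, hq⟩ := exists_general_points (V := Unit) (fun _ => D) ∅ (ell D)
  have h2 := hq ()
  rw [Nat.sub_self] at h2
  refine ⟨D - ∑ i, Finsupp.single (q i) 1, ?_, Nat.le_zero.1 h2⟩
  rw [map_sub, map_sum]
  have h3 : ∀ i, Divisor.degree (Finsupp.single (q i) 1 : Divisor K F) = 1 := fun i =>
    degree_single' _ _
  simp only [h3, Finset.sum_const, Finset.card_univ, Fintype.card_fin, nsmul_eq_mul, mul_one]
  rw [h1]
  ring

theorem ell_le_genus {D : Divisor K F} (hD : Divisor.degree D ≤ 2 * (rrGenus K F : ℤ) - 2) :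
    ell D ≤ rrGenus K F := by
  classical
  by_contra hcon
  push Not at hcon
  obtain ⟨B, hB, hB0⟩ := exists_nonspecial K F
  obtain ⟨v0⟩ := exists_place K F
  -- reduce to equality of degrees
  obtain ⟨D', hDD', hD'⟩ : ∃ D' : Divisor K F, D ≤ D' ∧
      Divisor.degree D' = 2 * (rrGenus K F : ℤ) - 2 := by
    refine ⟨D + Finsupp.single v0 (2 * (rrGenus K F : ℤ) - 2 - Divisor.degree D), ?_, ?_⟩
    · intro w
      rw [Finsupp.add_apply, Finsupp.single_apply]
      split_ifs <;> omega
    · rw [map_add, degree_single']; ring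
  have hell : (rrGenus K F : ℤ) + 1 ≤ ell D' := by
    have := ell_mono hDD'
    omega
  obtain ⟨C, hC⟩ : ∃ C, C = D' - B + Finsupp.single v0 1 := ⟨_, rfl⟩
  have hCdeg : Divisor.degree C = rrGenus K F := by
    rw [hC, map_add, map_sub, hD', hB, degree_single']; ring
  have h1 := riemann C
  rw [hCdeg] at h1
  obtain ⟨z, hz0, hz⟩ := exists_ne_zero_of_ell_pos (D := C) (by omega)
  have hE : 0 ≤ C + divisor K z := by
    intro w
    rw [Finsupp.add_apply, divisor_apply]
    have := (mem_L.1 hz w).le_ord hz0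
    simp only [Finsupp.coe_zero, Pi.zero_apply]
    omega
  have h2 := ell_le_of_le (D := D' - (C + divisor K z)) (E := D') (sub_le_self _ hE)
  rw [map_sub, map_add, degree_divisor, hCdeg] at h2
  have h3 : 0 < ell (D' - (C + divisor K z)) := by
    have : (0 : ℤ) < ell (D' - (C + divisor K z)) := by linarith
    exact_mod_cast this
  have h4 : D' - (C + divisor K z) = (B - Finsupp.single v0 1) - divisor K z := by
    rw [hC]; abel
  rw [h4, ell_sub_divisor hz0] at h3
  have h5 := ell_mono (sub_le_self B (single_le_of_nonneg v0))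
  omega

end Fermat.Agent.ThmC
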