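import Fermat.Agent.ThmC.Image
import Fermat.Agent.Eigen.Character

/-!
# Hecke eigensystems on mod `p` regular differentials lift to characteristic zero
-/

set_option autoImplicit false
set_option linter.style.haveILetI false
set_option linter.unusedSectionVars false

open UpperHalfPlane ModularForm Complex Filter Topology Matrix.SpecialLinearGroup
open ModularCurve Function AlgebraicCurve
open scoped MatrixGroups Manifold

namespace Fermat.Agent.ThmC

noncomputable section

open Fermat.Agent.MFLib Fermat.Agent.ModPoly Fermat.Agent.JFun Fermat.Agent.GenusRR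
open Fermat.Agent.Curve Fermat.Agent.RR Fermat.Agent.Red Fermat.Agent.RedMod Fermat.Agent.Spec
open CuspForm ModularFormClass

section Alg

variable {N : ℕ} [NeZero N] {r : ℕ} (B : Module.Basis (Fin r) ℤ (intLattice N 2))

theorem barq_repr (R : Type*) [CommRing R] (f : intLattice N 2) :
    ∑ j, HahnSeries.C ((B.repr f j : ℤ) : R) * barq R (B j) = barq R f := by
  have hco : ∀ n : ℤ, (∑ j, (HahnSeries.C ((B.repr f j : ℤ) : R) * barq R (B j) :
      LaurentSeries R)).coeff n = ∑ j, ((B.repr f j : ℤ) : R) * (barq R (B j)).coeff n := by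
    intro n
    have h2 : (∑ j, (HahnSeries.C ((B.repr f j : ℤ) : R) * barq R (B j) :
        LaurentSeries R)).coeff n = ∑ j, (HahnSeries.C ((B.repr f j : ℤ) : R) * barq R (B j) :
        LaurentSeries R).coeff n :=
      map_sum (HahnSeries.coeff.addMonoidHom n : LaurentSeries R →+ R) _ _
    rw [h2]
    refine Finset.sum_congr rfl fun j _ => ?_
    rw [HahnSeries.C_mul_eq_smul, HahnSeries.coeff_smul, smul_eq_mul]
  apply barq_ext
  · intro n hn
    rw [hco]
    refine Finset.sum_eq_zero fun j _ => ?_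
    rw [barq_coeff_neg R _ hn, mul_zero]
  · intro n
    rw [hco]
    have h1 : cz N n f = ∑ j, B.repr f j * cz N n (B j) := by
      conv_lhs => rw [← B.sum_repr f]
      rw [map_sum]
      simp
    rw [h1]
    push_cast
    refine Finset.sum_congr rfl fun j _ => ?_
    rw [barq_coeff]

/-- the Hecke algebra acting on the reduction of the lattice -/
def rho (k : Type*) [Field k] : heckeLatticeAlgebra N ∅ →+* Matrix (Fin r) (Fin r) k :=
  ((Int.castRingHom k).mapMatrix).comp ((LinearMap.toMatrixAlgEquiv B).toRingEquiv.toRingHom.comp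
    (heckeLatticeAlgebra N ∅).val.toRingHom)

theorem rho_apply (k : Type*) [Field k] (t : heckeLatticeAlgebra N ∅) (i j : Fin r) :
    rho B k t i j = ((B.repr (t.1 (B j)) i : ℤ) : k) := by
  change (((LinearMap.toMatrixAlgEquiv B) t.1) i j : k) = _
  rw [LinearMap.toMatrixAlgEquiv_apply]

theorem sum_rho {k : Type*} [Field k] (t : heckeLatticeAlgebra N ∅) (c : Fin r → k) :
    ∑ j, HahnSeries.C ((rho B k t).mulVec c j) * barq k (B j) =
      ∑ i, HahnSeries.C (c i) * barq k (t.1 (B i)) := by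
  have h1 : ∀ i, HahnSeries.C (c i) * barq k (t.1 (B i)) =
      ∑ j, HahnSeries.C (c i) * (HahnSeries.C ((B.repr (t.1 (B i)) j : ℤ) : k) * barq k (B j)) := by
    intro i
    rw [← Finset.mul_sum, barq_repr B k]
  rw [Finset.sum_congr rfl fun i _ => h1 i, Finset.sum_comm]
  refine Finset.sum_congr rfl fun j _ => ?_
  rw [Matrix.mulVec, dotProduct, map_sum, Finset.sum_mul]
  refine Finset.sum_congr rfl fun i _ => ?_
  rw [rho_apply, map_mul]
  ring

/-- the operator `T_ℓ` on the lattice -/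
def TL {ℓ : ℕ} (hℓ : ℓ.Prime) (hℓN : ¬ ℓ ∣ N) : heckeLatticeAlgebra N ∅ :=
  latticeRestrictHom N ∅ (heckeAlgebra.T hℓ hℓN (Set.notMem_empty ℓ))

theorem cz_TL {ℓ : ℕ} (hℓ : ℓ.Prime) (hℓN : ¬ ℓ ∣ N) (f : intLattice N 2) (n : ℕ) :
    cz N n ((TL hℓ hℓN).1 f) = cz N (n * ℓ) f + if ℓ ∣ n then (ℓ : ℤ) * cz N (n / ℓ) f else 0 := by
  apply Int.cast_injective (α := ℂ)
  rw [cz_spec]
  have h1 : ((TL hℓ hℓN).1 f).1 = CuspForm.heckeTLin 2 hℓ hℓN f.1 :=
    Eigen.coe_latticeRestrictHom_apply _ f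
  rw [h1, Eigen.qCoeff_heckeTLin]
  push_cast
  rw [cz_spec]
  split_ifs with h
  · push_cast
    rw [cz_spec]
  · simp

end Alg

section Main

variable {N : ℕ} [NeZero N] {p : ℕ} [Fact p.Prime] {k : Type*} [Field k] [CharP k p]

theorem exists_eigenform_aux {r : ℕ} (B : Module.Basis (Fin r) ℤ (intLattice N 2)) {c : Fin r → k}
    {h : LaurentSeries k} (hh : h = ∑ i, HahnSeries.C (c i) * barq k (B i)) (hh0 : h ≠ 0)
    (a : ℕ → ℤ) (P : ℕ → Prop)
    (hecke : ∀ ℓ : ℕ, ℓ.Prime → ¬ ℓ ∣ N → P ℓ → ∀ n : ℤ,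
      h.coeff (ℓ * n) + ℓ * (if (ℓ : ℤ) ∣ n then h.coeff (n / ℓ) else 0) = (a ℓ : k) * h.coeff n) :
    ∃ g : CuspForm (CongruenceSubgroup.Gamma0 N) 2, g.IsNormalizedEigenform ∧
      ∃ m : Ideal (integralClosure ℤ ℂ), m.IsMaximal ∧ (p : integralClosure ℤ ℂ) ∈ m ∧
        ∀ ℓ : ℕ, ℓ.Prime → ¬ ℓ ∣ N → P ℓ → ∃ α : integralClosure ℤ ℂ, (α : ℂ) = qCoeff g ℓ ∧
          α - (a ℓ : integralClosure ℤ ℂ) ∈ m := by
  have hco : ∀ n : ℤ, h.coeff n = ∑ i, c i * (barq k (B i)).coeff n := by
    intro n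
    have h2 : (∑ i, (HahnSeries.C (c i) * barq k (B i) : LaurentSeries k)).coeff n =
        ∑ i, (HahnSeries.C (c i) * barq k (B i) : LaurentSeries k).coeff n :=
      map_sum (HahnSeries.coeff.addMonoidHom n : LaurentSeries k →+ k) _ _
    rw [hh, h2]
    refine Finset.sum_congr rfl fun i _ => ?_
    rw [HahnSeries.C_mul_eq_smul, HahnSeries.coeff_smul, smul_eq_mul]
  let J : Ideal (heckeLatticeAlgebra N ∅) :=
    { carrier := {t | (rho B k t).mulVec c = 0}
      add_mem' := by
        intro s t hs ht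
        change (rho B k s).mulVec c = 0 at hs
        change (rho B k t).mulVec c = 0 at ht
        change (rho B k (s + t)).mulVec c = 0
        rw [map_add, Matrix.add_mulVec, hs, ht, add_zero]
      zero_mem' := by
        change (rho B k 0).mulVec c = 0
        rw [map_zero, Matrix.zero_mulVec]
      smul_mem' := by
        intro s t ht
        change (rho B k t).mulVec c = 0 at ht
        change (rho B k (s * t)).mulVec c = 0
        rw [map_mul, ← Matrix.mulVec_mulVec, ht, Matrix.mulVec_zero] }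
  have hJ1 : J ≠ ⊤ := by
    rw [Ideal.ne_top_iff_one]
    intro h1
    change (rho B k 1).mulVec c = 0 at h1
    rw [map_one, Matrix.one_mulVec] at h1
    apply hh0
    rw [hh, h1]
    simp
  have hJp : ((p : ℕ) : heckeLatticeAlgebra N ∅) ∈ J := by
    change (rho B k (p : heckeLatticeAlgebra N ∅)).mulVec c = 0
    rw [map_natCast]
    have h1 : ((p : ℕ) : Matrix (Fin r) (Fin r) k) = 0 := by
      ext i j
      rw [Matrix.natCast_apply, Matrix.zero_apply]
      split_ifs
      · exact CharP.cast_eq_zero k p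
      · exact Nat.cast_zero
    rw [h1, Matrix.zero_mulVec]
  have hJT : ∀ (ℓ : ℕ) (hℓ : ℓ.Prime) (hℓN : ¬ ℓ ∣ N), P ℓ →
      TL hℓ hℓN - ((a ℓ : ℤ) : heckeLatticeAlgebra N ∅) ∈ J := by
    intro ℓ hℓ hℓN hP
    have key : ∑ i, HahnSeries.C (c i) * barq k ((TL hℓ hℓN).1 (B i)) =
        HahnSeries.C ((a ℓ : ℤ) : k) * h := by
      ext n
      have h2 : (∑ i, (HahnSeries.C (c i) * barq k ((TL hℓ hℓN).1 (B i)) : LaurentSeries k)).coeff n =
          ∑ i, (HahnSeries.C (c i) * barq k ((TL hℓ hℓN).1 (B i)) : LaurentSeries k).coeff n :=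
        map_sum (HahnSeries.coeff.addMonoidHom n : LaurentSeries k →+ k) _ _
      rw [h2, HahnSeries.C_mul_eq_smul, HahnSeries.coeff_smul, smul_eq_mul]
      rcases lt_or_ge n 0 with hn | hn
      · rw [hco n, Finset.mul_sum]
        refine Finset.sum_congr rfl fun i _ => ?_
        rw [HahnSeries.C_mul_eq_smul, HahnSeries.coeff_smul, smul_eq_mul, barq_coeff_neg k _ hn,
          barq_coeff_neg k _ hn]
        ring
      · obtain ⟨m, rfl⟩ := Int.eq_ofNat_of_zero_le hn
        rw [← hecke ℓ hℓ hℓN hP (m : ℤ)]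
        have e1 : (ℓ : ℤ) * (m : ℤ) = ((m * ℓ : ℕ) : ℤ) := by push_cast; ring
        rw [e1, hco]
        have e2 : (if (ℓ : ℤ) ∣ (m : ℤ) then h.coeff ((m : ℤ) / ℓ) else 0) =
            ∑ i, c i * (if ℓ ∣ m then (cz N (m / ℓ) (B i) : k) else 0) := by
          split_ifs with h3 h4 h4
          · rw [← Int.natCast_div, hco]
            refine Finset.sum_congr rfl fun i _ => ?_
            rw [barq_coeff]
          · exact absurd (Int.natCast_dvd_natCast.1 h3) h4
          · exact absurd (Int.natCast_dvd_natCast.2 h4) h3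
          · simp
        rw [e2, Finset.mul_sum, ← Finset.sum_add_distrib]
        refine Finset.sum_congr rfl fun i _ => ?_
        rw [HahnSeries.C_mul_eq_smul, HahnSeries.coeff_smul, smul_eq_mul, barq_coeff, barq_coeff,
          cz_TL]
        split_ifs
        · push_cast; ring
        · push_cast; ring
    rw [← sum_rho B] at key
    change (rho B k (TL hℓ hℓN - ((a ℓ : ℤ) : heckeLatticeAlgebra N ∅))).mulVec c = 0
    have e3 : (rho B k (TL hℓ hℓN - ((a ℓ : ℤ) : heckeLatticeAlgebra N ∅))).mulVec c =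
        fun j => (rho B k (TL hℓ hℓN)).mulVec c j - (a ℓ : k) * c j := by
      rw [map_sub, Matrix.sub_mulVec, map_intCast]
      funext j
      rw [Pi.sub_apply]
      congr 1
      have : ((a ℓ : ℤ) : Matrix (Fin r) (Fin r) k) = ((a ℓ : ℤ) : k) • 1 := by
        rw [← Matrix.diagonal_one, ← Matrix.diagonal_smul]
        ext i j
        rw [Matrix.intCast_apply, Matrix.diagonal_apply]
        simp
      rw [this, Matrix.smul_mulVec, Matrix.one_mulVec, Pi.smul_apply, smul_eq_mul]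
    rw [e3]
    funext j
    refine indep_barq (p := p) B (c := fun j => (rho B k (TL hℓ hℓN)).mulVec c j - (a ℓ : k) * c j)
      ?_ j
    have e4 : ∀ i, HahnSeries.C ((rho B k (TL hℓ hℓN)).mulVec c i - (a ℓ : k) * c i) * barq k (B i) =
        HahnSeries.C ((rho B k (TL hℓ hℓN)).mulVec c i) * barq k (B i) -
          HahnSeries.C (a ℓ : k) * (HahnSeries.C (c i) * barq k (B i)) := by
      intro i
      rw [map_sub, map_mul]
      ring
    rw [Finset.sum_congr rfl fun i _ => e4 i, Finset.sum_sub_distrib, key, ← Finset.mul_sum, ← hh,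
      sub_self]
  obtain ⟨𝔪, h𝔪, hJ𝔪⟩ := Ideal.exists_le_maximal J hJ1
  haveI := h𝔪
  obtain ⟨χ, g, 𝔐, hg, hχ, h𝔐, hcomap⟩ := Eigen.exists_eigenform_of_maximal 𝔪
  have hg0 : g ≠ 0 := by
    rintro rfl
    have := hg.qCoeff_one
    rw [Eigen.qCoeff_zero] at this
    exact zero_ne_one this
  refine ⟨g, hg, 𝔐, h𝔐, ?_, ?_⟩
  · have h1 : ((p : ℕ) : heckeAlgebra N 2 ∅) ∈ 𝔪.comap (latticeRestrictHom N ∅) := by
      rw [Ideal.mem_comap, map_natCast]
      exact hJ𝔪 hJp
    rw [← hcomap, Ideal.mem_comap, map_natCast] at h1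
    exact h1
  · intro ℓ hℓ hℓN hP
    refine ⟨χ (heckeAlgebra.T hℓ hℓN (Set.notMem_empty ℓ)), ?_, ?_⟩
    · have h1 := hχ (heckeAlgebra.T hℓ hℓN (Set.notMem_empty ℓ))
      have h2 : ((heckeAlgebra.T hℓ hℓN (Set.notMem_empty ℓ) : heckeAlgebra N 2 ∅) :
          Module.End ℂ _) g = qCoeff g ℓ • g := Eigen.heckeTLin_eq_smul hg hℓ hℓN
      rw [h2] at h1
      exact (smul_left_injective ℂ hg0 h1).symm
    · have h1 : heckeAlgebra.T hℓ hℓN (Set.notMem_empty ℓ) - ((a ℓ : ℤ) : heckeAlgebra N 2 ∅) ∈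
          𝔪.comap (latticeRestrictHom N ∅) := by
        rw [Ideal.mem_comap, map_sub, map_intCast]
        exact hJ𝔪 (hJT ℓ hℓ hℓN hP)
      rw [← hcomap, Ideal.mem_comap, map_sub, map_intCast] at h1
      exact h1

end Main

end

end Fermat.Agent.ThmC
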