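import Fermat.Agent.ThmC.CuspX
import Fermat.Agent.S20
import Fermat.Agent.Eigen.Lifting

/-!
# Reduction of weight two cusp forms and regular differentials
-/

set_option autoImplicit false
set_option linter.style.haveILetI false
set_option linter.unusedSectionVars false

open UpperHalfPlane ModularForm Complex Filter Topology Matrix.SpecialLinearGroup
open ModularCurve Function AlgebraicCurve
open scoped MatrixGroups Manifold

namespace Fermat.Agent.ThmC

noncomputable section

open Fermat.Agent.MFLib Fermat.Agent.ModPoly Fermat.Agent.JFun Fermat.Agent.GenusRR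
open Fermat.Agent.Curve Fermat.Agent.RR Fermat.Agent.Red Fermat.Agent.RedMod Fermat.Agent.Spec
open CuspForm ModularFormClass

section Lattice

variable (N : ℕ) [NeZero N]

/-- the integral coefficients -/
def cz (n : ℕ) : intLattice N 2 →ₗ[ℤ] ℤ where
  toFun f := ((Eigen.mem_intLattice_iff f.1).1 f.2 n).choose
  map_add' f g := by
    apply Int.cast_injective (α := ℂ)
    push_cast
    have h1 := ((Eigen.mem_intLattice_iff f.1).1 f.2 n).choose_spec
    have h2 := ((Eigen.mem_intLattice_iff g.1).1 g.2 n).choose_spec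
    have h3 := ((Eigen.mem_intLattice_iff (f + g).1).1
      (f + g).2 n).choose_spec
    rw [← h1, ← h2, ← h3]
    exact Eigen.qCoeff_add _ _ n
  map_smul' c f := by
    apply Int.cast_injective (α := ℂ)
    have h1 := ((Eigen.mem_intLattice_iff f.1).1 f.2 n).choose_spec
    have h3 := ((Eigen.mem_intLattice_iff (c • f).1).1
      (c • f).2 n).choose_spec
    rw [← h3]
    rw [eq_intCast, Int.cast_id, smul_eq_mul, Int.cast_mul, ← h1, ← Eigen.qCoeff_smul]
    have h5 : (c • f).1 = (c : ℂ) • f.1 := by
      rw [Int.cast_smul_eq_zsmul]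
      rfl
    rw [h5]

theorem cz_spec (n : ℕ) (f : intLattice N 2) : ((cz N n f : ℤ) : ℂ) = qCoeff f.1 n :=
  ((Eigen.mem_intLattice_iff f.1).1 f.2 n).choose_spec.symm

variable {N}

/-- the integral `q`-expansion -/
def zser (f : intLattice N 2) : LaurentSeries ℤ :=
  HahnSeries.ofPowerSeries ℤ ℤ (PowerSeries.mk fun n => cz N n f)

variable (R : Type*) [CommRing R]

/-- the `q`-expansion over a ring -/
def barq (f : intLattice N 2) : LaurentSeries R := coeffMap (Int.castRingHom R) (zser f)

theorem barq_coeff (f : intLattice N 2) (n : ℕ) : (barq R f).coeff (n : ℤ) = (cz N n f : R) := by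
  rw [barq, coeffMap_coeff, zser, HahnSeries.ofPowerSeries_apply_coeff, PowerSeries.coeff_mk]
  rfl

theorem barq_coeff_neg (f : intLattice N 2) {n : ℤ} (hn : n < 0) : (barq R f).coeff n = 0 := by
  rw [barq, coeffMap_coeff, zser, ofPowerSeries_coeff_of_neg _ hn, map_zero]

theorem barq_ext {x : LaurentSeries R} (f : intLattice N 2) (h0 : ∀ n < 0, x.coeff n = 0)
    (h : ∀ n : ℕ, x.coeff (n : ℤ) = (cz N n f : R)) : x = barq R f := by
  ext n
  rcases lt_or_ge n 0 with hn | hn
  · rw [h0 n hn, barq_coeff_neg R f hn]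
  · obtain ⟨m, rfl⟩ := Int.eq_ofNat_of_zero_le hn
    rw [h, barq_coeff]

theorem qL_eq_barq (f : intLattice N 2) : qL f.1 = barq ℂ f := by
  apply barq_ext
  · intro n hn
    exact ofPowerSeries_coeff_of_neg _ hn
  · intro n
    rw [cz_spec, qL, HahnSeries.ofPowerSeries_apply_coeff]
    rfl

variable {R}

theorem coeffMap_barq {S : Type*} [CommRing S] (φ : R →+* S) (f : intLattice N 2) :
    coeffMap φ (barq R f) = barq S f := by
  apply barq_ext
  · intro n hn
    rw [coeffMap_coeff, barq_coeff_neg R f hn, map_zero]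
  · intro n
    rw [coeffMap_coeff, barq_coeff, map_intCast]

end Lattice

section Indep

variable {N : ℕ} [NeZero N]

theorem exists_div {p : ℕ} (hp : p ≠ 0) (F : intLattice N 2) (h : ∀ n, (p : ℤ) ∣ cz N n F) :
    ∃ G : intLattice N 2, (p : ℤ) • G = F := by
  have hp' : (p : ℂ) ≠ 0 := by exact_mod_cast hp
  refine ⟨⟨(p : ℂ)⁻¹ • F.1, ?_⟩, ?_⟩
  · rw [Eigen.mem_intLattice_iff]
    intro n
    obtain ⟨m, hm⟩ := h n
    refine ⟨m, ?_⟩
    rw [Eigen.qCoeff_smul, ← cz_spec, hm]
    push_cast
    field_simp
  · apply Subtype.ext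
    change (p : ℤ) • ((p : ℂ)⁻¹ • F.1) = F.1
    rw [← Int.cast_smul_eq_zsmul ℂ, smul_smul]
    push_cast
    rw [mul_inv_cancel₀ hp', one_smul]

theorem span_vectors {p : ℕ} [Fact p.Prime] {r : ℕ} (B : Module.Basis (Fin r) ℤ (intLattice N 2)) :
    Submodule.span (ZMod p) (Set.range fun n : ℕ => fun i : Fin r => (cz N n (B i) : ZMod p)) = ⊤ := by
  by_contra hne
  obtain ⟨φ, hφ0, hφ⟩ := Submodule.exists_le_ker_of_lt_top _ (lt_top_iff_ne_top.2 hne)
  obtain ⟨a, ha⟩ : ∃ a : Fin r → ZMod p, ∀ i, a i = φ (Pi.single i 1) := ⟨_, fun i => rfl⟩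
  have hφa : ∀ v : Fin r → ZMod p, φ v = ∑ i, v i * a i := by
    intro v
    rw [LinearMap.pi_apply_eq_sum_univ φ v]
    refine Finset.sum_congr rfl fun i _ => ?_
    rw [ha, smul_eq_mul]
    congr 2
    ext j
    simp [Pi.single_apply, eq_comm]
  let F : intLattice N 2 := ∑ i, ((a i).val : ℤ) • B i
  have hF : ∀ n, (p : ℤ) ∣ cz N n F := by
    intro n
    rw [← ZMod.intCast_zmod_eq_zero_iff_dvd (cz N n F) p]
    have h1 : cz N n F = ∑ i, ((a i).val : ℤ) * cz N n (B i) := by
      simp only [F, map_sum, map_smul, smul_eq_mul]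
    have h2 : φ (fun i : Fin r => (cz N n (B i) : ZMod p)) = 0 :=
      hφ (Submodule.subset_span ⟨n, rfl⟩)
    rw [hφa] at h2
    rw [h1, ← h2]
    push_cast
    refine Finset.sum_congr rfl fun i _ => ?_
    rw [ZMod.natCast_zmod_val, mul_comm]
  obtain ⟨G, hG⟩ := exists_div (Fact.out : p.Prime).ne_zero F hF
  have ha0 : ∀ i, a i = 0 := by
    intro i
    have h1 : B.repr F i = ((a i).val : ℤ) := by
      simp only [F, map_sum, map_smul, Module.Basis.repr_self]
      rw [Finsupp.finsetSum_apply]
      simp [Finsupp.single_apply]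
    rw [← hG, map_smul, Finsupp.smul_apply, smul_eq_mul] at h1
    have h2 := congrArg (Int.cast : ℤ → ZMod p) h1
    push_cast at h2
    rw [CharP.cast_eq_zero, zero_mul, ZMod.natCast_zmod_val] at h2
    exact h2.symm
  apply hφ0
  apply LinearMap.ext
  intro v
  rw [hφa]
  simp [ha0]

theorem indep_barq {p : ℕ} [Fact p.Prime] {k : Type*} [Field k] [CharP k p] {r : ℕ}
    (B : Module.Basis (Fin r) ℤ (intLattice N 2)) {c : Fin r → k}
    (hc : ∑ i, HahnSeries.C (c i) * barq k (B i) = 0) (i : Fin r) : c i = 0 := by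
  letI : Algebra (ZMod p) k := ZMod.algebra k p
  have hn : ∀ n : ℕ, ∑ i, c i * (cz N n (B i) : k) = 0 := by
    intro n
    have h1 := congrArg (fun x : LaurentSeries k => x.coeff (n : ℤ)) hc
    simp only [HahnSeries.coeff_zero] at h1
    have h2 : (∑ i, (HahnSeries.C (c i) * barq k (B i) : LaurentSeries k)).coeff (n : ℤ) =
        ∑ i, (HahnSeries.C (c i) * barq k (B i) : LaurentSeries k).coeff (n : ℤ) :=
      map_sum (HahnSeries.coeff.addMonoidHom (n : ℤ) : LaurentSeries k →+ k) _ _
    rw [← h1, h2]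
    refine Finset.sum_congr rfl fun i _ => ?_
    rw [HahnSeries.C_mul_eq_smul, HahnSeries.coeff_smul, barq_coeff, smul_eq_mul]
  let L : (Fin r → ZMod p) →ₗ[ZMod p] k :=
    { toFun := fun a => ∑ i, a i • c i
      map_add' := fun a b => by simp [add_smul, Finset.sum_add_distrib]
      map_smul' := fun a b => by simp [Finset.smul_sum, mul_smul] }
  have hL : (⊤ : Submodule (ZMod p) (Fin r → ZMod p)) ≤ LinearMap.ker L := by
    rw [← span_vectors B, Submodule.span_le]
    rintro _ ⟨n, rfl⟩
    change ∑ i, (cz N n (B i) : ZMod p) • c i = 0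
    rw [← hn n]
    refine Finset.sum_congr rfl fun i _ => ?_
    rw [Algebra.smul_def, map_intCast, mul_comm]
  have h1 : L (Pi.single i 1) = 0 := hL Submodule.mem_top
  have h2 : L (Pi.single i 1) = c i := by
    change ∑ j, (Pi.single i 1 : Fin r → ZMod p) j • c j = c i
    rw [Finset.sum_eq_single i]
    · simp
    · intro j _ hj
      simp [hj]
    · intro h; exact absurd (Finset.mem_univ _) h
  rw [← h2, h1]

theorem finrank_le_card {r : ℕ} (B : Module.Basis (Fin r) ℤ (intLattice N 2)) :
    Module.finrank ℂ (CuspForm (CongruenceSubgroup.Gamma0 N) 2) ≤ r := by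
  have h1 : Submodule.span ℂ (Set.range fun i => (B i).1) = ⊤ := by
    rw [eq_top_iff, ← hasIntegralStructure N 2, Submodule.span_le]
    intro f hf
    have h2 := B.sum_repr ⟨f, hf⟩
    have h3 := congrArg (Submodule.subtype _) h2
    rw [map_sum] at h3
    change _ = f at h3
    change f ∈ Submodule.span ℂ (Set.range fun i => (B i).1)
    rw [← h3]
    refine sum_mem fun i _ => ?_
    rw [map_smul, ← Int.cast_smul_eq_zsmul ℂ]
    exact Submodule.smul_mem _ _ (Submodule.subset_span ⟨i, rfl⟩)
  have h4 := finrank_range_le_card (R := ℂ) (fun i => (B i).1)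
  rw [Set.finrank, h1, finrank_top, Fintype.card_fin] at h4
  exact h4

end Indep

section Main

attribute [local instance] algFF

variable {A K k : Type*} [CommRing A] [IsDomain A] [ValuationRing A]
  [Field K] [IsAlgClosed K] [Algebra A K] [IsFractionRing A K] [Field k] [IsAlgClosed k]
  [Algebra A k] {N : ℕ} [NeZero N]

/-- The reduction of a weight two cusp form is a regular differential. -/
theorem exists_xbar [CharZero K] [Algebra ℚ K] (ι : K →+* ℂ)
    (hk : Function.Surjective (algebraMap A k)) (hN : (N : k) ≠ 0) (h6 : (6 : k) ≠ 0)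
    [FunField k (FF k N)] (f : intLattice N 2) :
    ∃ x : FF k N, RegD (K := k) (jF' k N) x ∧
      (x : LaurentSeries k) * theta (jqModC k) = barq k f := by
  have hNK := natCast_K (A := A) (K := K) hN
  haveI := funField_FF (k := K) (M := N) hNK
  have H := fibreHyp (K := K) (N := N) hk hN
  have hf : IsCF (CongruenceSubgroup.Gamma0 N) 2 (f : CuspForm (CongruenceSubgroup.Gamma0 N) 2) :=
    IsCF.of_class _
  obtain ⟨x, hx, n, hn, hz⟩ := exists_x N ι hf (by
    intro m
    refine ⟨(cz N m f : ℚ), ?_⟩
    have := cz_spec N m f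
    push_cast
    exact this.symm)
  have h1 : incL A K (th (jqModC A)) * (x : LaurentSeries K) = incL A K (barq A f) := by
    apply coeffMap_injective' ι
    rw [map_mul, coeffMap_th, coeffMap_jqModC]
    have e1 : coeffMap ι (theta (jqModC K)) = theta (jqModC ℂ) := by
      have : theta (jqModC K) = th (jqModC K) := by
        ext m; rw [theta_coeff, th_coeff]
      rw [this, coeffMap_th, coeffMap_jqModC]
    rw [e1, coeffMap_barq, coeffMap_barq, mul_comm, hx, qL_eq_barq]
  have hv : redL A k (th (jqModC A)) ≠ 0 := by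
    rw [coeffMap_th, coeffMap_jqModC]
    exact theta_jq_ne
  have hxW : x ∈ Wφ A k (FF K N).val := ⟨_, _, hv, h1⟩
  refine ⟨redFF K hk hN ⟨x, hxW⟩, ?_, ?_⟩
  · have ht := RR.transcendental_jF (k := k) N
    have hzn : zz K (jF' K N) x ^ n ∈ Wφ A k (FF K N).val := pow_mem (zz_mem_W hxW) n
    have hL := H.π_mem_LL (x := zz K (jF' K N) x ^ n) hzn hz
    have e1 : (gaussFF K hk hN).π ⟨zz K (jF' K N) x ^ n, hzn⟩ =
        zz k (jF' k N) (redFF K hk hN ⟨x, hxW⟩) ^ n := by
      rw [← red_zz hk hN hxW, ← map_pow]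
      rfl
    rw [e1, mem_LL] at hL
    intro v
    have hLv := hL v
    simp only [Nat.cast_zero, zero_mul, add_zero, Finsupp.coe_zero, Pi.zero_apply,
      poleDiv_apply] at hLv
    refine ⟨fun c hc => ?_, fun hv => ?_⟩
    · have hv : 0 ≤ v.ord (jF' k N) := by
        by_contra hneg
        push Not at hneg
        have := (ord_sub_eq_of_neg hneg c).2
        omega
      rw [max_eq_right (by omega), mul_zero, neg_zero] at hLv
      have hz0 : Ge v 0 (zz k (jF' k N) (redFF K hk hN ⟨x, hxW⟩)) := by
        rcases hLv with h | h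
        · exact Or.inl (eq_zero_of_pow_eq_zero h)
        · rw [ord_pow] at h
          right
          by_contra hlt
          push Not at hlt
          have : (0 : ℤ) < n := by omega
          nlinarith
      exact ge_of_zz ht hc rfl (k1728 h6) hz0
    · rw [max_eq_left (by omega)] at hLv
      refine ge_of_zz_pole (n := n) ht hv (by omega) ?_
      rw [Int.toNat_natCast]
      rw [Nat.cast_sub hn] at hLv
      exact hLv
  · rw [coe_redFF, πφ_eq (FF K N).val hxW hv h1, coeffMap_barq]
    have : redL A k (th (jqModC A)) = theta (jqModC k) := by rw [coeffMap_th, coeffMap_jqModC]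
    rw [this, div_mul_cancel₀ _ theta_jq_ne]

variable (N) in
/-- the module of integral forms is free -/
theorem exists_basis : ∃ r : ℕ, Nonempty (Module.Basis (Fin r) ℤ (intLattice N 2)) := by
  haveI : Module.Finite ℤ (intLattice N 2) := intLattice.moduleFinite N
  haveI : IsAddTorsionFree (intLattice N 2) := by
    refine ⟨fun n hn f g hfg => ?_⟩
    apply Subtype.ext
    have h : n • f.1 = n • g.1 := congrArg Subtype.val hfg
    have hn' : (n : ℂ) ≠ 0 := by exact_mod_cast hn
    rw [← Nat.cast_smul_eq_nsmul ℂ, ← Nat.cast_smul_eq_nsmul ℂ] at h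
    exact smul_right_injective _ hn' h
  haveI : Module.Free ℤ (intLattice N 2) := Module.free_of_finite_type_torsion_free'
  exact ⟨_, ⟨Module.finBasis ℤ (intLattice N 2)⟩⟩

/-- **Regular differentials are reductions of cusp forms.** -/
theorem mem_span_barq [CharZero K] [Algebra ℚ K] (ι : K →+* ℂ) {p : ℕ} [Fact p.Prime] [CharP k p]
    (hk : Function.Surjective (algebraMap A k)) (hN : (N : k) ≠ 0) (h6 : (6 : k) ≠ 0)
    [FunField k (FF k N)] {r : ℕ} (B : Module.Basis (Fin r) ℤ (intLattice N 2)) {x : FF k N}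
    (hx : RegD (K := k) (jF' k N) x) :
    ∃ c : Fin r → k, (x : LaurentSeries k) * theta (jqModC k) =
      ∑ i, HahnSeries.C (c i) * barq k (B i) := by
  have hNK := natCast_K (A := A) (K := K) hN
  haveI := funField_FF (k := K) (M := N) hNK
  haveI := finiteDimensional_E (k := k) (N := N) hN
  haveI := isSeparable_E (k := k) (N := N) hN
  choose y hy1 hy2 using fun i => exists_xbar (A := A) ι hk hN h6 (B i)
  have hsum : ∀ c : Fin r → k, ((∑ i, c i • y i : FF k N) : LaurentSeries k) *
      theta (jqModC k) = ∑ i, HahnSeries.C (c i) * barq k (B i) := by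
    intro c
    have h1 : (((∑ i, c i • y i : FF k N)) : LaurentSeries k) =
        ∑ i, HahnSeries.C (c i) * (y i : LaurentSeries k) := by
      change (FF k N).val (∑ i, c i • y i) = _
      rw [map_sum]
      refine Finset.sum_congr rfl fun i _ => ?_
      rw [Algebra.smul_def, map_mul, AlgHom.commutes, algebraMap_eq_C]
      rfl
    rw [h1, Finset.sum_mul]
    refine Finset.sum_congr rfl fun i _ => ?_
    rw [mul_assoc, hy2]
  have hli : LinearIndependent k y := by
    rw [Fintype.linearIndependent_iff]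
    intro c hc
    apply indep_barq (p := p) B
    rw [← hsum, hc]
    exact zero_mul _
  have hV : Submodule.span k (Set.range y) ≤ regSpace k (jF' k N) := by
    rw [Submodule.span_le]
    rintro _ ⟨i, rfl⟩
    exact hy1 i
  have hd : rrGenus k (FF k N) ≤ Module.finrank k (Submodule.span k (Set.range y)) := by
    rw [finrank_span_eq_card hli, Fintype.card_fin, rrGenus_eq_level (A := A) ι hk hN]
    have h3 := rrGenus_K (K := K) (N := N) ι
    have h4 := Fermat.Agent.S20.result N
    rw [← h3] at h4
    have h5 : Module.finrank ℂ (CuspForm (CongruenceSubgroup.Gamma0 N) 2) =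
      rrGenus K (FF K N) := by exact_mod_cast h4
    rw [← h5]
    exact finrank_le_card B
  have hmem := mem_of_regD (K := k) (t := jF' k N) (RR.transcendental_jF N) hV hd hx
  obtain ⟨c, hc⟩ := (Submodule.mem_span_range_iff_exists_fun k).1 hmem
  refine ⟨c, ?_⟩
  rw [← hc, hsum]

end Main

end

end Fermat.Agent.ThmC
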