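import Fermat.Agent.ThmC.Theta
import Fermat.Agent.X0Genus.Analytic

/-!
# Tameness of the modular function field over the `j`-line
-/

set_option autoImplicit false
set_option linter.style.haveILetI false
set_option linter.unusedSectionVars false

noncomputable section

namespace Fermat.Agent.ThmC

open ModularCurve Polynomial IntermediateField Fermat.Agent.ModPoly Fermat.Agent.Red AlgebraicCurve
open Fermat.Agent.RR Fermat.Agent.Cusp Fermat.Agent.RedMod Fermat.Agent.Spec Fermat.Agent.Curve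

section CharZero

open Fermat.Agent.X0Genus Fermat.Agent.JFun

variable {K : Type*} [Field K] [IsAlgClosed K] [CharZero K] [Algebra ℚ K] (N : ℕ) [NeZero N]
  (ι : K →+* ℂ)

theorem ram_dvd_FK (c : K) (v : Place K (laurentBaseChange K (modularFunctionFieldFull N)))
    (hc : 0 < v.ord (jj K N - algebraMap K _ c)) :
    v.ord (jj K N - algebraMap K _ c) ∣ ramJ (ι c) := by
  obtain ⟨τ₀, hτ⟩ := jfun_surjective (ι c)
  obtain ⟨x, e, he0, he, hx⟩ := exists_point_of_place_aux N ι v c hc τ₀ hτ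
  have hne : jj K N - algebraMap K _ c ≠ 0 := by
    intro h
    rw [h, v.ord_zero] at hc
    exact lt_irrefl _ hc
  have h1 : (((thetaM τ₀).comp (phiX N ι x)) (jj K N - algebraMap K _ c)).order =
      ramJ (ι c) := by
    have h1 : ((thetaM τ₀).comp (phiX N ι x)) (jj K N - algebraMap K _ c) =
        thetaL τ₀ (jH - constH (ι c)) := by
      rw [RingHom.comp_apply, phiX, map_sub, phiM_const, phiM_jj, ← map_sub, thetaM_algebraMap]
    rw [h1]
    apply order_thetaL
    have h2 := ordAt_jfun_sub τ₀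
    rw [hτ] at h2
    exact h2
  have h2 := hx _ hne
  rw [RingHom.comp_apply] at h1
  rw [h1] at h2
  exact ⟨e, by rw [h2, mul_comm]⟩

theorem ram_transport {E E' : IntermediateField K (LaurentSeries K)} (h : E = E') (x : E) (x' : E')
    (hx : (x : LaurentSeries K) = x') (R : K → ℤ)
    (H : ∀ (v : Place K E) (c : K), 0 < v.ord (x - algebraMap K E c) →
      v.ord (x - algebraMap K E c) ∣ R c) (v : Place K E') (c : K)
    (hc : 0 < v.ord (x' - algebraMap K E' c)) : v.ord (x' - algebraMap K E' c) ∣ R c := by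
  subst h
  have : x = x' := Subtype.ext hx
  subst this
  exact H v c hc

theorem ram_dvd (v : Place K (FF K N)) (c : K) (hc : 0 < v.ord (jF' K N - algebraMap K _ c)) :
    v.ord (jF' K N - algebraMap K _ c) ∣ ramJ (ι c) :=
  ram_transport (baseChange_eq K N) (jj K N) (jF' K N) (by rw [coe_jj]; exact Jc_one_one.symm)
    (fun c => ramJ (ι c)) (fun v c hc => ram_dvd_FK N ι c v hc) v c hc

end CharZero

section General

variable {K F : Type*} [Field K] [IsAlgClosed K] [Field F] [Algebra K F] [FunField K F]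

/-- functions regular outside the poles of `t` lie in some `L(aP)` -/
theorem exists_pole_bound (t : F) {y : F} (hy : ∀ v : Place K F, 0 ≤ v.ord t → 0 ≤ v.ord y) :
    ∃ a : ℕ, y ∈ LL (poleDiv K t) (zeroDiv K t) 0 a 0 := by
  classical
  let a : ℕ := (Divisor.degree (poleDiv K y)).toNat
  have ha : Divisor.degree (poleDiv K y) ≤ a := Int.self_le_toNat _
  refine ⟨a, ?_⟩
  rw [mem_LL]
  intro v
  right
  simp only [Nat.cast_zero, zero_mul, add_zero, Finsupp.coe_zero, Pi.zero_apply]
  rcases le_or_gt 0 (v.ord t) with hv | hv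
  · rw [poleDiv_apply, max_eq_right (by omega), mul_zero, neg_zero]
    exact hy v hv
  · have h1 : 1 ≤ poleDiv K t v := by
      rw [poleDiv_apply]
      have := le_max_left (-v.ord t) 0
      omega
    have h2 : poleDiv K y v ≤ Divisor.degree (poleDiv K y) := by
      have h3 : Finsupp.single v (poleDiv K y v) ≤ poleDiv K y := by
        intro w
        rw [Finsupp.single_apply]
        split_ifs with h
        · rw [h]
        · exact poleDiv_nonneg y w
      have := degree_mono h3
      rwa [degree_single'] at this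
    have h3 : -v.ord y ≤ poleDiv K y v := by rw [poleDiv_apply]; exact le_max_left _ _
    have h4 : (0 : ℤ) ≤ a := Int.natCast_nonneg a
    nlinarith

/-- a function with a simple zero at a given place, regular outside the poles of `t`, of large
pole order -/
theorem exists_simple_zero {t : F} (ht : Transcendental K t) (v : Place K F) (hv : 0 ≤ v.ord t)
    (n0 : ℕ) : ∃ a : ℕ, n0 ≤ a ∧ ∃ f ∈ LL (poleDiv K t) (zeroDiv K t) 0 a 0, v.ord f = 1 := by
  obtain ⟨c, hc⟩ := exists_riemann (K := K) (F := F)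
  have hdeg : 0 < Divisor.degree (poleDiv K t) := by
    obtain ⟨w, hw⟩ := exists_pole ht
    have h3 : Finsupp.single w 1 ≤ poleDiv K t := by
      classical
      intro u
      rw [Finsupp.single_apply]
      split_ifs with h
      · rw [← h, poleDiv_apply]
        have := le_max_left (-w.ord t) 0
        omega
      · exact poleDiv_nonneg t u
    have := degree_mono h3
    rw [degree_single'] at this
    omega
  let a : ℕ := max n0 (c + 2).toNat
  have ha : c + 2 ≤ a := by
    have h1 := Int.self_le_toNat (c + 2)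
    have h2 : ((c + 2).toNat : ℤ) ≤ a := by exact_mod_cast le_max_right _ _
    omega
  have hda : ∀ m : ℤ, Divisor.degree (a • poleDiv K t - Finsupp.single v m) =
      a * Divisor.degree (poleDiv K t) - m := by
    intro m
    rw [map_sub, map_nsmul, nsmul_eq_mul, degree_single']
  have hge : (a : ℤ) ≤ a * Divisor.degree (poleDiv K t) := by nlinarith [Int.natCast_nonneg a]
  have e1 := hc (a • poleDiv K t - Finsupp.single v 1) (by rw [hda]; omega)
  have e2 := hc (a • poleDiv K t - Finsupp.single v 2) (by rw [hda]; omega)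
  rw [hda] at e1 e2
  have h1 : ¬ riemannRochSpace (a • poleDiv K t - Finsupp.single v 1) ≤
      riemannRochSpace (a • poleDiv K t - Finsupp.single v 2) := by
    intro hle
    have h2 : ell (a • poleDiv K t - Finsupp.single v 1) ≤
        ell (a • poleDiv K t - Finsupp.single v 2) := Submodule.finrank_mono hle
    omega
  obtain ⟨f, hf1, hf2⟩ := Set.not_subset.1 h1
  have hf1' : f ∈ riemannRochSpace (a • poleDiv K t - Finsupp.single v 1) := hf1
  have hf2' : f ∉ riemannRochSpace (a • poleDiv K t - Finsupp.single v 2) := hf2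
  rw [mem_L] at hf1' hf2'
  have hP : ∀ w, (a • poleDiv K t) w = a * poleDiv K t w := by
    intro w
    rw [Finsupp.smul_apply, nsmul_eq_mul]
  have hval : ∀ (m : ℤ) (w : Place K F), w ≠ v → (a • poleDiv K t - Finsupp.single v m) w =
      a * poleDiv K t w := by
    intro m w hw
    rw [Finsupp.sub_apply, hP, Finsupp.single_eq_of_ne hw, sub_zero]
  have hvalv : ∀ (m : ℤ), (a • poleDiv K t - Finsupp.single v m) v = - m := by
    intro m
    rw [Finsupp.sub_apply, hP, Finsupp.single_eq_same, poleDiv_apply, max_eq_right (by omega),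
      mul_zero, zero_sub]
  have hf0 : f ≠ 0 := by
    rintro rfl
    exact hf2' fun w => Ge.zero w _
  refine ⟨a, le_max_left _ _, f, ?_, ?_⟩
  · rw [mem_LL]
    intro w
    simp only [Nat.cast_zero, zero_mul, add_zero, Finsupp.coe_zero, Pi.zero_apply]
    by_cases hw : w = v
    · right
      rw [hw, poleDiv_apply, max_eq_right (by omega), mul_zero, neg_zero]
      have h3 := (hf1' v).le_ord hf0
      rw [hvalv] at h3
      omega
    · have h3 := hf1' w
      rw [hval 1 w hw] at h3
      exact h3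
  · have h3 := (hf1' v).le_ord hf0
    rw [hvalv] at h3
    by_contra hne
    apply hf2'
    intro w
    by_cases hw : w = v
    · subst hw
      rw [hvalv]
      exact Ge.of_le (by omega)
    · rw [hval 2 w hw, ← hval 1 w hw]
      exact hf1' w

/-- the auxiliary function attached to a differential -/
def zz (K : Type*) {F : Type*} [Field K] [Field F] [Algebra K F] (t x : F) : F :=
  x ^ 6 * t ^ 4 * (t - algebraMap K F 1728) ^ 3

theorem ord_sub_const {v : Place K F} {t : F} {c : K} {e : ℤ} (he : 0 < e)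
    (h : v.ord (t - algebraMap K F c) = e) (b : K) :
    (b = c → v.ord (t - algebraMap K F b) = e) ∧ (b ≠ c → t - algebraMap K F b ≠ 0 ∧
      v.ord (t - algebraMap K F b) = 0) := by
  refine ⟨fun hb => by rw [hb, h], fun hb => ?_⟩
  have h0 : algebraMap K F (c - b) ≠ 0 := by
    rw [ne_eq, map_eq_zero]; exact sub_ne_zero.2 (Ne.symm hb)
  have e1 : t - algebraMap K F b = algebraMap K F (c - b) + (t - algebraMap K F c) := by
    rw [map_sub]; ring
  have h1 : Ge v (v.ord (algebraMap K F (c - b)) + 1)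
      (algebraMap K F (c - b) - (t - algebraMap K F b)) := by
    rw [e1, sub_add_cancel_left]
    apply Ge.neg
    refine Ge.of_le ?_
    rw [ord_algebraMap, h]
    omega
  have h2 := h1.ord_eq h0
  rw [ord_algebraMap] at h2
  exact h2

theorem ge_zz {v : Place K F} {t x : F} {c : K} {e : ℤ} (he : 0 < e)
    (h : v.ord (t - algebraMap K F c) = e) (h1728 : (1728 : K) ≠ 0) (hx : Ge v (1 - e) x)
    (h3 : c = 0 → e ≤ 3) (h2 : c = 1728 → e ≤ 2) (h1 : c ≠ 0 → c ≠ 1728 → e ≤ 1) :
    Ge v 0 (zz K t x) := by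
  have e0 := ord_sub_const he h 0
  have e1 := ord_sub_const he h 1728
  rw [map_zero, sub_zero] at e0
  have key : ∀ a b : ℤ, v.ord t = a → v.ord (t - algebraMap K F 1728) = b →
      0 ≤ 6 * (1 - e) + 4 * a + 3 * b → Ge v 0 (zz K t x) := by
    intro a b ha hb hab
    have g1 := hx.pow 6
    have g2 := (Ge.of_le (v := v) (f := t) ha.ge).pow 4
    have g3 := (Ge.of_le (v := v) (f := t - algebraMap K F 1728) hb.ge).pow 3
    exact ((g1.mul g2).mul g3).mono (by push_cast; linarith)
  by_cases hc0 : c = 0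
  · have hc1 : (1728 : K) ≠ c := by rw [hc0]; exact h1728
    exact key e 0 (e0.1 hc0.symm) (e1.2 hc1).2 (by have := h3 hc0; omega)
  · by_cases hc1 : c = 1728
    · exact key 0 e (e0.2 (Ne.symm hc0)).2 (e1.1 hc1.symm) (by have := h2 hc1; omega)
    · exact key 0 0 (e0.2 (Ne.symm hc0)).2 (e1.2 (Ne.symm hc1)).2 (by
        have := h1 hc0 hc1; omega)

theorem ord_zz {v : Place K F} {t x : F} (hx : x ≠ 0) (ht : t ≠ 0)
    (ht' : t - algebraMap K F 1728 ≠ 0) :
    zz K t x ≠ 0 ∧ v.ord (zz K t x) = 6 * v.ord x + 4 * v.ord t + 3 * v.ord (t - algebraMap K F 1728) := by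
  have h1 := pow_ne_zero 6 hx
  have h2 := pow_ne_zero 4 ht
  have h3 := pow_ne_zero 3 ht'
  refine ⟨mul_ne_zero (mul_ne_zero h1 h2) h3, ?_⟩
  rw [zz, v.ord_mul (mul_ne_zero h1 h2) h3, v.ord_mul h1 h2, ord_pow, ord_pow, ord_pow]
  push_cast
  ring

theorem ge_of_zz {v : Place K F} {t x : F} (ht : Transcendental K t) {c : K} {e : ℤ} (he : 0 < e)
    (h : v.ord (t - algebraMap K F c) = e) (h1728 : (1728 : K) ≠ 0) (hx : Ge v 0 (zz K t x)) :
    Ge v (1 - e) x := by
  by_cases hx0 : x = 0
  · exact Or.inl hx0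
  have hne : ∀ b : K, t - algebraMap K F b ≠ 0 := by
    intro b hb
    apply ht
    rw [sub_eq_zero.1 hb]
    exact isAlgebraic_algebraMap b
  have ht0 : t ≠ 0 := by simpa using hne 0
  obtain ⟨h1, h2⟩ := ord_zz (v := v) hx0 ht0 (hne 1728)
  have h3 := hx.le_ord h1
  rw [h2] at h3
  have e0 := ord_sub_const he h 0
  have e1 := ord_sub_const he h 1728
  rw [map_zero, sub_zero] at e0
  apply Ge.of_le
  by_cases hc0 : c = 0
  · have hc1 : (1728 : K) ≠ c := by rw [hc0]; exact h1728
    rw [e0.1 hc0.symm, (e1.2 hc1).2] at h3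
    omega
  · by_cases hc1 : c = 1728
    · rw [(e0.2 (Ne.symm hc0)).2, e1.1 hc1.symm] at h3
      omega
    · rw [(e0.2 (Ne.symm hc0)).2, (e1.2 (Ne.symm hc1)).2] at h3
      omega

/-- the estimate at the poles -/
theorem ge_of_zz_pole {v : Place K F} {t x : F} (ht : Transcendental K t) (hv : v.ord t < 0)
    {n : ℤ} (hn : 0 < n) (hx : Ge v (-((n - 6) * -v.ord t)) (zz K t x ^ n.toNat)) :
    Ge v (1 - v.ord t) x := by
  by_cases hx0 : x = 0
  · exact Or.inl hx0
  have hne : ∀ b : K, t - algebraMap K F b ≠ 0 := by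
    intro b hb
    apply ht
    rw [sub_eq_zero.1 hb]
    exact isAlgebraic_algebraMap b
  have ht0 : t ≠ 0 := by simpa using hne 0
  obtain ⟨h1, h2⟩ := ord_zz (v := v) hx0 ht0 (hne 1728)
  have h3 := hx.le_ord (pow_ne_zero _ h1)
  rw [ord_pow, h2, (ord_sub_eq_of_neg hv 1728).2, Int.toNat_of_nonneg hn.le] at h3
  apply Ge.of_le
  by_contra hlt
  push Not at hlt
  have h4 : v.ord x + v.ord t ≤ 0 := by omega
  have h5 : 6 * (n * (v.ord x + v.ord t)) ≤ 0 := by
    have := mul_nonneg hn.le (neg_nonneg.2 h4)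
    nlinarith
  nlinarith

end General

section Main

attribute [local instance] algFF

variable {A K k : Type*} [CommRing A] [IsDomain A] [ValuationRing A]
  [Field K] [IsAlgClosed K] [Algebra A K] [IsFractionRing A K] [Field k] [IsAlgClosed k]
  [Algebra A k] {N : ℕ} [NeZero N]

theorem k1728 (h6 : (6 : k) ≠ 0) : (1728 : k) ≠ 0 := by
  have h2 : (2 : k) ≠ 0 := by
    intro h; apply h6
    have : (6 : k) = 2 * 3 := by norm_num
    rw [this, h, zero_mul]
  have h3 : (3 : k) ≠ 0 := by
    intro h; apply h6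
    have : (6 : k) = 2 * 3 := by norm_num
    rw [this, h, mul_zero]
  have : (1728 : k) = 2 ^ 6 * 3 ^ 3 := by norm_num
  rw [this]
  exact mul_ne_zero (pow_ne_zero _ h2) (pow_ne_zero _ h3)

/-- characteristic zero: derivative of functions regular outside the cusps -/
theorem zz_dj_mem [CharZero K] [Algebra ℚ K] (ι : K →+* ℂ) [FunField K (FF K N)] {u g : FF K N}
    (hu : ∀ v : Place K (FF K N), 0 ≤ v.ord (jF' K N) → 0 ≤ v.ord u)
    (hg : KaehlerDifferential.D K (FF K N) u = g • KaehlerDifferential.D K (FF K N) (jF' K N)) :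
    ∃ a : ℕ, zz K (jF' K N) g ∈ LL (poleDiv K (jF' K N)) (zeroDiv K (jF' K N)) 0 a 0 := by
  have ht := RR.transcendental_jF (k := K) N
  apply exists_pole_bound
  intro v hv
  obtain ⟨c, hc⟩ := exists_sub_ord_pos ht hv
  have hdvd := ram_dvd N ι v c hc
  have h6 : (6 : K) ≠ 0 := by norm_num
  have h1 : Ge v (1 - v.ord (jF' K N - algebraMap K _ c)) g :=
    ge_of_D hg (Ge.of_le (hu v hv)) (by exact_mod_cast hc.ne') (Or.inr ⟨c, rfl⟩)
  have h2 := ge_zz hc rfl (k1728 h6) h1 (by
      intro h0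
      rw [h0] at hdvd ⊢
      have h3 : JFun.ramJ (ι 0) = 3 := by rw [JFun.ramJ, if_pos (map_zero ι)]
      rw [h3] at hdvd
      exact Int.le_of_dvd (by norm_num) hdvd) (by
      intro h0
      rw [h0] at hdvd ⊢
      have h3 : JFun.ramJ (ι 1728) = 2 := by
        rw [JFun.ramJ, if_neg, if_pos (map_ofNat ι 1728)]
        rw [map_ofNat]; norm_num
      rw [h3] at hdvd
      exact Int.le_of_dvd (by norm_num) hdvd) (by
      intro h0 h1
      have h3 : JFun.ramJ (ι c) = 1 := by
        rw [JFun.ramJ, if_neg, if_neg]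
        · intro h
          apply h1
          apply ι.injective
          rw [h, map_ofNat]
        · intro h
          exact h0 ((map_eq_zero ι).1 h)
      rw [h3] at hdvd
      exact Int.le_of_dvd (by norm_num) hdvd)
  rcases h2 with h2 | h2
  · rw [h2, v.ord_zero]
  · exact h2

theorem map_zz {K₁ F₁ K₂ F₂ : Type*} [Field K₁] [Field F₁] [Algebra K₁ F₁] [Field K₂] [Field F₂]
    [Algebra K₂ F₂] (W : Subring F₁) (f : W →+* F₂) (t x : F₁) (ht : t ∈ W) (hx : x ∈ W)
    (hz : zz K₁ t x ∈ W) : f ⟨zz K₁ t x, hz⟩ = zz K₂ (f ⟨t, ht⟩) (f ⟨x, hx⟩) := by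
  have h1 : (⟨zz K₁ t x, hz⟩ : W) = ⟨x, hx⟩ ^ 6 * ⟨t, ht⟩ ^ 4 * (⟨t, ht⟩ - 1728) ^ 3 := by
    apply Subtype.ext
    change zz K₁ t x = x ^ 6 * t ^ 4 * (t - ((1728 : W) : F₁)) ^ 3
    rw [zz, map_ofNat]
    rfl
  rw [h1, map_mul, map_mul, map_pow, map_pow, map_pow, map_sub, map_ofNat, zz, map_ofNat]

/-- the reduction homomorphism -/
def redW (hk : Function.Surjective (algebraMap A k)) (hN : (N : k) ≠ 0) :
    (Wφ A k (FF K N).val).toSubring →+* FF k N := (redFF K hk hN).toRingHom

theorem zz_mem_W {x : FF K N} (hx : x ∈ Wφ A k (FF K N).val) :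
    zz K (jF' K N) x ∈ Wφ A k (FF K N).val := by
  have h1 : jF' K N ∈ Wφ A k (FF K N).val := mem_Wφ_of_eq _ val_jF
  rw [zz, map_ofNat]
  exact mul_mem (mul_mem (pow_mem hx _) (pow_mem h1 _)) (pow_mem (sub_mem h1 (by
    have : (1728 : FF K N) = ((1728 : ℕ) : FF K N) := by norm_num
    rw [this]
    exact natCast_mem _ 1728)) _)

theorem red_zz (hk : Function.Surjective (algebraMap A k)) (hN : (N : k) ≠ 0) {x : FF K N}
    (hx : x ∈ Wφ A k (FF K N).val) :
    redFF K hk hN ⟨zz K (jF' K N) x, zz_mem_W hx⟩ = zz k (jF' k N) (redFF K hk hN ⟨x, hx⟩) := by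
  have h1 : jF' K N ∈ Wφ A k (FF K N).val := mem_Wφ_of_eq _ val_jF
  have h := map_zz (K₁ := K) (K₂ := k) (Wφ A k (FF K N).val).toSubring (redW hk hN) (jF' K N) x h1 hx
    (zz_mem_W hx)
  have h2 : redFF K hk hN ⟨jF' K N, h1⟩ = jF' k N := redFF_jF hk hN h1
  rw [← h2]
  exact h

/-- **Tameness at the finite places.** -/
theorem tame_finite [CharZero K] [Algebra ℚ K] (ι : K →+* ℂ)
    (hk : Function.Surjective (algebraMap A k)) (hN : (N : k) ≠ 0) (h6 : (6 : k) ≠ 0)
    [FunField k (FF k N)] (v : Place k (FF k N)) {c : k}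
    (hc : 0 < v.ord (jF' k N - algebraMap k _ c)) :
    ((v.ord (jF' k N - algebraMap k _ c) : ℤ) : k) ≠ 0 := by
  have hNK := natCast_K (A := A) (K := K) hN
  haveI := funField_FF (k := K) (M := N) hNK
  have H := fibreHyp (K := K) (N := N) hk hN
  rw [rrGenus_eq_level ι hk hN] at H
  obtain ⟨n0, hn0⟩ := rd_eq_LL H
  have ht := RR.transcendental_jF (k := k) N
  have hv : 0 ≤ v.ord (jF' k N) := by
    by_contra hneg
    push Not at hneg
    have := (ord_sub_eq_of_neg hneg c).2
    omega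
  obtain ⟨a, ha, π₀, hπL, hπ1⟩ := exists_simple_zero ht v hv n0
  rw [← hn0 a 0 (by omega)] at hπL
  obtain ⟨u, hu, hπu⟩ := hπL
  have huW : u ∈ Wφ A k (FF K N).val := hu.1
  have huL : u ∈ LL (poleDiv K (jF' K N)) (zeroDiv K (jF' K N)) 0 a 0 := hu.2
  obtain ⟨g, hg1, hg2⟩ := exists_dj hNK u
  have hgW : g ∈ Wφ A k (FF K N).val := dj_mem (A := A) (k := k) huW hg2
  obtain ⟨b, hb⟩ := zz_dj_mem ι (u := u) (g := g) (by
    intro w hw
    have h1 := (mem_LL.1 huL) w
    rw [poleDiv_apply, max_eq_right (by omega)] at h1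
    simp only [Nat.cast_zero, zero_mul, add_zero, mul_zero, Finsupp.coe_zero, Pi.zero_apply,
      neg_zero] at h1
    rcases h1 with h1 | h1
    · rw [h1, w.ord_zero]
    · exact h1) hg1
  have hzL := H.π_mem_LL (x := zz K (jF' K N) g) (zz_mem_W hgW) hb
  have e1 : (gaussFF K hk hN).π ⟨zz K (jF' K N) g, zz_mem_W hgW⟩ =
      zz k (jF' k N) (redFF K hk hN ⟨g, hgW⟩) := red_zz hk hN hgW
  rw [e1] at hzL
  have hz0 : Ge v 0 (zz k (jF' k N) (redFF K hk hN ⟨g, hgW⟩)) := by
    have h1 := (mem_LL.1 hzL) v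
    rw [poleDiv_apply, max_eq_right (by omega)] at h1
    simp only [Nat.cast_zero, zero_mul, add_zero, mul_zero, Finsupp.coe_zero, Pi.zero_apply,
      neg_zero] at h1
    exact h1
  have hge := ge_of_zz ht hc rfl (k1728 h6) hz0
  have hπu' : redFF K hk hN ⟨u, huW⟩ = π₀ := hπu
  have hθ : theta ((π₀ : FF k N) : LaurentSeries k) =
      ((redFF K hk hN ⟨g, hgW⟩ : FF k N) : LaurentSeries k) * theta (jqModC k) := by
    rw [← hπu', coe_redFF, coe_redFF]
    exact πL_dj (A := A) (k := k) huW hg2 hgW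
  have hD := D_of_theta hN hθ
  refine tame_of hπ1 hD rfl ?_
  rcases hge with h0 | h0
  · rw [h0, v.ord_zero]
    omega
  · omega

/-- **Tameness at the cusps.** -/
theorem tame_cusp (hN : (N : k) ≠ 0) [FunField k (FF k N)] (v : Place k (FF k N))
    (hv : v.ord (jF' k N) < 0) : ((v.ord (jF' k N) : ℤ) : k) ≠ 0 := by
  haveI := finite_Emb (k := k) (N := N) hN
  haveI := Fintype.ofFinite (Emb k N)
  obtain ⟨pl, h1, h2, h3, -⟩ := exists_places (k := k) (N := N) hN
  obtain ⟨τ, rfl⟩ := h3 v hv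
  have h4 := h1 τ (jF' k N) jF_ne_zero
  have h5 : τ.1 (jF' k N) = Jc 1 (pn N) := τ.2
  rw [h5, order_Jc, coe_pn] at h4
  intro h0
  apply hN
  have h6 := congrArg (Int.cast : ℤ → k) h4
  push_cast at h6
  rw [h0, mul_zero] at h6
  simpa using h6

end Main

end Fermat.Agent.ThmC
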